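import Mathlib.Tactic

/-!
# Bond percolation on the square lattice: configurations and connections

An edge `(v, false)` joins `v` to `v + (1, 0)` and `(v, true)` joins it to `v + (0, 1)`. A
configuration is the set of its open edges.
-/

set_option autoImplicit false

noncomputable section

open Set

namespace FA.Percolation

/-- The edges of the square lattice. -/
abbrev Edge : Type := (ℤ × ℤ) × Bool

/-- The second end of an edge. -/
def tip (e : Edge) : ℤ × ℤ := if e.2 then e.1 + (0, 1) else e.1 + (1, 0)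

theorem tip_false (v : ℤ × ℤ) : tip (v, false) = (v.1 + 1, v.2) := by simp [tip, Prod.ext_iff]

theorem tip_true (v : ℤ × ℤ) : tip (v, true) = (v.1, v.2 + 1) := by simp [tip, Prod.ext_iff]

theorem ne_tip (e : Edge) : e.1 ≠ tip e := by
  obtain ⟨⟨a, b⟩, d⟩ := e
  cases d <;> simp [tip_false, tip_true]

/-- `u` and `v` are the ends of `e`. -/
def Ends (e : Edge) (u v : ℤ × ℤ) : Prop := (e.1 = u ∧ tip e = v) ∨ (e.1 = v ∧ tip e = u)

theorem Ends.symm {e : Edge} {u v : ℤ × ℤ} (h : Ends e u v) : Ends e v u := Or.symm h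

theorem ends_self (e : Edge) : Ends e e.1 (tip e) := Or.inl ⟨rfl, rfl⟩

/-- An edge is determined by its ends. -/
theorem Ends.edge_unique {e e' : Edge} {u v : ℤ × ℤ} (h : Ends e u v) (h' : Ends e' u v) :
    e = e' := by
  obtain ⟨⟨a, b⟩, d⟩ := e
  obtain ⟨⟨a', b'⟩, d'⟩ := e'
  obtain ⟨x, y⟩ := u
  obtain ⟨z, w⟩ := v
  cases d <;> cases d' <;> simp only [Ends, tip_false, tip_true, Prod.ext_iff] at h h' ⊢ <;>
    simp <;> omega

/-- The ends are at distance one. -/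
theorem Ends.coord {e : Edge} {u v : ℤ × ℤ} (h : Ends e u v) :
    |u.1 - v.1| + |u.2 - v.2| = 1 := by
  obtain ⟨⟨a, b⟩, d⟩ := e
  rcases h with ⟨rfl, rfl⟩ | ⟨rfl, rfl⟩ <;> cases d <;> simp [tip_false, tip_true]

/-- Neighbouring vertices are joined by an edge. -/
theorem exists_edge {u v : ℤ × ℤ} (h : |u.1 - v.1| + |u.2 - v.2| = 1) : ∃ e, Ends e u v := by
  obtain ⟨a, b⟩ := u
  obtain ⟨c, d⟩ := v
  simp only at h
  rcases abs_cases (a - c) with ⟨h1, h1'⟩ | ⟨h1, h1'⟩ <;>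
    rcases abs_cases (b - d) with ⟨h2, h2'⟩ | ⟨h2, h2'⟩ <;> rw [h1, h2] at h
  all_goals
    rcases (show (c = a + 1 ∧ d = b) ∨ (a = c + 1 ∧ d = b) ∨ (c = a ∧ d = b + 1) ∨
      (c = a ∧ b = d + 1) by omega) with h' | h' | h' | h'
    · exact ⟨((a, b), false), Or.inl ⟨rfl, by simp [tip_false, h']⟩⟩
    · exact ⟨((c, d), false), Or.inr ⟨rfl, by simp [tip_false, h']⟩⟩
    · exact ⟨((a, b), true), Or.inl ⟨rfl, by simp [tip_true, h']⟩⟩
    · exact ⟨((c, d), true), Or.inr ⟨rfl, by simp [tip_true, h']⟩⟩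

/-- The edges with both ends in `S`. -/
def inner (S : Set (ℤ × ℤ)) : Set Edge := {e | e.1 ∈ S ∧ tip e ∈ S}

theorem Ends.mem_inner {e : Edge} {u v : ℤ × ℤ} {S : Set (ℤ × ℤ)} (h : Ends e u v) :
    e ∈ inner S ↔ u ∈ S ∧ v ∈ S := by
  rcases h with ⟨rfl, rfl⟩ | ⟨rfl, rfl⟩
  · rfl
  · exact and_comm

theorem inner_mono {S T : Set (ℤ × ℤ)} (h : S ⊆ T) : inner S ⊆ inner T :=
  fun _ he => ⟨h he.1, h he.2⟩

/-- The edges with both ends in a finite set. -/
def edgesIn (S : Finset (ℤ × ℤ)) : Finset Edge :=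
  (S ×ˢ Finset.univ).filter fun e => tip e ∈ S

theorem mem_edgesIn {S : Finset (ℤ × ℤ)} {e : Edge} :
    e ∈ edgesIn S ↔ e.1 ∈ S ∧ tip e ∈ S := by
  simp [edgesIn]

theorem coe_edgesIn (S : Finset (ℤ × ℤ)) : (edgesIn S : Set Edge) = inner (S : Set (ℤ × ℤ)) := by
  ext e
  simp [mem_edgesIn, inner]

variable {η η' : Set Edge} {S T : Set (ℤ × ℤ)} {u v w : ℤ × ℤ}

/-- An open step inside `S`. -/
def Step (η : Set Edge) (S : Set (ℤ × ℤ)) (u v : ℤ × ℤ) : Prop :=
  ∃ e ∈ η, Ends e u v ∧ u ∈ S ∧ v ∈ S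

/-- Connection by open edges inside `S`. -/
def Conn (η : Set Edge) (S : Set (ℤ × ℤ)) : ℤ × ℤ → ℤ × ℤ → Prop :=
  Relation.ReflTransGen (Step η S)

theorem Conn.refl (u : ℤ × ℤ) : Conn η S u u := Relation.ReflTransGen.refl

theorem Conn.trans (h : Conn η S u v) (h' : Conn η S v w) : Conn η S u w :=
  Relation.ReflTransGen.trans h h'

theorem Step.symm (h : Step η S u v) : Step η S v u := by
  obtain ⟨e, he, hends, hu, hv⟩ := h
  exact ⟨e, he, hends.symm, hv, hu⟩

theorem Conn.symm (h : Conn η S u v) : Conn η S v u :=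
  h.head_induction_on (Relation.ReflTransGen.refl) fun hac _ ih => ih.trans
    (Relation.ReflTransGen.single hac.symm)

theorem Conn.of_edge {e : Edge} (he : e ∈ η) (h : Ends e u v) (hu : u ∈ S) (hv : v ∈ S) :
    Conn η S u v := Relation.ReflTransGen.single ⟨e, he, h, hu, hv⟩

theorem Conn.mono (h : Conn η S u v) (hη : η ∩ inner S ⊆ η') (hS : S ⊆ T) : Conn η' T u v := by
  induction h with
  | refl => exact Conn.refl _
  | tail _ hbc ih =>
    obtain ⟨e, he, hends, ha, hb⟩ := hbc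
    exact ih.trans (Conn.of_edge (hη ⟨he, hends.mem_inner.2 ⟨ha, hb⟩⟩) hends (hS ha) (hS hb))

theorem Conn.mono_set (h : Conn η S u v) (hS : S ⊆ T) : Conn η T u v :=
  h.mono inter_subset_left hS

theorem Conn.mono_cfg (h : Conn η S u v) (hη : η ⊆ η') : Conn η' S u v :=
  h.mono (inter_subset_left.trans hη) Subset.rfl

/-- A connection only sees the edges inside its set. -/
theorem conn_congr (h : ∀ e ∈ inner S, (e ∈ η ↔ e ∈ η')) : Conn η S u v ↔ Conn η' S u v :=
  ⟨fun hc => hc.mono (fun e he => (h e he.2).1 he.1) Subset.rfl,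
    fun hc => hc.mono (fun e he => (h e he.2).2 he.1) Subset.rfl⟩

theorem Conn.mem (h : Conn η S u v) (hne : u ≠ v) : u ∈ S ∧ v ∈ S := by
  rcases Relation.ReflTransGen.cases_head h with rfl | ⟨c, ⟨e, -, -, hu, -⟩, -⟩
  · exact absurd rfl hne
  rcases Relation.ReflTransGen.cases_tail h with rfl | ⟨c', -, ⟨e', -, -, -, hv⟩⟩
  · exact absurd rfl hne
  exact ⟨hu, hv⟩

theorem Conn.mem_right (h : Conn η S u v) (hu : u ∈ S) : v ∈ S := by
  by_cases hne : u = v
  · exact hne ▸ hu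
  · exact (h.mem hne).2

/-- **First exit**: a connection leaving `T` has a first step out of it. -/
theorem Conn.exit (h : Conn η S u v) (hu : u ∈ T) (hv : v ∉ T) :
    ∃ a b, Conn η (S ∩ T) u a ∧ Step η S a b ∧ a ∈ T ∧ b ∉ T := by
  induction h using Relation.ReflTransGen.head_induction_on with
  | refl => exact absurd hu hv
  | @head a c hac _ ih =>
    by_cases hc : c ∈ T
    · obtain ⟨a', b', h1, h2⟩ := ih hc
      obtain ⟨e, he, hends, haS, hcS⟩ := hac
      exact ⟨a', b', (Conn.of_edge (S := S ∩ T) he hends ⟨haS, hu⟩ ⟨hcS, hc⟩).trans h1, h2⟩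
    · exact ⟨a, c, Conn.refl a, hac, hu, hc⟩

/-- A set closed under open steps contains what it is connected to. -/
theorem Conn.invariant {P : ℤ × ℤ → Prop} (h : Conn η S u v) (hu : P u)
    (hstep : ∀ a b, Step η S a b → P a → P b) : P v := by
  induction h with
  | refl => exact hu
  | tail _ hbc ih => exact hstep _ _ hbc ih

/-- The box of radius `n`. -/
def box (n : ℕ) : Finset (ℤ × ℤ) := Finset.Icc (-(n : ℤ)) n ×ˢ Finset.Icc (-(n : ℤ)) n

theorem mem_box {n : ℕ} {v : ℤ × ℤ} : v ∈ box n ↔ |v.1| ≤ n ∧ |v.2| ≤ n := by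
  simp only [box, Finset.mem_product, Finset.mem_Icc, abs_le]

theorem zero_mem_box (n : ℕ) : (0 : ℤ × ℤ) ∈ box n := by simp [mem_box]

theorem box_mono {m n : ℕ} (h : m ≤ n) : box m ⊆ box n := fun v hv => by
  simp only [mem_box] at hv ⊢
  omega

theorem exists_mem_box (v : ℤ × ℤ) : ∃ n, v ∈ box n :=
  ⟨v.1.natAbs + v.2.natAbs, by simp only [mem_box, abs_le]; omega⟩

theorem exists_subset_box (S : Finset (ℤ × ℤ)) : ∃ n, S ⊆ box n :=
  ⟨S.sup fun v => v.1.natAbs + v.2.natAbs, fun v hv => by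
    have := Finset.le_sup (f := fun v : ℤ × ℤ => v.1.natAbs + v.2.natAbs) hv
    simp only [mem_box, abs_le]
    omega⟩

/-- The vertices on the border of the box. -/
def border (n : ℕ) : Finset (ℤ × ℤ) := (box n).filter fun v => |v.1| = n ∨ |v.2| = n

theorem mem_border {n : ℕ} {v : ℤ × ℤ} :
    v ∈ border n ↔ v ∈ box n ∧ (|v.1| = n ∨ |v.2| = n) := by
  simp [border]

theorem mem_border_of_ends {n : ℕ} {e : Edge} (h : Ends e u v) (hu : u ∈ box n) (hv : v ∉ box n) :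
    u ∈ border n := by
  have hc := h.coord
  simp only [mem_border, mem_box, abs_le] at hu hv ⊢
  refine ⟨hu, ?_⟩
  rcases abs_cases (u.1 - v.1) with ⟨h1, h1'⟩ | ⟨h1, h1'⟩ <;>
    rcases abs_cases (u.2 - v.2) with ⟨h2, h2'⟩ | ⟨h2, h2'⟩ <;> rw [h1, h2] at hc <;>
    rcases abs_cases u.1 with ⟨h3, h3'⟩ | ⟨h3, h3'⟩ <;>
    rcases abs_cases u.2 with ⟨h4, h4'⟩ | ⟨h4, h4'⟩ <;> omega

/-- A connection leaving a box reaches its border inside it. -/
theorem Conn.to_border {n : ℕ} (h : Conn η S u v) (hu : u ∈ box n) (hv : v ∉ box n) :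
    ∃ a ∈ border n, Conn η (S ∩ ↑(box n)) u a := by
  obtain ⟨a, b, h1, ⟨e, -, hends, -⟩, ha, hb⟩ :=
    h.exit (T := (↑(box n) : Set (ℤ × ℤ))) (Finset.mem_coe.2 hu) (mt Finset.mem_coe.1 hv)
  exact ⟨a, mem_border_of_ends hends (Finset.mem_coe.1 ha) (mt Finset.mem_coe.2 hb), h1⟩

/-- A symmetry of the lattice. -/
structure Sym where
  /-- On vertices. -/
  onV : ℤ × ℤ ≃ ℤ × ℤ
  /-- On edges. -/
  onE : Edge ≃ Edge
  ends : ∀ e, Ends (onE e) (onV e.1) (onV (tip e))

theorem Sym.ends_iff (g : Sym) {e : Edge} : Ends (g.onE e) (g.onV u) (g.onV v) ↔ Ends e u v := by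
  refine ⟨fun h => ?_, fun h => ?_⟩
  · have := g.ends e
    rcases h with ⟨h1, h2⟩ | ⟨h1, h2⟩ <;> rcases this with ⟨h3, h4⟩ | ⟨h3, h4⟩ <;>
      rw [h1] at h3 <;> rw [h2] at h4
    · exact Or.inl ⟨(g.onV.injective h3).symm, (g.onV.injective h4).symm⟩
    · exact Or.inr ⟨(g.onV.injective h4).symm, (g.onV.injective h3).symm⟩
    · exact Or.inr ⟨(g.onV.injective h3).symm, (g.onV.injective h4).symm⟩
    · exact Or.inl ⟨(g.onV.injective h4).symm, (g.onV.injective h3).symm⟩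
  · rcases h with ⟨rfl, rfl⟩ | ⟨rfl, rfl⟩
    · exact g.ends e
    · exact (g.ends e).symm

theorem Sym.step_image (g : Sym) (h : Step η S u v) :
    Step (g.onE '' η) (g.onV '' S) (g.onV u) (g.onV v) := by
  obtain ⟨e, he, hends, hu, hv⟩ := h
  exact ⟨g.onE e, mem_image_of_mem _ he, g.ends_iff.2 hends, mem_image_of_mem _ hu,
    mem_image_of_mem _ hv⟩

theorem Sym.conn_image (g : Sym) (h : Conn η S u v) :
    Conn (g.onE '' η) (g.onV '' S) (g.onV u) (g.onV v) :=
  Relation.ReflTransGen.lift g.onV (fun _ _ => g.step_image) _ _ h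

/-- The inverse symmetry. -/
def Sym.inv (g : Sym) : Sym where
  onV := g.onV.symm
  onE := g.onE.symm
  ends e := g.ends_iff.1 (by simpa using ends_self e)

theorem Sym.conn_iff (g : Sym) :
    Conn (g.onE '' η) (g.onV '' S) (g.onV u) (g.onV v) ↔ Conn η S u v :=
  ⟨fun h => by simpa [Sym.inv, Set.image_image] using g.inv.conn_image h, g.conn_image⟩

/-- Translation. -/
def shiftSym (t : ℤ × ℤ) : Sym where
  onV := Equiv.addRight t
  onE := (Equiv.addRight t).prodCongr (Equiv.refl Bool)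
  ends e := by
    obtain ⟨⟨a, b⟩, d⟩ := e
    left
    cases d <;> simp [tip_false, tip_true, Prod.ext_iff, add_right_comm]

/-- Rotation by a right angle. -/
def rotSym : Sym where
  onV := ⟨fun v => (-v.2, v.1), fun v => (v.2, -v.1), fun v => by simp, fun v => by simp⟩
  onE := ⟨fun e => if e.2 then ((-e.1.2 - 1, e.1.1), false) else ((-e.1.2, e.1.1), true),
    fun e => if e.2 then ((e.1.2, -e.1.1), false) else ((e.1.2, -e.1.1 - 1), true),
    fun ⟨⟨a, b⟩, d⟩ => by cases d <;> simp,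
    fun ⟨⟨a, b⟩, d⟩ => by cases d <;> simp⟩
  ends e := by
    obtain ⟨⟨a, b⟩, d⟩ := e
    cases d
    · left
      simp [tip_false, tip_true]
    · right
      simp [tip_false, tip_true]
      ring

theorem shiftSym_onV (t v : ℤ × ℤ) : (shiftSym t).onV v = v + t := rfl

theorem rotSym_onV (v : ℤ × ℤ) : rotSym.onV v = (-v.2, v.1) := rfl

end FA.Percolation

end
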