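import Fermat.Agent.Percolation.Prob
import Mathlib.Data.ZMod.Basic

/-!
# Self-duality

The rectangle with one more column than rows is crossed by open edges from left to right exactly
when the dual edges do not cross it in the other direction; both halves are parity arguments.
-/

set_option autoImplicit false

noncomputable section

open Finset
open scoped Classical

namespace FA.Percolation

variable {p : ℝ} {h : ℕ} {η : Set Edge}

/-- The vertices of the rectangle: columns `0, …, h + 1` and rows `0, …, h`. -/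
def rectV (h : ℕ) : Finset (ℤ × ℤ) := Finset.Icc 0 ((h : ℤ) + 1) ×ˢ Finset.Icc 0 (h : ℤ)

theorem mem_rectV {v : ℤ × ℤ} :
    v ∈ rectV h ↔ (0 ≤ v.1 ∧ v.1 ≤ (h : ℤ) + 1) ∧ 0 ≤ v.2 ∧ v.2 ≤ (h : ℤ) := by
  simp [rectV]

/-- Its edges, without the two upright sides. -/
def rectE (h : ℕ) : Finset Edge :=
  (edgesIn (rectV h)).filter fun e => e.2 = true → 1 ≤ e.1.1 ∧ e.1.1 ≤ (h : ℤ)

theorem mem_rectE_false {a b : ℤ} :
    ((a, b), false) ∈ rectE h ↔ (0 ≤ a ∧ a ≤ (h : ℤ)) ∧ 0 ≤ b ∧ b ≤ (h : ℤ) := by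
  simp [rectE, mem_edgesIn, mem_rectV, tip_false]
  omega

theorem mem_rectE_true {a b : ℤ} :
    ((a, b), true) ∈ rectE h ↔ (1 ≤ a ∧ a ≤ (h : ℤ)) ∧ 0 ≤ b ∧ b + 1 ≤ (h : ℤ) := by
  simp [rectE, mem_edgesIn, mem_rectV, tip_true]
  omega

theorem inner_of_mem_rectE {e : Edge} (he : e ∈ rectE h) :
    e ∈ inner (↑(rectV h) : Set (ℤ × ℤ)) := by
  rw [← coe_edgesIn]
  exact Finset.mem_coe.2 (mem_filter.1 he).1

/-- The rectangle is crossed from left to right. -/
def cross (h : ℕ) : Set (Set Edge) :=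
  {η | ∃ b b' : ℤ, (0 ≤ b ∧ b ≤ (h : ℤ)) ∧ (0 ≤ b' ∧ b' ≤ (h : ℤ)) ∧
    Conn (η ∩ ↑(rectE h)) Set.univ (0, b) ((h : ℤ) + 1, b')}

theorem isUpperSet_cross (h : ℕ) : IsUpperSet (cross h) :=
  fun _ _ hle ⟨b, b', hb, hb', hc⟩ =>
    ⟨b, b', hb, hb', hc.mono_cfg (Set.inter_subset_inter_left _ hle)⟩

theorem depOn_cross (h : ℕ) : DepOn (↑(rectE h)) (cross h) :=
  fun _ _ he ⟨b, b', hb, hb', hc⟩ =>
    ⟨b, b', hb, hb', hc.mono_cfg fun e hx => ⟨(he e hx.2).1 hx.1, hx.2⟩⟩

/-- A crossing may be trimmed to avoid the upright sides. -/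
theorem cross_of_conn {b b' : ℤ} (hb : 0 ≤ b ∧ b ≤ (h : ℤ)) (hb' : 0 ≤ b' ∧ b' ≤ (h : ℤ))
    (hc : Conn η (↑(rectV h) : Set (ℤ × ℤ)) (0, b) ((h : ℤ) + 1, b')) : η ∈ cross h := by
  by_contra hno
  have key : ∃ c : ℤ, (0 ≤ c ∧ c ≤ (h : ℤ)) ∧
      Conn (η ∩ ↑(rectE h)) Set.univ (0, c) ((h : ℤ) + 1, b') := by
    refine hc.invariant (P := fun v => ∃ c : ℤ, (0 ≤ c ∧ c ≤ (h : ℤ)) ∧
      Conn (η ∩ ↑(rectE h)) Set.univ (0, c) v) ⟨b, hb, Conn.refl _⟩ fun u v huv hu => ?_
    obtain ⟨e, he, hends, huS, hvS⟩ := huv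
    obtain ⟨c, hcb, hcu⟩ := hu
    by_cases hE : e ∈ rectE h
    · exact ⟨c, hcb, hcu.trans
        (Conn.of_edge (S := Set.univ) ⟨he, hE⟩ hends (Set.mem_univ u) (Set.mem_univ v))⟩
    have hin : e ∈ edgesIn (rectV h) := by
      rw [← Finset.mem_coe, coe_edgesIn]
      exact hends.mem_inner.2 ⟨huS, hvS⟩
    have hu' := mem_rectV.1 (Finset.mem_coe.1 huS)
    have hv' := mem_rectV.1 (Finset.mem_coe.1 hvS)
    obtain ⟨⟨x, y⟩, d⟩ := e
    cases d
    · exact absurd (mem_filter.2 ⟨hin, fun hh => by simp at hh⟩) hE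
    have hx : x = 0 ∨ x = (h : ℤ) + 1 := by
      by_contra hx
      have h1 := mem_rectV.1 (mem_edgesIn.1 hin).1
      simp only at h1
      exact hE (mem_filter.2 ⟨hin, fun _ => ⟨by simp only; omega, by simp only; omega⟩⟩)
    rcases hx with rfl | rfl
    · refine ⟨v.2, hv'.2, ?_⟩
      have : v = (0, v.2) := by
        rcases hends with ⟨-, h2⟩ | ⟨h1, -⟩
        · rw [← h2]
          simp [tip_true]
        · rw [← h1]
      rw [← this]
      exact Conn.refl v
    · refine absurd ⟨c, u.2, hcb, hu'.2, ?_⟩ hno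
      have : u = ((h : ℤ) + 1, u.2) := by
        rcases hends with ⟨h1, -⟩ | ⟨-, h2⟩
        · rw [← h1]
        · rw [← h2]
          simp [tip_true]
      rwa [← this]
  obtain ⟨c, hcb, hcc⟩ := key
  exact hno ⟨c, b', hcb, hb', hcc⟩

/-- The dual edge, in the coordinates of the turned rectangle. -/
def dualE : Edge ≃ Edge :=
  ⟨fun e => if e.2 then ((e.1.2 + 1, e.1.1 - 1), true) else ((e.1.2, e.1.1), false),
    fun e => if e.2 then ((e.1.2 + 1, e.1.1 - 1), true) else ((e.1.2, e.1.1), false),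
    fun ⟨⟨a, b⟩, d⟩ => by cases d <;> simp,
    fun ⟨⟨a, b⟩, d⟩ => by cases d <;> simp⟩

theorem dualE_false (a b : ℤ) : dualE ((a, b), false) = ((b, a), false) := rfl

theorem dualE_true (a b : ℤ) : dualE ((a, b), true) = ((b + 1, a - 1), true) := rfl

theorem dualE_dualE (e : Edge) : dualE (dualE e) = e := dualE.left_inv e

theorem dualE_mem_rectE {e : Edge} : dualE e ∈ rectE h ↔ e ∈ rectE h := by
  obtain ⟨⟨a, b⟩, d⟩ := e
  cases d <;> simp only [dualE_false, dualE_true, mem_rectE_false, mem_rectE_true] <;> omega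

theorem map_dualE (h : ℕ) : (rectE h).map dualE.toEmbedding = rectE h := by
  ext e
  rw [Finset.mem_map_equiv]
  exact dualE_mem_rectE

/-- The dual configuration. -/
def dualCfg (h : ℕ) (η : Set Edge) : Set Edge := ↑(rectE h) \ dualE '' η

/-- The boundary of a chain of edges, modulo two. -/
def bd (g : Edge → ZMod 2) (u : ℤ × ℤ) : ZMod 2 :=
  g (u, false) + g (u, true) + g ((u.1 - 1, u.2), false) + g ((u.1, u.2 - 1), true)

theorem bd_single (e : Edge) (u : ℤ × ℤ) :
    bd (fun x => if x = e then 1 else 0) u =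
      (if u = e.1 then 1 else 0) + (if u = tip e then 1 else 0) := by
  obtain ⟨⟨a, b⟩, d⟩ := e
  obtain ⟨x, y⟩ := u
  cases d <;> simp only [bd, tip_false, tip_true, Prod.mk.injEq, reduceCtorEq, and_false, and_true,
    if_false, add_zero, zero_add] <;>
    congr 1 <;> exact if_congr (by omega) rfl rfl

/-- A connection carries a chain. -/
theorem exists_chain {u v : ℤ × ℤ} {S : Set (ℤ × ℤ)} (hc : Conn η S u v) :
    ∃ g : Edge → ZMod 2, (∀ e, g e ≠ 0 → e ∈ η) ∧
      ∀ w, bd g w = (if w = u then 1 else 0) + (if w = v then 1 else 0) := by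
  induction hc with
  | refl => exact ⟨0, fun e he => absurd rfl he, fun w => by simp [bd, CharTwo.add_self_eq_zero]⟩
  | @tail b c _ hbc ih =>
    obtain ⟨g, hg, hbd⟩ := ih
    obtain ⟨e, he, hends, -, -⟩ := hbc
    refine ⟨fun x => g x + (if x = e then 1 else 0), fun x hx => ?_, fun w => ?_⟩
    · by_cases hxe : x = e
      · exact hxe ▸ he
      · exact hg x fun h0 => hx (by simp [h0, hxe])
    · have e1 : bd (fun x => g x + (if x = e then 1 else 0)) w =
          bd g w + bd (fun x => if x = e then 1 else 0) w := by simp only [bd]; ring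
      rw [e1, hbd, bd_single]
      rcases hends with ⟨h1, h2⟩ | ⟨h1, h2⟩ <;> rw [h1, h2] <;>
        linear_combination CharTwo.add_self_eq_zero (if w = b then (1 : ZMod 2) else 0)

/-- **At most one of the two crossings.** -/
theorem not_cross_dual (hη : η ∈ cross h) : dualCfg h η ∉ cross h := by
  rintro ⟨c, c', hc, hc', hdual⟩
  obtain ⟨b, b', hb, hb', hprim⟩ := hη
  obtain ⟨g, hg, hbd⟩ := exists_chain hdual
  have hg' : ∀ e, e ∉ rectE h → g e = 0 := fun e he => by
    by_contra h0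
    exact he (hg e h0).2
  set χ : ℤ × ℤ → ZMod 2 := fun v => ∑ i ∈ range v.1.toNat, g ((v.2, (i : ℤ)), false) with hχ
  have hsucc : ∀ a b : ℤ, 0 ≤ a → χ (a + 1, b) = χ (a, b) + g ((b, a), false) := fun a b ha => by
    simp only [hχ]
    rw [show (a + 1).toNat = a.toNat + 1 by omega, sum_range_succ, Int.toNat_of_nonneg ha]
  have hzero : ∀ b : ℤ, χ (0, b) = 0 := fun b => by simp [hχ]
  have hup : ∀ b : ℤ, 0 ≤ b → b + 1 ≤ (h : ℤ) → ∀ a : ℕ, a ≤ h + 1 →
      χ ((a : ℤ), b) + χ ((a : ℤ), b + 1) = g ((b + 1, (a : ℤ) - 1), true) := by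
    intro b hb0 hb1 a
    induction a with
    | zero =>
      intro _
      rw [Nat.cast_zero, hzero, hzero, hg' _ (by simp [mem_rectE_true]), add_zero]
    | succ a ih =>
      intro ha
      have ih' := ih (by omega)
      have h0 := hbd (b + 1, (a : ℤ))
      rw [if_neg (by simp; omega), if_neg (by simp; omega), add_zero] at h0
      simp only [bd, add_sub_cancel_right] at h0
      push_cast
      rw [hsucc _ _ (by positivity), hsucc _ _ (by positivity), add_sub_cancel_right]
      linear_combination ih' + h0 -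
        CharTwo.add_self_eq_zero (g ((b + 1, (a : ℤ)), true))
  have hone : χ ((h : ℤ) + 1, 0) = 1 := by
    have e : χ ((h : ℤ) + 1, 0) = ∑ i ∈ range (h + 1), bd g (0, (i : ℤ)) := by
      simp only [hχ]
      rw [show ((h : ℤ) + 1).toNat = h + 1 by omega]
      refine sum_congr rfl fun i _ => ?_
      simp only [bd]
      rw [hg' ((0, (i : ℤ)), true) (by simp [mem_rectE_true]),
        hg' ((0 - 1, (i : ℤ)), false) (by simp [mem_rectE_false]),
        hg' ((0, (i : ℤ) - 1), true) (by simp [mem_rectE_true]), add_zero, add_zero, add_zero]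
    rw [e, sum_congr rfl fun i (_ : i ∈ range (h + 1)) => hbd (0, (i : ℤ)),
      sum_add_distrib]
    have h1 : ∀ i : ℕ, ((0, (i : ℤ)) : ℤ × ℤ) = (0, c) ↔ i = c.toNat := fun i => by
      simp only [Prod.mk.injEq, true_and]
      omega
    have h2 : ∀ i : ℕ, ((0, (i : ℤ)) : ℤ × ℤ) ≠ ((h : ℤ) + 1, c') := fun i => by
      simp only [ne_eq, Prod.mk.injEq]
      omega
    rw [sum_eq_zero fun i (_ : i ∈ range (h + 1)) => if_neg (h2 i), add_zero]
    simp only [h1, sum_ite_eq', Finset.mem_range]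
    rw [if_pos (by omega)]
  have hright : ∀ b : ℕ, b ≤ h → χ ((h : ℤ) + 1, (b : ℤ)) = 1 := fun b => by
    induction b with
    | zero => exact fun _ => by simpa using hone
    | succ b ih =>
      intro hb
      have := hup b (by positivity) (by omega) (h + 1) le_rfl
      rw [Nat.cast_succ h, add_sub_cancel_right, hg' _ (by simp [mem_rectE_true]),
        ih (by omega)] at this
      push_cast
      linear_combination this - CharTwo.add_self_eq_zero (1 : ZMod 2)
  have hconst : χ ((h : ℤ) + 1, b') = 0 := by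
    refine hprim.invariant (P := fun v => χ v = 0) (hzero b) fun u v huv hu => ?_
    obtain ⟨e, ⟨he, heR⟩, hends, -, -⟩ := huv
    have hz : g (dualE e) = 0 := by
      by_contra h0
      exact (hg _ h0).1.2 (Set.mem_image_of_mem _ he)
    have hstep : χ (tip e) = χ e.1 := by
      obtain ⟨⟨x, y⟩, d⟩ := e
      cases d
      · obtain ⟨⟨h1, -⟩, -⟩ := mem_rectE_false.1 (Finset.mem_coe.1 heR)
        rw [dualE_false] at hz
        rw [tip_false, hsucc x y h1, hz, add_zero]
      · obtain ⟨⟨h1, h1'⟩, h2, h2'⟩ := mem_rectE_true.1 (Finset.mem_coe.1 heR)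
        have := hup y h2 h2' x.toNat (by omega)
        rw [Int.toNat_of_nonneg (by omega)] at this
        rw [dualE_true] at hz
        rw [hz] at this
        rw [tip_true]
        linear_combination this - CharTwo.add_self_eq_zero (χ (x, y))
    show χ v = 0
    rcases hends with ⟨rfl, rfl⟩ | ⟨rfl, rfl⟩
    · exact hstep.trans hu
    · exact hstep.symm.trans hu
  have := hright b'.toNat (by omega)
  rw [Int.toNat_of_nonneg hb'.1, hconst] at this
  exact zero_ne_one this

/-- What is joined to the left side. -/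
def sideInd (h : ℕ) (η : Set Edge) (v : ℤ × ℤ) : ZMod 2 :=
  if ∃ b : ℤ, (0 ≤ b ∧ b ≤ (h : ℤ)) ∧ Conn (η ∩ ↑(rectE h)) Set.univ (0, b) v then 1 else 0

theorem sideInd_left {b : ℤ} (hb : 0 ≤ b ∧ b ≤ (h : ℤ)) : sideInd h η (0, b) = 1 :=
  if_pos ⟨b, hb, Conn.refl _⟩

theorem sideInd_right (hη : η ∉ cross h) {b : ℤ} (hb : 0 ≤ b ∧ b ≤ (h : ℤ)) :
    sideInd h η ((h : ℤ) + 1, b) = 0 :=
  if_neg fun ⟨c, hc, hcc⟩ => hη ⟨c, b, hc, hb, hcc⟩

theorem sideInd_edge {e : Edge} (he : e ∈ η) (hR : e ∈ rectE h) :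
    sideInd h η e.1 = sideInd h η (tip e) := by
  have hc : Conn (η ∩ ↑(rectE h)) Set.univ e.1 (tip e) :=
    Conn.of_edge ⟨he, hR⟩ (ends_self e) trivial trivial
  exact if_congr ⟨fun ⟨b, hb, hb'⟩ => ⟨b, hb, hb'.trans hc⟩,
    fun ⟨b, hb, hb'⟩ => ⟨b, hb, hb'.trans hc.symm⟩⟩ rfl rfl

theorem sum_edges_tail {g : Edge → ZMod 2} (hg : ∀ e, e ∉ rectE h → g e = 0)
    (f : ℤ × ℤ → ZMod 2) :
    ∑ e ∈ rectE h, g e * f e.1 = ∑ u ∈ rectV h, (g (u, false) + g (u, true)) * f u := by
  rw [← sum_fiberwise_of_maps_to (g := fun e : Edge => e.1) (t := rectV h)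
    fun e he => (inner_of_mem_rectE he).1]
  refine sum_congr rfl fun u _ => ?_
  rw [sum_congr rfl fun e he => show g e * f e.1 = g e * f u by rw [(mem_filter.1 he).2],
    ← sum_mul]
  congr 1
  rw [← sum_pair (show ((u, false) : Edge) ≠ (u, true) by simp)]
  refine sum_subset (fun e he => ?_) fun e he hne => hg e fun h' => hne ?_
  · obtain ⟨x, d⟩ := e
    obtain rfl := (mem_filter.1 he).2
    cases d <;> simp
  · rcases mem_insert.1 he with rfl | h''
    · exact mem_filter.2 ⟨h', rfl⟩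
    · obtain rfl := Finset.mem_singleton.1 h''
      exact mem_filter.2 ⟨h', rfl⟩

theorem sum_edges_tip {g : Edge → ZMod 2} (hg : ∀ e, e ∉ rectE h → g e = 0)
    (f : ℤ × ℤ → ZMod 2) :
    ∑ e ∈ rectE h, g e * f (tip e) =
      ∑ u ∈ rectV h, (g ((u.1 - 1, u.2), false) + g ((u.1, u.2 - 1), true)) * f u := by
  rw [← sum_fiberwise_of_maps_to (g := tip) (t := rectV h)
    fun e he => (inner_of_mem_rectE he).2]
  refine sum_congr rfl fun u _ => ?_
  rw [sum_congr rfl fun e he => show g e * f (tip e) = g e * f u by rw [(mem_filter.1 he).2],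
    ← sum_mul]
  congr 1
  rw [← sum_pair (show (((u.1 - 1, u.2), false) : Edge) ≠ ((u.1, u.2 - 1), true) by simp)]
  refine sum_subset (fun e he => ?_) fun e he hne => hg e fun h' => hne ?_
  · obtain ⟨⟨x, y⟩, d⟩ := e
    obtain rfl := (mem_filter.1 he).2
    cases d <;> simp [tip_false, tip_true]
  · rcases mem_insert.1 he with rfl | h''
    · exact mem_filter.2 ⟨h', by simp [tip_false]⟩
    · obtain rfl := Finset.mem_singleton.1 h''
      exact mem_filter.2 ⟨h', by simp [tip_true]⟩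

/-- **At least one of the two crossings.** -/
theorem cross_or_dual (hη : η ∉ cross h) : dualCfg h η ∈ cross h := by
  by_contra hd
  set χ := sideInd h η
  set ψ := sideInd h (dualCfg h η)
  set g : Edge → ZMod 2 := fun e =>
    if e ∈ rectE h then χ (dualE e).1 + χ (tip (dualE e)) else 0 with hgdef
  have hg : ∀ e, e ∉ rectE h → g e = 0 := fun e he => if_neg he
  have hzero : ∑ e ∈ rectE h, g e * (ψ e.1 + ψ (tip e)) = 0 := by
    refine sum_eq_zero fun e he => ?_
    by_cases hopen : dualE e ∈ η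
    · rw [hgdef]
      simp only [if_pos he]
      rw [show χ (dualE e).1 = χ (tip (dualE e)) from
        sideInd_edge hopen (dualE_mem_rectE.2 he), CharTwo.add_self_eq_zero, zero_mul]
    · have : e ∈ dualCfg h η := ⟨Finset.mem_coe.2 he, fun ⟨x, hx, hxe⟩ => hopen (by
        rw [← hxe, dualE_dualE]
        exact hx)⟩
      rw [show ψ e.1 = ψ (tip e) from sideInd_edge this he, CharTwo.add_self_eq_zero, mul_zero]
  have hsum : ∑ e ∈ rectE h, g e * (ψ e.1 + ψ (tip e)) = ∑ u ∈ rectV h, bd g u * ψ u := by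
    simp only [mul_add, sum_add_distrib, sum_edges_tail hg, sum_edges_tip hg]
    rw [← sum_add_distrib]
    exact sum_congr rfl fun u _ => by simp only [bd]; ring
  have hh : ∀ i j : ℤ, 1 ≤ i → i ≤ (h : ℤ) → 0 ≤ j → j ≤ (h : ℤ) → bd g (i, j) = 0 := by
    intro i j hi hi' hj hj'
    have g1 : g ((i, j), false) = χ (j, i) + χ (j + 1, i) := by
      rw [hgdef]
      simp only [dualE_false, tip_false]
      exact if_pos (mem_rectE_false.2 ⟨⟨by omega, hi'⟩, hj, hj'⟩)
    have g2 : g ((i - 1, j), false) = χ (j, i - 1) + χ (j + 1, i - 1) := by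
      rw [hgdef]
      simp only [dualE_false, tip_false]
      exact if_pos (mem_rectE_false.2 ⟨⟨by omega, by omega⟩, hj, hj'⟩)
    have g3 : g ((i, j), true) = χ (j + 1, i - 1) + χ (j + 1, i) := by
      rw [hgdef]
      simp only [dualE_true, tip_true, sub_add_cancel]
      split_ifs with hc
      · rfl
      · have hj2 : j + 1 = (h : ℤ) + 1 := by
          rw [mem_rectE_true] at hc
          omega
        rw [hj2, show χ ((h : ℤ) + 1, i - 1) = 0 from sideInd_right hη ⟨by omega, by omega⟩,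
          show χ ((h : ℤ) + 1, i) = 0 from sideInd_right hη ⟨by omega, hi'⟩, add_zero]
    have g4 : g ((i, j - 1), true) = χ (j, i - 1) + χ (j, i) := by
      rw [hgdef]
      simp only [dualE_true, tip_true, sub_add_cancel]
      split_ifs with hc
      · rfl
      · obtain rfl : j = 0 := by
          rw [mem_rectE_true] at hc
          omega
        rw [show χ (0, i - 1) = 1 from sideInd_left ⟨by omega, by omega⟩,
          show χ (0, i) = 1 from sideInd_left ⟨by omega, hi'⟩, CharTwo.add_self_eq_zero]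
    simp only [bd, g1, g2, g3, g4]
    linear_combination CharTwo.add_self_eq_zero (χ (j, i)) +
      CharTwo.add_self_eq_zero (χ (j + 1, i)) + CharTwo.add_self_eq_zero (χ (j, i - 1)) +
      CharTwo.add_self_eq_zero (χ (j + 1, i - 1))
  have hcol : ∀ j : ℕ, j < h + 1 →
      bd g (0, (j : ℤ)) * ψ (0, (j : ℤ)) = χ ((j : ℤ), 0) - χ ((j : ℤ) + 1, 0) := fun j hj => by
    have g1 : g ((0, (j : ℤ)), false) = χ ((j : ℤ), 0) + χ ((j : ℤ) + 1, 0) := by
      rw [hgdef]
      simp only [dualE_false, tip_false]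
      exact if_pos (mem_rectE_false.2 ⟨⟨le_rfl, by positivity⟩, by positivity, by omega⟩)
    simp only [bd]
    rw [g1, hg ((0, (j : ℤ)), true) (by simp [mem_rectE_true]),
      hg ((0 - 1, (j : ℤ)), false) (by simp [mem_rectE_false]),
      hg ((0, (j : ℤ) - 1), true) (by simp [mem_rectE_true]),
      show ψ (0, (j : ℤ)) = 1 from sideInd_left ⟨by positivity, by omega⟩]
    linear_combination CharTwo.add_self_eq_zero (χ ((j : ℤ) + 1, 0))
  have hval : ∑ u ∈ rectV h, bd g u * ψ u = 1 := by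
    rw [← sum_subset (s₁ := (range (h + 1)).image fun j : ℕ => ((0, (j : ℤ)) : ℤ × ℤ))
      (fun u hu => ?_) (fun u hu hn => ?_)]
    · rw [sum_image fun a _ b _ hab => by simpa using hab,
        sum_congr rfl fun j hj => hcol j (Finset.mem_range.1 hj)]
      have := sum_range_sub' (fun j : ℕ => χ ((j : ℤ), 0)) (h + 1)
      push_cast at this
      rw [this, show χ (0, 0) = 1 from sideInd_left ⟨le_rfl, by positivity⟩,
        show χ ((h : ℤ) + 1, 0) = 0 from sideInd_right hη ⟨le_rfl, by positivity⟩, sub_zero]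
    · obtain ⟨j, hj, rfl⟩ := Finset.mem_image.1 hu
      rw [Finset.mem_range] at hj
      exact mem_rectV.2 ⟨⟨le_rfl, by simp; positivity⟩, by simp, by simp; omega⟩
    · obtain ⟨i, j⟩ := u
      obtain ⟨⟨h1, h2⟩, h3, h4⟩ := mem_rectV.1 hu
      simp only at h1 h2 h3 h4
      rcases (show i = 0 ∨ (1 ≤ i ∧ i ≤ (h : ℤ)) ∨ i = (h : ℤ) + 1 by omega) with
        rfl | ⟨h5, h6⟩ | rfl
      · exact absurd (Finset.mem_image.2
          ⟨j.toNat, Finset.mem_range.2 (by omega), by simp [Int.toNat_of_nonneg h3]⟩) hn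
      · rw [hh i j h5 h6 h3 h4, zero_mul]
      · rw [show ψ ((h : ℤ) + 1, j) = 0 from sideInd_right hd ⟨h3, h4⟩, mul_zero]
  rw [hsum, hval] at hzero
  exact one_ne_zero hzero

/-- **Self-duality**: exactly one of the two crossings happens. -/
theorem cross_dual_iff : dualCfg h η ∈ cross h ↔ η ∉ cross h :=
  ⟨fun h1 h2 => not_cross_dual h2 h1, cross_or_dual⟩

/-- The probability of crossing the rectangle. -/
theorem crossing_add (p : ℝ) (h : ℕ) :
    prob p (rectE h) (cross h) + prob (1 - p) (rectE h) (cross h) = 1 := by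
  have : prob (1 - p) (rectE h) (cross h) = prob p (rectE h) (cross h)ᶜ := by
    rw [← prob_flip]
    conv_lhs => rw [← map_dualE h, prob_map]
    refine prob_congr fun s _ => ?_
    rw [map_dualE]
    exact cross_dual_iff
  rw [this, prob_compl]
  ring

/-- **At one half the rectangle is crossed half the time.** -/
theorem crossing_half (h : ℕ) : prob (1 / 2) (rectE h) (cross h) = 1 / 2 := by
  have := crossing_add (1 / 2) h
  norm_num at this ⊢
  linarith

end FA.Percolation

end
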