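import Fermat.Agent.Percolation.Measure
import Mathlib.MeasureTheory.Integral.Bochner.Set

/-!
# Uniqueness of the infinite cluster

The argument of Burton and Keane: three infinite clusters would give many places where a cluster
falls apart into three infinite pieces, each needing a boundary point of its own; two are
excluded by finite energy and the law of zero and one.
-/

set_option autoImplicit false

noncomputable section

open MeasureTheory Finset
open scoped Classical

namespace FA.Percolation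

/-- **Places with three branches are at most as many as the possible leaves.** -/
theorem card_le_of_branches {ι β : Type*} : ∀ (n : ℕ) (Y : Finset β), Y.card = n →
    ∀ (T : Finset ι) (A : ι → Fin 3 → Finset β),
      (∀ x ∈ T, ∀ i, A x i ⊆ Y ∧ (A x i).Nonempty) →
      (∀ x ∈ T, ∀ i j, i ≠ j → Disjoint (A x i) (A x j)) →
      (∀ x ∈ T, ∀ x' ∈ T, x ≠ x' → ∃ K L : Finset β,
        (∀ i, (A x i ⊆ L ∨ A x i = K) ∧ (Disjoint (A x i) K ∨ A x i = K)) ∧
        (∀ i, (A x' i ⊆ K ∨ A x' i = L) ∧ (Disjoint (A x' i) L ∨ A x' i = L))) →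
      T.card ≤ n := by
  intro n
  induction n with
  | zero =>
    intro Y hY T A h1 _ _
    refine le_of_eq (Finset.card_eq_zero.2 (Finset.eq_empty_of_forall_notMem fun x hx => ?_))
    obtain ⟨a, ha⟩ := (h1 x hx 0).2
    rw [Finset.card_eq_zero.1 hY] at h1
    exact absurd ((h1 x hx 0).1 ha) (Finset.notMem_empty a)
  | succ n ih =>
    intro Y hY T A h1 h2 h3
    obtain ⟨y, hy⟩ := Finset.card_pos.1 (show 0 < Y.card by omega)
    have hY' : (Y.erase y).card = n := by rw [card_erase_of_mem hy, hY, Nat.add_sub_cancel]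
    have hrec : ∀ T' ⊆ T, (∀ x ∈ T', ∀ i, A x i ≠ {y}) → T'.card ≤ n := by
      intro T' hsub hne
      refine ih _ hY' T' (fun x i => (A x i).erase y) (fun x hx i => ⟨?_, ?_⟩)
        (fun x hx i j hij =>
          (h2 x (hsub hx) i j hij).mono (erase_subset _ _) (erase_subset _ _))
        fun x hx x' hx' hne' => ?_
      · exact erase_subset_erase y (h1 x (hsub hx) i).1
      · rw [Finset.nonempty_iff_ne_empty, ne_eq, Finset.erase_eq_empty_iff]
        rintro (h | h)
        · exact (h1 x (hsub hx) i).2.ne_empty h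
        · exact hne x hx i h
      · obtain ⟨K, L, hK, hL⟩ := h3 x (hsub hx) x' (hsub hx') hne'
        refine ⟨K.erase y, L.erase y, fun i => ⟨?_, ?_⟩, fun i => ⟨?_, ?_⟩⟩
        · exact (hK i).1.imp (erase_subset_erase y) (congrArg fun s : Finset β => s.erase y)
        · exact (hK i).2.imp (fun h => h.mono (erase_subset _ _) (erase_subset _ _))
            (congrArg fun s : Finset β => s.erase y)
        · exact (hL i).1.imp (erase_subset_erase y) (congrArg fun s : Finset β => s.erase y)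
        · exact (hL i).2.imp (fun h => h.mono (erase_subset _ _) (erase_subset _ _))
            (congrArg fun s : Finset β => s.erase y)
    by_cases hex : ∃ x ∈ T, ∃ i, A x i = {y}
    · obtain ⟨x, hx, i, hi⟩ := hex
      suffices h : ∀ x' ∈ T.erase x, ∀ j, A x' j ≠ {y} by
        have := hrec _ (erase_subset _ _) h
        rw [card_erase_of_mem hx] at this
        omega
      intro x' hx' j hj
      obtain ⟨hne, hx'T⟩ := mem_erase.1 hx'
      obtain ⟨K, L, hK, hL⟩ := h3 x hx x' hx'T (Ne.symm hne)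
      have clash : ∀ z ∈ T, ∀ M : Finset β, (∀ l, A z l ⊆ {y} ∨ A z l = M) → False := by
        intro z hz M hM
        have h' : ∀ l, A z l = {y} ∨ A z l = M := fun l => (hM l).imp_left fun h =>
          (Finset.subset_singleton_iff.1 h).resolve_left (h1 z hz l).2.ne_empty
        have hd : ∀ a b : Fin 3, a ≠ b → A z a ≠ A z b := fun a b hab he => by
          have := h2 z hz a b hab
          rw [he, disjoint_self_iff_empty] at this
          exact (h1 z hz b).2.ne_empty this
        rcases h' 0 with e0 | e0 <;> rcases h' 1 with e1 | e1 <;> rcases h' 2 with e2 | e2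
        all_goals first
          | exact hd 0 1 (by decide) (e0.trans e1.symm)
          | exact hd 0 2 (by decide) (e0.trans e2.symm)
          | exact hd 1 2 (by decide) (e1.trans e2.symm)
      have hKy : K ≠ {y} := fun h => clash x' hx'T L fun l => h ▸ (hL l).1
      have hLy : L ≠ {y} := fun h => clash x hx K fun l => h ▸ (hK l).1
      have hyK : y ∈ K := by
        rcases (hL j).1 with h | h
        · exact h (by simp [hj])
        · exact absurd (h.symm.trans hj) hLy
      rcases (hK i).2 with h | h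
      · exact Finset.disjoint_left.1 h (by simp [hi]) hyK
      · exact hKy (h.symm.trans hi)
    · have := hrec T Subset.rfl fun x hx i h => hex ⟨x, hx, i, h⟩
      omega

variable {η : Set Edge} {p : unitInterval}

/-- The box of radius `k` about `x`. -/
def boxAt (x : ℤ × ℤ) (k : ℕ) : Finset (ℤ × ℤ) :=
  Finset.Icc (x.1 - k) (x.1 + k) ×ˢ Finset.Icc (x.2 - k) (x.2 + k)

theorem mem_boxAt {x v : ℤ × ℤ} {k : ℕ} :
    v ∈ boxAt x k ↔ (x.1 - k ≤ v.1 ∧ v.1 ≤ x.1 + k) ∧ x.2 - k ≤ v.2 ∧ v.2 ≤ x.2 + k := by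
  simp [boxAt]

theorem boxAt_zero (k : ℕ) : boxAt 0 k = box k := by simp [boxAt, box]

theorem center_mem_boxAt (x : ℤ × ℤ) (k : ℕ) : x ∈ boxAt x k := by simp [mem_boxAt]

/-- A box with all edges open is connected. -/
theorem conn_boxAt {x : ℤ × ℤ} {k : ℕ} (h : (↑(edgesIn (boxAt x k)) : Set Edge) ⊆ η)
    {a b : ℤ × ℤ} (ha : a ∈ boxAt x k) (hb : b ∈ boxAt x k) :
    Conn η (↑(boxAt x k) : Set (ℤ × ℤ)) a b := by
  suffices H : ∀ a ∈ boxAt x k,
      Conn η (↑(boxAt x k) : Set (ℤ × ℤ)) (x.1 - k, x.2 - k) a from (H a ha).symm.trans (H b hb)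
  intro a ha
  obtain ⟨⟨h1, h1'⟩, h2, h2'⟩ := mem_boxAt.1 ha
  have hH : ∀ i : ℤ, x.1 - k ≤ i → i ≤ a.1 →
      Conn η (↑(boxAt x k) : Set (ℤ × ℤ)) (x.1 - k, x.2 - k) (i, x.2 - k) := fun i hi => by
    induction i, hi using Int.leInduction with
    | base => exact fun _ => Conn.refl _
    | succ i hi ih =>
      intro hi'
      have m1 : (i, x.2 - (k : ℤ)) ∈ boxAt x k :=
        mem_boxAt.2 ⟨⟨hi, show i ≤ _ by omega⟩, le_rfl, show _ ≤ _ by omega⟩
      have m2 : (i + 1, x.2 - (k : ℤ)) ∈ boxAt x k :=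
        mem_boxAt.2 ⟨⟨show _ ≤ i + 1 by omega, show i + 1 ≤ _ by omega⟩, le_rfl,
          show _ ≤ _ by omega⟩
      exact (ih (by omega)).trans (Conn.of_edge (e := ((i, x.2 - (k : ℤ)), false))
        (h (Finset.mem_coe.2 (mem_edgesIn.2 ⟨m1, by rw [tip_false]; exact m2⟩)))
        (Or.inl ⟨rfl, tip_false _⟩) m1 m2)
  have hV : ∀ j : ℤ, x.2 - k ≤ j → j ≤ a.2 →
      Conn η (↑(boxAt x k) : Set (ℤ × ℤ)) (a.1, x.2 - k) (a.1, j) := fun j hj => by
    induction j, hj using Int.leInduction with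
    | base => exact fun _ => Conn.refl _
    | succ j hj ih =>
      intro hj'
      have m1 : (a.1, j) ∈ boxAt x k := mem_boxAt.2 ⟨⟨h1, h1'⟩, hj, show j ≤ _ by omega⟩
      have m2 : (a.1, j + 1) ∈ boxAt x k :=
        mem_boxAt.2 ⟨⟨h1, h1'⟩, show _ ≤ j + 1 by omega, show j + 1 ≤ _ by omega⟩
      exact (ih (by omega)).trans (Conn.of_edge (e := ((a.1, j), true))
        (h (Finset.mem_coe.2 (mem_edgesIn.2 ⟨m1, by rw [tip_true]; exact m2⟩)))
        (Or.inl ⟨rfl, tip_true _⟩) m1 m2)
  exact (hH a.1 h1 le_rfl).trans (hV a.2 h2 le_rfl)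

/-- The edges of the box, open, join three infinite clusters of the rest. -/
def trif (k : ℕ) (x : ℤ × ℤ) : Set (Set Edge) :=
  {η | (↑(edgesIn (boxAt x k)) : Set Edge) ⊆ η ∧ ∃ u : Fin 3 → ℤ × ℤ,
    (∀ i, u i ∈ boxAt x k ∧ Inf (η \ ↑(edgesIn (boxAt x k))) (u i)) ∧
    ∀ i j, i ≠ j → ¬Conn (η \ ↑(edgesIn (boxAt x k))) Set.univ (u i) (u j)}

theorem measurableSet_trif (k : ℕ) (x : ℤ × ℤ) : MeasurableSet (trif k x) := by
  have hm : Measurable fun η : Set Edge => η \ (↑(edgesIn (boxAt x k)) : Set Edge) := by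
    convert measurable_setOn (edgesIn (boxAt x k)) ∅ using 1
    ext η e
    simp [setOn]
  refine MeasurableSet.inter ?_ ?_
  · show MeasurableSet {η : Set Edge | (↑(edgesIn (boxAt x k)) : Set Edge) ⊆ η}
    rw [show {η : Set Edge | (↑(edgesIn (boxAt x k)) : Set Edge) ⊆ η} =
      ⋂ e ∈ edgesIn (boxAt x k), {η | e ∈ η} by ext η; simp [Set.subset_def]]
    exact Finset.measurableSet_biInter _ fun e _ => measurableSet_mem e
  · show MeasurableSet {η : Set Edge | ∃ u : Fin 3 → ℤ × ℤ,
      (∀ i, u i ∈ boxAt x k ∧ Inf (η \ ↑(edgesIn (boxAt x k))) (u i)) ∧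
      ∀ i j, i ≠ j → ¬Conn (η \ ↑(edgesIn (boxAt x k))) Set.univ (u i) (u j)}
    simp only [Set.ofPred_exists, Set.ofPred_and, Set.ofPred_forall]
    exact MeasurableSet.iUnion fun u => MeasurableSet.inter (MeasurableSet.iInter fun i =>
      (MeasurableSet.const _).inter (hm (measurableSet_inf (u i))))
      (MeasurableSet.iInter fun i => MeasurableSet.iInter fun j => MeasurableSet.iInter fun _ =>
        (hm (measurableSet_conn (u i) (u j))).compl)

/-- A branch of one box either leads to another box or avoids it. -/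
theorem branch_relation {N k : ℕ} {x x' u : ℤ × ℤ} (hd : Disjoint (boxAt x k) (boxAt x' k))
    (hsx : boxAt x k ⊆ box N) (hsx' : boxAt x' k ⊆ box N)
    (hx : (↑(edgesIn (boxAt x k)) : Set Edge) ⊆ η)
    (hx' : (↑(edgesIn (boxAt x' k)) : Set Edge) ⊆ η) (hu : u ∈ boxAt x k) :
    (((border N).filter fun w => Conn (η \ ↑(edgesIn (boxAt x k))) (↑(box N)) u w) ⊆
        ((border N).filter fun w => Conn (η \ ↑(edgesIn (boxAt x' k))) (↑(box N)) x w) ∨
      ((border N).filter fun w => Conn (η \ ↑(edgesIn (boxAt x k))) (↑(box N)) u w) =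
        (border N).filter fun w => Conn (η \ ↑(edgesIn (boxAt x k))) (↑(box N)) x' w) ∧
    (Disjoint ((border N).filter fun w => Conn (η \ ↑(edgesIn (boxAt x k))) (↑(box N)) u w)
        ((border N).filter fun w => Conn (η \ ↑(edgesIn (boxAt x k))) (↑(box N)) x' w) ∨
      ((border N).filter fun w => Conn (η \ ↑(edgesIn (boxAt x k))) (↑(box N)) u w) =
        (border N).filter fun w => Conn (η \ ↑(edgesIn (boxAt x k))) (↑(box N)) x' w) := by
  set η' := η \ (↑(edgesIn (boxAt x k)) : Set Edge)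
  have hsep : ∀ {a b : ℤ × ℤ}, Disjoint (boxAt a k) (boxAt b k) →
      ∀ e ∈ edgesIn (boxAt a k), e ∉ edgesIn (boxAt b k) := fun hab e he he' =>
    Finset.disjoint_left.1 hab (mem_edgesIn.1 he).1 (mem_edgesIn.1 he').1
  have hbox' : ∀ a ∈ boxAt x' k, Conn η' (↑(box N) : Set (ℤ × ℤ)) a x' := fun a ha =>
    ((conn_boxAt hx' ha (center_mem_boxAt x' k)).mono (fun e he => ⟨he.1, fun he' => hsep hd e
      (Finset.mem_coe.1 he') (by
        rw [← Finset.mem_coe, coe_edgesIn]
        exact he.2)⟩) (Finset.coe_subset.2 hsx'))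
  by_cases hc : Conn η' (↑(box N) : Set (ℤ × ℤ)) u x'
  · have e : ((border N).filter fun w => Conn η' (↑(box N)) u w) =
        (border N).filter fun w => Conn η' (↑(box N)) x' w :=
      filter_congr fun w _ => ⟨hc.symm.trans, hc.trans⟩
    exact ⟨Or.inr e, Or.inr e⟩
  refine ⟨Or.inl fun w hw => ?_, Or.inl (Finset.disjoint_left.2 fun w hw hw' =>
    hc ((mem_filter.1 hw).2.trans (mem_filter.1 hw').2.symm))⟩
  obtain ⟨hwN, hw⟩ := mem_filter.1 hw
  refine mem_filter.2 ⟨hwN, ?_⟩
  have h0 : Conn (η \ ↑(edgesIn (boxAt x' k))) (↑(box N) : Set (ℤ × ℤ)) x u :=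
    (conn_boxAt hx (center_mem_boxAt x k) hu).mono (fun e he => ⟨he.1, fun he' => hsep hd.symm e
      (Finset.mem_coe.1 he') (by
        rw [← Finset.mem_coe, coe_edgesIn]
        exact he.2)⟩) (Finset.coe_subset.2 hsx)
  refine h0.trans (hw.invariant (P := fun a => Conn η' (↑(box N) : Set (ℤ × ℤ)) u a ∧
    Conn (η \ ↑(edgesIn (boxAt x' k))) (↑(box N) : Set (ℤ × ℤ)) u a)
    ⟨Conn.refl u, Conn.refl u⟩ fun a b hab ha => ?_).2
  obtain ⟨e, he, hends, haN, hbN⟩ := hab
  refine ⟨ha.1.trans (Conn.of_edge he hends haN hbN),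
    ha.2.trans (Conn.of_edge ⟨he.1, fun hin => ?_⟩ hends haN hbN)⟩
  rw [coe_edgesIn] at hin
  exact hc (ha.1.trans (hbox' a (hends.mem_inner.1 hin).1))

/-- The three-branch boxes among disjoint ones are no more than the border. -/
theorem card_trif_le {N k : ℕ} (T : Finset (ℤ × ℤ)) (hsub : ∀ x ∈ T, boxAt x k ⊆ box N)
    (hd : ∀ x ∈ T, ∀ x' ∈ T, x ≠ x' → Disjoint (boxAt x k) (boxAt x' k)) (η : Set Edge) :
    (T.filter fun x => η ∈ trif k x).card ≤ (border N).card := by
  have hu : ∀ x, η ∈ trif k x → ∃ u : Fin 3 → ℤ × ℤ,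
      (∀ i, u i ∈ boxAt x k ∧ Inf (η \ ↑(edgesIn (boxAt x k))) (u i)) ∧
      ∀ i j, i ≠ j → ¬Conn (η \ ↑(edgesIn (boxAt x k))) Set.univ (u i) (u j) := fun x h => h.2
  choose! u hu1 hu2 using hu
  refine card_le_of_branches _ (border N) rfl _ (fun x i => (border N).filter fun w =>
    Conn (η \ ↑(edgesIn (boxAt x k))) (↑(box N) : Set (ℤ × ℤ)) (u x i) w)
    (fun x hx i => ⟨filter_subset _ _, ?_⟩) (fun x hx i j hij => ?_) fun x hx x' hx' hne => ?_
  · obtain ⟨hxT, hxη⟩ := mem_filter.1 hx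
    obtain ⟨hmem, hinf⟩ := hu1 x hxη i
    obtain ⟨w, hw, hc⟩ := hinf N
    obtain ⟨a, ha, hc'⟩ := hc.to_border' (hsub x hxT hmem) (Or.inr hw)
    exact ⟨a, mem_filter.2 ⟨ha, hc'.mono_set Set.inter_subset_right⟩⟩
  · obtain ⟨-, hxη⟩ := mem_filter.1 hx
    exact Finset.disjoint_left.2 fun w h1 h2 => hu2 x hxη i j hij
      (((mem_filter.1 h1).2.trans (mem_filter.1 h2).2.symm).mono_set (Set.subset_univ _))
  · obtain ⟨hxT, hxη⟩ := mem_filter.1 hx
    obtain ⟨hxT', hxη'⟩ := mem_filter.1 hx'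
    exact ⟨_, _, fun i => branch_relation (hd x hxT x' hxT' hne) (hsub x hxT) (hsub x' hxT')
        hxη.1 hxη'.1 (hu1 x hxη i).1,
      fun i => branch_relation (hd x' hxT' x hxT (Ne.symm hne)) (hsub x' hxT') (hsub x hxT)
        hxη'.1 hxη.1 (hu1 x' hxη' i).1⟩

theorem card_border_le (N : ℕ) : (border N).card ≤ 4 * (2 * N + 1) := by
  set I := Finset.Icc (-(N : ℤ)) N
  have hsub : border N ⊆ ((I.image fun j => ((-(N : ℤ)), j)) ∪ (I.image fun j => ((N : ℤ), j))) ∪
      ((I.image fun i => (i, (-(N : ℤ)))) ∪ (I.image fun i => (i, (N : ℤ)))) := fun v hv => by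
    obtain ⟨a, b⟩ := v
    simp only [mem_border, mem_box, abs_le] at hv
    simp only [I, Finset.mem_union, Finset.mem_image, Finset.mem_Icc, Prod.mk.injEq]
    obtain ⟨⟨h1, h2⟩, h | h⟩ := hv
    · rcases abs_cases a with ⟨e, -⟩ | ⟨e, -⟩ <;> rw [e] at h
      · exact Or.inl (Or.inr ⟨b, h2, h.symm, rfl⟩)
      · exact Or.inl (Or.inl ⟨b, h2, by omega, rfl⟩)
    · rcases abs_cases b with ⟨e, -⟩ | ⟨e, -⟩ <;> rw [e] at h
      · exact Or.inr (Or.inr ⟨a, h1, rfl, h.symm⟩)
      · exact Or.inr (Or.inl ⟨a, h1, rfl, by omega⟩)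
  have hI : I.card = 2 * N + 1 := by
    simp only [I, Int.card_Icc]
    omega
  have h := (card_le_card hsub).trans ((card_union_le _ _).trans
    (add_le_add (card_union_le _ _) (card_union_le _ _)))
  have hle : ∀ f : ℤ → ℤ × ℤ, (I.image f).card ≤ 2 * N + 1 := fun f => hI ▸ card_image_le
  linarith [hle fun j => ((-(N : ℤ)), j), hle fun j => ((N : ℤ), j),
    hle fun i => (i, (-(N : ℤ))), hle fun i => (i, (N : ℤ))]

theorem image_edgesIn_boxAt (t : ℤ × ℤ) (k : ℕ) :
    (shiftSym t).onE '' (↑(edgesIn (boxAt 0 k)) : Set Edge) = ↑(edgesIn (boxAt t k)) := by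
  ext e
  rw [Equiv.image_eq_preimage_symm, Set.mem_preimage, Finset.mem_coe, Finset.mem_coe]
  have hmem : ∀ v : ℤ × ℤ, (shiftSym t).onV.symm v ∈ boxAt 0 k ↔ v ∈ boxAt t k := fun v => by
    simp only [shiftSym, Equiv.addRight_symm, Equiv.coe_addRight, mem_boxAt, Prod.fst_add,
      Prod.snd_add, Prod.fst_neg, Prod.snd_neg, Prod.fst_zero, Prod.snd_zero]
    omega
  have h2 : Ends ((shiftSym t).onE.symm e) ((shiftSym t).onV.symm e.1)
      ((shiftSym t).onV.symm (tip e)) := (shiftSym t).inv.ends e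
  rw [← Finset.mem_coe, coe_edgesIn, h2.mem_inner, Finset.mem_coe, Finset.mem_coe, hmem, hmem,
    mem_edgesIn]

theorem trif_shift (k : ℕ) (t : ℤ × ℤ) :
    trif k 0 ⊆ {η | (shiftSym t).onE '' η ∈ trif k t} := by
  rintro η ⟨hopen, u, hu, hne⟩
  have himg := image_edgesIn_boxAt t k
  have hdiff : (shiftSym t).onE '' η \ ↑(edgesIn (boxAt t k)) =
      (shiftSym t).onE '' (η \ ↑(edgesIn (boxAt 0 k))) := by
    rw [Set.image_sdiff (shiftSym t).onE.injective, himg]
  refine ⟨himg ▸ Set.image_mono hopen, fun i => u i + t, fun i => ⟨?_, ?_⟩, fun i j hij hc => ?_⟩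
  · have := (hu i).1
    simp only [mem_boxAt, Prod.fst_add, Prod.snd_add, Prod.fst_zero, Prod.snd_zero] at this ⊢
    omega
  · rw [hdiff]
    exact (shiftSym t).inf_image.2 (hu i).2
  · rw [hdiff, ← Set.image_univ_of_surjective (shiftSym t).onV.surjective] at hc
    exact hne i j hij ((shiftSym t).conn_iff.1 hc)

theorem perc_trif (p : unitInterval) (k : ℕ) : (perc p).real (trif k 0) = 0 := by
  set c := (perc p).real (trif k 0)
  refine le_antisymm (not_lt.1 fun hc => ?_) measureReal_nonneg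
  obtain ⟨n, hn⟩ := exists_nat_gt (4 * (2 * (k : ℝ) + 1) / c)
  rw [div_lt_iff₀ hc] at hn
  set d : ℤ := 2 * (k : ℤ) + 1
  set I := Finset.Icc (-(n : ℤ)) n
  set T := (I ×ˢ I).image fun z => (d * z.1, d * z.2)
  set N := (2 * k + 1) * n + k
  have hd0 : d ≠ 0 := by simp only [d]; omega
  have hTcard : T.card = (2 * n + 1) * (2 * n + 1) := by
    rw [card_image_of_injective _ fun a b h => Prod.ext
      (mul_left_cancel₀ hd0 (congrArg Prod.fst h)) (mul_left_cancel₀ hd0 (congrArg Prod.snd h)),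
      card_product, Int.card_Icc]
    congr 1 <;> omega
  have hsub : ∀ x ∈ T, boxAt x k ⊆ box N := fun x hx v hv => by
    obtain ⟨⟨i, j⟩, hij, rfl⟩ := Finset.mem_image.1 hx
    simp only [I, mem_product, Finset.mem_Icc] at hij
    simp only [mem_boxAt] at hv
    simp only [mem_box, abs_le, N, d] at hv ⊢
    push_cast
    obtain ⟨⟨a1, a2⟩, a3, a4⟩ := hij
    constructor <;> constructor <;> nlinarith
  have hdisj : ∀ x ∈ T, ∀ x' ∈ T, x ≠ x' → Disjoint (boxAt x k) (boxAt x' k) := by
    intro x hx x' hx' hne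
    obtain ⟨⟨i, j⟩, -, rfl⟩ := Finset.mem_image.1 hx
    obtain ⟨⟨i', j'⟩, -, rfl⟩ := Finset.mem_image.1 hx'
    refine Finset.disjoint_left.2 fun v hv hv' => hne ?_
    simp only [mem_boxAt] at hv hv'
    have key : ∀ a b w : ℤ, d * a - k ≤ w → w ≤ d * a + k → d * b - k ≤ w → w ≤ d * b + k →
        a = b := fun a b w h1 h2 h3 h4 => by
      by_contra hab
      rcases lt_or_gt_of_ne hab with h | h
      · have : d * a + d ≤ d * b := by nlinarith [show (0 : ℤ) ≤ d by simp only [d]; omega]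
        simp only [d] at *
        omega
      · have : d * b + d ≤ d * a := by nlinarith [show (0 : ℤ) ≤ d by simp only [d]; omega]
        simp only [d] at *
        omega
    rw [key i i' v.1 hv.1.1 hv.1.2 hv'.1.1 hv'.1.2, key j j' v.2 hv.2.1 hv.2.2 hv'.2.1 hv'.2.2]
  have hge : ∀ x ∈ T, c ≤ (perc p).real (trif k x) := fun x _ => by
    rw [← perc_preimage p (shiftSym x).onE (measurableSet_trif k x)]
    exact measureReal_mono (trif_shift k x)
  have hle : ∑ x ∈ T, (perc p).real (trif k x) ≤ ((border N).card : ℝ) := by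
    have hint : ∀ x ∈ T, Integrable ((trif k x).indicator fun _ => (1 : ℝ)) (perc p) :=
      fun x _ => (integrable_const 1).indicator (measurableSet_trif k x)
    calc ∑ x ∈ T, (perc p).real (trif k x)
        = ∫ η, ∑ x ∈ T, (trif k x).indicator (fun _ => (1 : ℝ)) η ∂(perc p) := by
          rw [integral_finsetSum _ hint]
          refine sum_congr rfl fun x _ => ?_
          rw [integral_indicator_const (1 : ℝ) (measurableSet_trif k x), smul_eq_mul, mul_one]
      _ ≤ ∫ _, ((border N).card : ℝ) ∂(perc p) := by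
          refine integral_mono (integrable_finsetSum _ hint) (integrable_const _) fun η => ?_
          simp only [Set.indicator_apply]
          rw [← sum_filter, sum_const, nsmul_eq_mul, mul_one]
          exact_mod_cast card_trif_le T hsub hdisj η
      _ = _ := by simp
  have h1 : (T.card : ℝ) * c ≤ ((border N).card : ℝ) := by
    refine le_trans ?_ hle
    rw [← nsmul_eq_mul, ← sum_const]
    exact sum_le_sum hge
  have h2 : ((border N).card : ℝ) ≤ 4 * ((2 * k + 1 : ℝ) * (2 * n + 1)) := by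
    refine (Nat.cast_le.2 (card_border_le N)).trans (le_of_eq ?_)
    simp only [N]
    push_cast
    ring
  rw [hTcard] at h1
  push_cast at h1
  nlinarith

/-- `m` distinct infinite clusters meet the box. -/
def multi (m k : ℕ) : Set (Set Edge) :=
  {η | ∃ u : Fin m → ℤ × ℤ, (∀ i, u i ∈ box k ∧ Inf η (u i)) ∧
    ∀ i j, i ≠ j → ¬Conn η Set.univ (u i) (u j)}

/-- There are `m` distinct infinite clusters. -/
def many (m : ℕ) : Set (Set Edge) :=
  {η | ∃ u : Fin m → ℤ × ℤ, (∀ i, Inf η (u i)) ∧ ∀ i j, i ≠ j → ¬Conn η Set.univ (u i) (u j)}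

theorem many_eq_iUnion (m : ℕ) : many m = ⋃ k, multi m k := by
  ext η
  simp only [Set.mem_iUnion]
  refine ⟨fun ⟨u, hu, hne⟩ => ?_, fun ⟨k, u, hu, hne⟩ => ⟨u, fun i => (hu i).2, hne⟩⟩
  obtain ⟨k, hk⟩ := exists_subset_box (univ.image u)
  exact ⟨k, u, fun i => ⟨hk (Finset.mem_image_of_mem u (mem_univ i)), hu i⟩, hne⟩

theorem measurableSet_multi (m k : ℕ) : MeasurableSet (multi m k) := by
  simp only [multi, Set.ofPred_exists, Set.ofPred_and, Set.ofPred_forall]
  exact MeasurableSet.iUnion fun u => MeasurableSet.inter (MeasurableSet.iInter fun i =>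
    (MeasurableSet.const _).inter (measurableSet_inf (u i)))
    (MeasurableSet.iInter fun i => MeasurableSet.iInter fun j => MeasurableSet.iInter fun _ =>
      (measurableSet_conn (u i) (u j)).compl)

theorem measurableSet_many (m : ℕ) : MeasurableSet (many m) := by
  rw [many_eq_iUnion]
  exact MeasurableSet.iUnion fun k => measurableSet_multi m k

theorem many_invariant (m : ℕ) (t : ℤ × ℤ) :
    {η | (shiftSym t).onE '' η ∈ many m} = many m := by
  ext η
  set g := shiftSym t
  have hc : ∀ a b, Conn (g.onE '' η) Set.univ (g.onV a) (g.onV b) ↔ Conn η Set.univ a b :=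
    fun a b => by
      conv_lhs => rw [← Set.image_univ_of_surjective g.onV.surjective]
      exact g.conn_iff
  constructor
  · rintro ⟨u, hu, hne⟩
    refine ⟨fun i => g.onV.symm (u i), fun i => g.inf_image.1 ?_, fun i j hij h => hne i j hij ?_⟩
    · rw [Equiv.apply_symm_apply]
      exact hu i
    · simpa using (hc _ _).2 h
  · rintro ⟨u, hu, hne⟩
    exact ⟨fun i => g.onV (u i), fun i => g.inf_image.2 (hu i),
      fun i j hij h => hne i j hij ((hc _ _).1 h)⟩

/-- An infinite cluster stays infinite somewhere when finitely many edges are closed. -/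
theorem Inf.drop {v : ℤ × ℤ} {k : ℕ} (hv : v ∈ box k) (h : Inf η v) :
    ∃ u ∈ box k, Inf (η \ ↑(edgesIn (box k))) u ∧ Conn η Set.univ v u := by
  by_contra hno
  simp only [not_exists, not_and] at hno
  refine inf_iff_infinite.1 h ((Set.Finite.biUnion
    ((box k).filter fun u => Conn η Set.univ v u).finite_toSet
    (t := fun u => {w | Conn (η \ ↑(edgesIn (box k))) Set.univ u w}) fun u hu => ?_).subset ?_)
  · obtain ⟨hu1, hu2⟩ := Finset.mem_filter.1 (Finset.mem_coe.1 hu)
    by_contra hinf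
    exact hno u hu1 (inf_iff_infinite.2 hinf) hu2
  · intro w hw
    simp only [Set.mem_iUnion, Finset.mem_coe, mem_filter, exists_prop, Set.mem_ofPred_eq]
    refine Conn.invariant (P := fun w => ∃ u, (u ∈ box k ∧ Conn η Set.univ v u) ∧
      Conn (η \ ↑(edgesIn (box k))) Set.univ u w) hw ⟨v, ⟨hv, Conn.refl v⟩, Conn.refl v⟩ ?_
    rintro a b ⟨e, he, hends, -, -⟩ ⟨u, ⟨hu, hvu⟩, hua⟩
    by_cases hin : e ∈ edgesIn (box k)
    · have hb : a ∈ box k ∧ b ∈ box k := by
        rw [← Finset.mem_coe, coe_edgesIn, hends.mem_inner] at hin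
        exact hin
      exact ⟨b, ⟨hb.2, (hvu.trans (hua.mono_cfg Set.sdiff_subset)).trans
        (Conn.of_edge he hends trivial trivial)⟩, Conn.refl b⟩
    · exact ⟨u, ⟨hu, hvu⟩, hua.trans (Conn.of_edge ⟨he, hin⟩ hends trivial trivial)⟩

theorem perc_multi_three (hp : 0 < (p : ℝ)) (hp1 : (p : ℝ) < 1) (k : ℕ) :
    (perc p).real (multi 3 k) = 0 := by
  by_contra hne
  refine finite_energy (F := edgesIn (box k)) hp hp1 (measurableSet_multi 3 k)
    (measurableSet_trif k 0) hne Subset.rfl (fun η s hs h => ?_) (perc_trif p k)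
  obtain ⟨v, hv, hvne⟩ := h
  choose u hu huinf hvu using fun i => (hv i).2.drop (hv i).1
  have he : ∀ s' ⊆ edgesIn (box k), setOn (edgesIn (box k)) s' η \ ↑(edgesIn (box k)) =
      η \ ↑(edgesIn (box k)) := fun s' hs' => by
    ext e
    by_cases he : e ∈ edgesIn (box k)
    · simp [setOn, he]
    · simp [setOn, he, mt (@hs' e) he]
  refine ⟨?_, u, fun i => ⟨?_, ?_⟩, fun i j hij hc => ?_⟩
  · rw [boxAt_zero]
    exact Set.subset_union_right
  · rw [boxAt_zero]
    exact hu i
  · rw [boxAt_zero, he _ Subset.rfl, ← he s hs]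
    exact huinf i
  · rw [boxAt_zero, he _ Subset.rfl, ← he s hs] at hc
    exact hvne i j hij ((hvu i).trans ((hc.mono_cfg Set.sdiff_subset).trans (hvu j).symm))

theorem perc_many_three (hp : 0 < (p : ℝ)) (hp1 : (p : ℝ) < 1) : (perc p).real (many 3) = 0 := by
  rw [measureReal_eq_zero_iff, many_eq_iUnion]
  exact measure_iUnion_null fun k =>
    (measureReal_eq_zero_iff (measure_ne_top _ _)).1 (perc_multi_three hp hp1 k)

theorem perc_many_two (hp : 0 < (p : ℝ)) (hp1 : (p : ℝ) < 1) : (perc p).real (many 2) = 0 := by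
  by_contra hne
  have hone : (perc p).real (many 2) = 1 :=
    (perc_zero_one p (measurableSet_many 2) (many_invariant 2)).resolve_left hne
  obtain ⟨k, hk⟩ : ∃ k, (perc p).real (multi 2 k) ≠ 0 := by
    by_contra h
    simp only [not_exists, not_not] at h
    refine hne ?_
    rw [measureReal_eq_zero_iff, many_eq_iUnion]
    exact measure_iUnion_null fun k => (measureReal_eq_zero_iff (measure_ne_top _ _)).1 (h k)
  have hA : (perc p).real (multi 2 k ∩ (many 3)ᶜ) ≠ 0 := fun h => hk <| le_antisymm (by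
    refine (measureReal_mono (s₂ := (multi 2 k ∩ (many 3)ᶜ) ∪ many 3) fun η hη => ?_).trans
      ((measureReal_union_le _ _).trans_eq (by rw [h, perc_many_three hp hp1, add_zero]))
    by_cases h3 : η ∈ many 3
    · exact Or.inr h3
    · exact Or.inl ⟨hη, h3⟩) measureReal_nonneg
  have hB : (perc p).real (many 2)ᶜ = 0 := by
    rw [probReal_compl_eq_one_sub (measurableSet_many 2), hone, sub_self]
  refine finite_energy (F := edgesIn (box k)) hp hp1
    ((measurableSet_multi 2 k).inter (measurableSet_many 3).compl) (measurableSet_many 2).compl hA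
    Subset.rfl (fun η s hs h => ?_) hB
  obtain ⟨⟨v, hv, hvne⟩, h3⟩ := h
  set η₁ := setOn (edgesIn (box k)) (edgesIn (box k)) η
  set η₀ := setOn (edgesIn (box k)) s η
  have hle : η₀ ⊆ η₁ := Set.union_subset_union_right _ (Finset.coe_subset.2 hs)
  have hbox : ∀ a ∈ box k, ∀ b ∈ box k, Conn η₁ Set.univ a b := fun a ha b hb => by
    refine (conn_boxAt (x := 0) (k := k) ?_ (by rwa [boxAt_zero]) (by rwa [boxAt_zero])).mono_set
      (Set.subset_univ _)
    rw [boxAt_zero]
    exact Set.subset_union_right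
  have hkey : ∀ w, Inf η₁ w → ∃ a ∈ box k, Conn η₁ Set.univ w a := by
    intro w hw
    by_contra hno
    simp only [not_exists, not_and] at hno
    have hsame : ∀ {z}, Conn η₁ Set.univ w z → Conn η₀ Set.univ w z := fun {z} hz => by
      refine (hz.invariant (P := fun a => Conn η₁ Set.univ w a ∧ Conn η₀ Set.univ w a)
        ⟨Conn.refl w, Conn.refl w⟩ ?_).2
      rintro a b ⟨e, he, hends, -, -⟩ ⟨ha1, ha0⟩
      refine ⟨ha1.trans (Conn.of_edge he hends trivial trivial), ha0.trans ?_⟩
      rcases he with he | he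
      · exact Conn.of_edge (Or.inl he) hends trivial trivial
      · rw [coe_edgesIn, hends.mem_inner] at he
        exact absurd ha1 (hno a he.1)
    have hw0 : Inf η₀ w := fun n => by
      obtain ⟨z, hz, hc⟩ := hw n
      exact ⟨z, hz, hsame hc⟩
    by_cases h0 : Conn η₀ Set.univ w (v 0)
    · exact hno _ (hv 0).1 (h0.mono_cfg hle)
    by_cases h1 : Conn η₀ Set.univ w (v 1)
    · exact hno _ (hv 1).1 (h1.mono_cfg hle)
    refine h3 ⟨![v 0, v 1, w], fun i => ?_, fun i j hij hc => ?_⟩
    · fin_cases i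
      exacts [(hv 0).2, (hv 1).2, hw0]
    · fin_cases i <;> fin_cases j <;> simp at hij hc
      exacts [hvne 0 1 (by decide) hc, h0 hc.symm, hvne 1 0 (by decide) hc, h1 hc.symm, h0 hc,
        h1 hc]
  rintro ⟨u, hu, hune⟩
  obtain ⟨a, ha, hca⟩ := hkey _ (hu 0)
  obtain ⟨b, hb, hcb⟩ := hkey _ (hu 1)
  exact hune 0 1 (by decide) (hca.trans ((hbox a ha b hb).trans hcb.symm))

/-- **At most one infinite cluster.** -/
theorem perc_unique (p : unitInterval) : (perc p).real (many 2) = 0 := by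
  rcases p.2.1.lt_or_eq with hp | hp
  · rcases p.2.2.lt_or_eq with hp1 | hp1
    · exact perc_many_two hp hp1
    · have : perc p = Measure.dirac Set.univ := by
        rw [perc, show p = 1 from Subtype.ext hp1, ProbabilityTheory.setBernoulli_one]
      rw [this, measureReal_def, Measure.dirac_apply' _ (measurableSet_many 2),
        Set.indicator_of_notMem]
      · simp
      rintro ⟨u, -, hne⟩
      obtain ⟨k, hk⟩ := exists_subset_box (univ.image u)
      refine hne 0 1 (by decide) ((conn_boxAt (x := 0) (k := k) (Set.subset_univ _) ?_ ?_).mono_set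
        (Set.subset_univ _)) <;>
      · rw [boxAt_zero]
        exact hk (Finset.mem_image_of_mem u (mem_univ _))
  · have : perc p = Measure.dirac (∅ : Set Edge) := by
      rw [perc, show p = 0 from Subtype.ext hp.symm, ProbabilityTheory.setBernoulli_zero]
    rw [this, measureReal_def, Measure.dirac_apply' _ (measurableSet_many 2),
      Set.indicator_of_notMem]
    · simp
    rintro ⟨u, hu, -⟩
    obtain ⟨n, hn⟩ := exists_mem_box (u 0)
    obtain ⟨w, hw, hc⟩ := hu 0 n
    exact hw (hc.invariant (P := (· ∈ box n)) hn fun a b ⟨e, he, _⟩ _ => absurd he (by simp))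

end FA.Percolation

end
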