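import Fermat.Agent.Percolation.Duality
import Fermat.Agent.Percolation.Unique

/-!
# No percolation at one half

With an infinite cluster, a large box would be crossed with probability near one: each of its four
sides is reached from the middle (the square-root trick), and by uniqueness the arms meet.
-/

set_option autoImplicit false

noncomputable section

open MeasureTheory Finset Filter
open scoped Classical Topology

namespace FA.Percolation

variable {p : unitInterval} {η : Set Edge} {k n : ℕ}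

/-- One half. -/
def half : unitInterval := ⟨1 / 2, by norm_num, by norm_num⟩

theorem coe_half : (half : ℝ) = 1 / 2 := rfl

theorem Sym.map_edgesIn (g : Sym) {S : Finset (ℤ × ℤ)} (h : ∀ v, g.onV v ∈ S ↔ v ∈ S) :
    (edgesIn S).map g.onE.toEmbedding = edgesIn S := by
  ext e
  obtain ⟨e, rfl⟩ := g.onE.surjective e
  have h1 := (g.ends e).mem_inner (S := (↑S : Set (ℤ × ℤ)))
  simp only [Finset.mem_coe, h] at h1
  rw [← Equiv.coe_toEmbedding, Finset.mem_map', ← Finset.mem_coe, ← Finset.mem_coe, coe_edgesIn]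
  exact h1.symm

/-- From the small box to a side of the large one. -/
def arm (k n : ℕ) (P : ℤ × ℤ → Prop) : Set (Set Edge) :=
  {η | ∃ u ∈ box k, ∃ v ∈ box n, P v ∧ Conn η (↑(box n) : Set (ℤ × ℤ)) u v}

theorem isUpperSet_arm (k n : ℕ) (P : ℤ × ℤ → Prop) : IsUpperSet (arm k n P) :=
  fun _ _ h ⟨u, hu, v, hv, hP, hc⟩ => ⟨u, hu, v, hv, hP, hc.mono_cfg h⟩

theorem depOn_arm (k n : ℕ) (P : ℤ × ℤ → Prop) : DepOn (↑(edgesIn (box n))) (arm k n P) :=
  fun _ _ he ⟨u, hu, v, hv, hP, hc⟩ =>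
    ⟨u, hu, v, hv, hP, (conn_congr fun e h => he e (by rwa [coe_edgesIn])).1 hc⟩

theorem measurableSet_arm (k n : ℕ) (P : ℤ × ℤ → Prop) : MeasurableSet (arm k n P) :=
  measurableSet_of_depOn (depOn_arm k n P)

theorem rot_mem_box (v : ℤ × ℤ) : rotSym.onV v ∈ box n ↔ v ∈ box n := by
  simp only [rotSym_onV, mem_box, abs_neg]
  exact and_comm

theorem prob_arm_rot (p : ℝ) (k n : ℕ) (P : ℤ × ℤ → Prop) :
    prob p (edgesIn (box n)) (arm k n fun v => P (-v.2, v.1)) =
      prob p (edgesIn (box n)) (arm k n P) := by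
  have himg : rotSym.onV '' (↑(box n) : Set (ℤ × ℤ)) = ↑(box n) := by
    ext v
    rw [Equiv.image_eq_preimage_symm, Set.mem_preimage, Finset.mem_coe, Finset.mem_coe,
      ← rot_mem_box (rotSym.onV.symm v), Equiv.apply_symm_apply]
  conv_rhs => rw [← rotSym.map_edgesIn (rot_mem_box (n := n)), prob_map]
  refine prob_congr fun s _ => ?_
  simp only [arm, Set.mem_ofPred_eq]
  constructor
  · rintro ⟨u, hu, v, hv, hP, hc⟩
    refine ⟨rotSym.onV u, (rot_mem_box u).2 hu, rotSym.onV v, (rot_mem_box v).2 hv, hP, ?_⟩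
    rw [← himg]
    exact rotSym.conn_iff.2 hc
  · rintro ⟨u, hu, v, hv, hP, hc⟩
    obtain ⟨u, rfl⟩ := rotSym.onV.surjective u
    obtain ⟨v, rfl⟩ := rotSym.onV.surjective v
    rw [← himg] at hc
    exact ⟨u, (rot_mem_box u).1 hu, v, (rot_mem_box v).1 hv, hP, rotSym.conn_iff.1 hc⟩

/-- **The square-root trick**: if the small box meets an infinite cluster, all four arms exist. -/
theorem arm_likely (p : unitInterval) (hkn : k ≤ n) {δ : ℝ} (hδ : 0 ≤ δ)
    (h : 1 - δ ^ 4 ≤ (perc p).real (multi 1 k)) :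
    1 - δ ≤ prob p (edgesIn (box n)) (arm k n fun v => v.1 = (n : ℤ)) ∧
      1 - δ ≤ prob p (edgesIn (box n)) (arm k n fun v => v.1 = -(n : ℤ)) := by
  set F := edgesIn (box n)
  set E : Set (Set Edge) := arm k n fun v => v.1 = (n : ℤ)
  set E₁ : Set (Set Edge) := arm k n fun v => -v.2 = (n : ℤ)
  set E₂ : Set (Set Edge) := arm k n fun v => -v.1 = (n : ℤ)
  set E₃ : Set (Set Edge) := arm k n fun v => v.2 = (n : ℤ)
  have e1 : prob (p : ℝ) F E₁ = prob (p : ℝ) F E := prob_arm_rot p k n fun v => v.1 = (n : ℤ)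
  have e2 : prob (p : ℝ) F E₂ = prob (p : ℝ) F E₁ := prob_arm_rot p k n fun v => -v.2 = (n : ℤ)
  have e3 : prob (p : ℝ) F E₃ = prob (p : ℝ) F E₂ := by
    have := prob_arm_rot (p : ℝ) k n fun v => -v.1 = (n : ℤ)
    simpa only [neg_neg] using this
  set q := 1 - prob (p : ℝ) F E with hq
  have hq0 : 0 ≤ q := sub_nonneg.2 (prob_le_one p.2.1 p.2.2 _ _)
  have h01 : q * q ≤ prob (p : ℝ) F (E ∪ E₁)ᶜ := by
    have := prob_harris_lower (F := F) p.2.1 p.2.2 (isUpperSet_arm k n fun v => v.1 = (n : ℤ))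
      (isUpperSet_arm k n fun v => -v.2 = (n : ℤ))
    rwa [prob_compl, prob_compl, e1, ← Set.compl_union] at this
  have h23 : q * q ≤ prob (p : ℝ) F (E₂ ∪ E₃)ᶜ := by
    have := prob_harris_lower (F := F) p.2.1 p.2.2 (isUpperSet_arm k n fun v => -v.1 = (n : ℤ))
      (isUpperSet_arm k n fun v => v.2 = (n : ℤ))
    rwa [prob_compl, prob_compl, e3, e2, e1, ← Set.compl_union] at this
  have hall : (q * q) * (q * q) ≤ prob (p : ℝ) F (((E ∪ E₁) ∪ (E₂ ∪ E₃))ᶜ) := by
    refine (mul_le_mul h01 h23 (mul_nonneg hq0 hq0) (prob_nonneg p.2.1 p.2.2 _ _)).trans ?_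
    rw [Set.compl_union (E ∪ E₁)]
    exact prob_harris_lower p.2.1 p.2.2 ((isUpperSet_arm _ _ _).union (isUpperSet_arm _ _ _))
      ((isUpperSet_arm _ _ _).union (isUpperSet_arm _ _ _))
  have hsub : multi 1 k ⊆ (E ∪ E₁) ∪ (E₂ ∪ E₃) := by
    rintro η ⟨u, hu, -⟩
    obtain ⟨hu0, hinf⟩ := hu 0
    obtain ⟨w, hw, hc⟩ := hinf n
    obtain ⟨a, ha, hc'⟩ := hc.to_border' (box_mono hkn hu0) (Or.inr hw)
    have hc'' := hc'.mono_set (T := (↑(box n) : Set (ℤ × ℤ))) Set.inter_subset_right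
    obtain ⟨hab, ha'⟩ := mem_border.1 ha
    rcases ha' with h' | h' <;> rcases (abs_eq (Nat.cast_nonneg n)).1 h' with h'' | h''
    · exact Or.inl (Or.inl ⟨u 0, hu0, a, hab, h'', hc''⟩)
    · exact Or.inr (Or.inl ⟨u 0, hu0, a, hab, by simp [h''], hc''⟩)
    · exact Or.inr (Or.inr ⟨u 0, hu0, a, hab, h'', hc''⟩)
    · exact Or.inl (Or.inr ⟨u 0, hu0, a, hab, by simp [h''], hc''⟩)
  have hdep : DepOn (↑F) ((E ∪ E₁) ∪ (E₂ ∪ E₃)) := fun _ _ he h => h.imp
    (Or.imp (depOn_arm _ _ _ he) (depOn_arm _ _ _ he))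
    (Or.imp (depOn_arm _ _ _ he) (depOn_arm _ _ _ he))
  have hup := h.trans (measureReal_mono hsub)
  rw [perc_real_depOn p hdep] at hup
  rw [prob_compl] at hall
  have hqδ : q ≤ δ := (pow_le_pow_iff_left₀ hq0 hδ (show (4 : ℕ) ≠ 0 by norm_num)).1 (by linarith)
  refine ⟨by linarith, ?_⟩
  have e : E₂ = arm k n fun v => v.1 = -(n : ℤ) := by
    ext η
    simp only [E₂, arm, Set.mem_ofPred_eq, neg_eq_iff_eq_neg]
  rw [← e, e2, e1]
  linarith

/-- Two arms that do not meet in the box. -/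
def apart (K m : ℕ) : Set (Set Edge) :=
  {η | ∃ u ∈ box K, ∃ v ∈ box K, (∃ a ∈ border m, Conn η (↑(box m) : Set (ℤ × ℤ)) u a) ∧
    (∃ a ∈ border m, Conn η (↑(box m) : Set (ℤ × ℤ)) v a) ∧
    ¬Conn η (↑(box m) : Set (ℤ × ℤ)) u v}

theorem depOn_apart (K m : ℕ) : DepOn (↑(edgesIn (box m))) (apart K m) := by
  intro η η' he
  have hc : ∀ a b, Conn η (↑(box m) : Set (ℤ × ℤ)) a b ↔ Conn η' (↑(box m) : Set (ℤ × ℤ)) a b :=
    fun a b => conn_congr fun e h => he e (by rwa [coe_edgesIn])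
  simp only [apart, Set.mem_ofPred_eq, hc]
  exact id

theorem tendsto_apart (p : unitInterval) (K : ℕ) :
    Tendsto (fun m => (perc p).real (apart K (K + m))) atTop (𝓝 0) := by
  have hstep : ∀ {u : ℤ × ℤ} {η : Set Edge} {m m' : ℕ}, u ∈ box m → m ≤ m' →
      (∃ a ∈ border m', Conn η (↑(box m') : Set (ℤ × ℤ)) u a) →
      ∃ a ∈ border m, Conn η (↑(box m) : Set (ℤ × ℤ)) u a := by
    rintro u η m m' hu hm ⟨a, ha, hc⟩
    obtain ⟨b, hb, hc'⟩ := hc.to_border' hu (show a ∈ border m ∨ a ∉ box m from by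
      rcases hm.eq_or_lt with rfl | hlt
      · exact Or.inl ha
      · refine Or.inr fun h => ?_
        simp only [mem_border, mem_box] at ha h
        omega)
    exact ⟨b, hb, hc'.mono_set Set.inter_subset_right⟩
  set Q : ℤ × ℤ → ℤ × ℤ → ℕ → Set Edge → Prop := fun u v m η =>
    (∃ a ∈ border (K + m), Conn η (↑(box (K + m)) : Set (ℤ × ℤ)) u a) ∧
      (∃ a ∈ border (K + m), Conn η (↑(box (K + m)) : Set (ℤ × ℤ)) v a) ∧
      ¬Conn η (↑(box (K + m)) : Set (ℤ × ℤ)) u v
  have hQ : ∀ {u v m m' η}, u ∈ box K → v ∈ box K → m ≤ m' → Q u v m' η → Q u v m η :=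
    fun {u v m m' η} hu hv hm ⟨h1, h2, h3⟩ =>
      ⟨hstep (box_mono (by omega) hu) (by omega) h1, hstep (box_mono (by omega) hv) (by omega) h2,
        fun h => h3 (h.mono_set (Finset.coe_subset.2 (box_mono (by omega))))⟩
  have h := tendsto_measure_iInter_atTop (μ := perc p) (s := fun m => apart K (K + m))
    (fun m => (measurableSet_of_depOn (depOn_apart K (K + m))).nullMeasurableSet)
    (fun m m' hm η ⟨u, hu, v, hv, hQ'⟩ => ⟨u, hu, v, hv, hQ hu hv hm hQ'⟩)
    ⟨0, measure_ne_top _ _⟩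
  have hsub : (⋂ m, apart K (K + m)) ⊆ many 2 := by
    intro η hη
    rw [Set.mem_iInter] at hη
    obtain ⟨u, hu, v, hv, huv⟩ : ∃ u ∈ box K, ∃ v ∈ box K, ∀ m, Q u v m η := by
      by_contra hno
      simp only [not_exists, not_and, not_forall] at hno
      choose! f hf using hno
      obtain ⟨u, hu, v, hv, hQ'⟩ :=
        hη ((box K ×ˢ box K).sup fun z : (ℤ × ℤ) × (ℤ × ℤ) => f z.1 z.2)
      exact hf u hu v hv (hQ hu hv (Finset.le_sup (f := fun z : (ℤ × ℤ) × (ℤ × ℤ) => f z.1 z.2)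
        (mem_product.2 ⟨hu, hv⟩ : (u, v) ∈ box K ×ˢ box K)) hQ')
    have hinf : ∀ w, (∀ m, ∃ a ∈ border (K + m), Conn η (↑(box (K + m)) : Set (ℤ × ℤ)) w a) →
        Inf η w := fun w hw n => by
      obtain ⟨a, ha, hc⟩ := hw (n + 1)
      refine ⟨a, fun h => ?_, hc.mono_set (Set.subset_univ _)⟩
      simp only [mem_border, mem_box] at ha h
      omega
    refine ⟨![u, v], fun i => ?_, fun i j hij hc => ?_⟩
    · fin_cases i
      exacts [hinf u fun m => (huv m).1, hinf v fun m => (huv m).2.1]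
    · obtain ⟨m, hm⟩ := hc.exists_box
      have hm' := hm.mono_set (Finset.coe_subset.2 (box_mono (Nat.le_add_left m K)))
      fin_cases i <;> fin_cases j <;> simp at hij hm'
      exacts [(huv m).2.2 hm', (huv m).2.2 hm'.symm]
  have h0 : perc p (⋂ m, apart K (K + m)) = 0 :=
    measure_mono_null hsub ((measureReal_eq_zero_iff (measure_ne_top _ _)).1 (perc_unique p))
  rw [h0] at h
  simpa [measureReal_def, Function.comp_def] using
    (ENNReal.tendsto_toReal ENNReal.zero_ne_top).comp h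

theorem exists_multi_likely (hθ : 0 < theta p) {ε : ℝ} (hε : 0 < ε) :
    ∃ k, 1 - ε ≤ (perc p).real (multi 1 k) := by
  have hmany : (perc p).real (many 1) = 1 := by
    refine (perc_zero_one p (measurableSet_many 1) (many_invariant 1)).resolve_left fun h => ?_
    have : theta p ≤ (perc p).real (many 1) := measureReal_mono fun η hη =>
      ⟨fun _ => 0, fun _ => hη, fun i j hij => absurd (Subsingleton.elim i j) hij⟩
    linarith
  have h := tendsto_measure_iUnion_atTop (μ := perc p) (s := fun k => multi 1 k)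
    fun k k' hk η ⟨u, hu, hne⟩ => ⟨u, fun i => ⟨box_mono hk (hu i).1, (hu i).2⟩, hne⟩
  rw [← many_eq_iUnion] at h
  have h' := (ENNReal.tendsto_toReal (measure_ne_top _ _)).comp h
  rw [show (perc p (many 1)).toReal = 1 from hmany] at h'
  obtain ⟨k, hk⟩ := (h'.eventually (eventually_ge_nhds (show 1 - ε < 1 by linarith))).exists
  exact ⟨k, hk⟩

/-- **No percolation at one half.** -/
theorem theta_half : theta half = 0 := by
  by_contra hne
  have hθ : 0 < theta half := lt_of_le_of_ne measureReal_nonneg (Ne.symm hne)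
  obtain ⟨k, hk⟩ := exists_multi_likely hθ (show (0 : ℝ) < (1 / 8) ^ 4 by norm_num)
  obtain ⟨m, hm⟩ := ((tendsto_apart half (k + 1)).eventually
    (eventually_le_nhds (show (0 : ℝ) < 1 / 8 by norm_num))).exists
  set n := k + 1 + m + 1
  obtain ⟨hR, hL⟩ := arm_likely half (show k ≤ n by omega) (by norm_num) hk
  rw [← perc_real_depOn half (depOn_arm _ _ _)] at hR hL
  set σ := (shiftSym (-1, 0)).onE
  set L := arm k n fun v => v.1 = -(n : ℤ)
  set R := {η : Set Edge | σ '' η ∈ arm k n fun v => v.1 = (n : ℤ)}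
  set τ := shiftSym ((n : ℤ), (n : ℤ))
  have hR' : 1 - 1 / 8 ≤ (perc half).real R := by
    rwa [perc_preimage half σ (measurableSet_arm _ _ _)]
  have hcross : (perc half).real {η | τ.onE '' η ∈ cross (2 * n)} = 1 / 2 := by
    rw [perc_preimage half τ.onE (measurableSet_of_depOn (depOn_cross _)),
      perc_real_depOn half (depOn_cross _), coe_half, crossing_half]
  have hsub : (L ∩ R) ∩ (apart (k + 1) (k + 1 + m))ᶜ ⊆ {η | τ.onE '' η ∈ cross (2 * n)} := by
    rintro η ⟨⟨⟨u, hu, v, hv, hv1, hc⟩, ⟨u', hu', v', hv', hv1', hc'⟩⟩, hD⟩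
    set W : Set (ℤ × ℤ) := {w | -(n : ℤ) ≤ w.1 ∧ w.1 ≤ (n : ℤ) + 1 ∧ -(n : ℤ) ≤ w.2 ∧ w.2 ≤ n}
    have hbox : (↑(box n) : Set (ℤ × ℤ)) ⊆ W := fun w hw => by
      simp only [Finset.mem_coe, mem_box, abs_le] at hw
      simp only [W, Set.mem_ofPred_eq]
      omega
    have hc2 : Conn η ((shiftSym (1, 0)).onV '' (↑(box n) : Set (ℤ × ℤ)))
        (u' + (1, 0)) (v' + (1, 0)) := by
      have h' := (shiftSym (1, 0)).conn_image hc'
      rw [Set.image_image, shiftSym_onV, shiftSym_onV] at h'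
      have e : (fun x => (shiftSym (1, 0)).onE (σ x)) '' η = η := by
        conv_rhs => rw [← Set.image_id η]
        refine Set.image_congr fun x _ => ?_
        obtain ⟨⟨a, b⟩, d⟩ := x
        simp [σ, shiftSym]
      rwa [e] at h'
    have hbox' : (shiftSym (1, 0)).onV '' (↑(box n) : Set (ℤ × ℤ)) ⊆ W := by
      rintro _ ⟨w, hw, rfl⟩
      simp only [Finset.mem_coe, mem_box, abs_le] at hw
      simp only [W, Set.mem_ofPred_eq, shiftSym_onV, Prod.fst_add, Prod.snd_add]
      omega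
    have hub : u ∈ box (k + 1) := box_mono (Nat.le_succ k) hu
    have hub' : u' + (1, 0) ∈ box (k + 1) := by
      simp only [mem_box, abs_le, Prod.fst_add, Prod.snd_add] at hu' ⊢
      push_cast
      omega
    have hmid : Conn η (↑(box (k + 1 + m)) : Set (ℤ × ℤ)) u (u' + (1, 0)) := by
      by_contra hno
      obtain ⟨a, ha, hca⟩ := (hc.mono_set (Set.subset_univ _)).to_border'
        (box_mono (Nat.le_add_right _ m) hub) (Or.inr (show v ∉ box (k + 1 + m) by
          simp only [mem_box, abs_le, hv1, n]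
          push_cast
          omega))
      obtain ⟨b, hb, hcb⟩ := (hc2.mono_set (Set.subset_univ _)).to_border'
        (box_mono (Nat.le_add_right _ m) hub') (Or.inr (show v' + (1, 0) ∉ box (k + 1 + m) by
          simp only [mem_box, abs_le, Prod.fst_add, hv1', n]
          push_cast
          omega))
      exact hD ⟨u, hub, u' + (1, 0), hub', ⟨a, ha, hca.mono_set Set.inter_subset_right⟩,
        ⟨b, hb, hcb.mono_set Set.inter_subset_right⟩, hno⟩
    have hpath : Conn η W v (v' + (1, 0)) := (hc.mono_set hbox).symm.trans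
      ((hmid.mono_set ((Finset.coe_subset.2 (box_mono (Nat.le_succ _))).trans hbox)).trans
        (hc2.mono_set hbox'))
    have h' := τ.conn_image hpath
    simp only [mem_box, abs_le] at hv hv'
    refine cross_of_conn (b := v.2 + n) (b' := v'.2 + n) (by push_cast; omega)
      (by push_cast; omega) ?_
    have e1 : τ.onV v = (0, v.2 + (n : ℤ)) := by
      simp [τ, shiftSym_onV, Prod.ext_iff, hv1]
    have e2 : τ.onV (v' + (1, 0)) = (((2 * n : ℕ) : ℤ) + 1, v'.2 + (n : ℤ)) := by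
      simp only [τ, shiftSym_onV, Prod.ext_iff, Prod.fst_add, Prod.snd_add, hv1']
      push_cast
      constructor <;> ring
    rw [e1, e2] at h'
    refine h'.mono_set ?_
    rintro _ ⟨w, hw, rfl⟩
    simp only [W, Set.mem_ofPred_eq] at hw
    simp only [τ, shiftSym_onV, Finset.mem_coe, mem_rectV, Prod.fst_add, Prod.snd_add]
    push_cast
    omega
  have hle := measureReal_mono (μ := perc half) hsub
  rw [hcross] at hle
  have h1 : (perc half).real (L ∩ R) ≤
      (perc half).real ((L ∩ R) ∩ (apart (k + 1) (k + 1 + m))ᶜ) +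
        (perc half).real (apart (k + 1) (k + 1 + m)) := by
    refine (measureReal_mono fun η hη => ?_).trans (measureReal_union_le _ _)
    by_cases hD : η ∈ apart (k + 1) (k + 1 + m)
    · exact Or.inr hD
    · exact Or.inl ⟨hη, hD⟩
  have h2 : (perc half).real (L ∪ R) + (perc half).real (L ∩ R) =
      (perc half).real L + (perc half).real R :=
    measureReal_union_add_inter ((measurable_image σ) (measurableSet_arm _ _ _))
  have h3 : (perc half).real (L ∪ R) ≤ 1 := measureReal_le_one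
  linarith

end FA.Percolation

end
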