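import Fermat.Agent.Percolation.Half

/-!
# The theorem of Harris and Kesten

Bond percolation on the square lattice percolates exactly above one half: exponential decay at or
above one half would contradict self-duality, so sharpness gives percolation there, and there is
none at one half itself.
-/

set_option autoImplicit false

noncomputable section

open MeasureTheory Finset Filter
open scoped Classical Topology

namespace FA.Percolation

/-- The crossing is bounded by reaching far. -/
theorem cross_le_thetaN (p : unitInterval) (h : ℕ) :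
    (perc p).real (cross h) ≤ ((h : ℝ) + 1) * thetaN h p := by
  have hsub : cross h ⊆ ⋃ b ∈ Finset.Icc (0 : ℤ) h,
      {η | (shiftSym (0, -b)).onE '' η ∈ reach h} := by
    rintro η ⟨b, b', hb, -, hc⟩
    simp only [Set.mem_iUnion, exists_prop]
    refine ⟨b, Finset.mem_Icc.2 hb, ?_⟩
    have hc' := (shiftSym (0, -b)).conn_image ((hc.mono_cfg Set.inter_subset_left))
    rw [shiftSym_onV, shiftSym_onV, show ((0 : ℤ), b) + (0, -b) = 0 by simp [Prod.ext_iff]] at hc'
    obtain ⟨a, ha, hca⟩ := hc'.to_border' (zero_mem_box h)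
      (Or.inr (show ((h : ℤ) + 1, b') + (0, -b) ∉ box h by
        simp only [mem_box, abs_le, Prod.fst_add]
        omega))
    exact ⟨a, ha, hca.mono_set Set.inter_subset_right⟩
  have hterm : ∀ b : ℤ,
      (perc p).real {η | (shiftSym (0, -b)).onE '' η ∈ reach h} = thetaN h p := fun b => by
    rw [perc_preimage p _ (measurableSet_of_depOn (depOn_reach h)), thetaN,
      perc_real_depOn p (depOn_reach h)]
  refine (measureReal_mono hsub (measure_ne_top _ _)).trans
    ((measureReal_biUnion_finset_le _ _).trans_eq ?_)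
  rw [sum_congr rfl fun b _ => hterm b, sum_const, Int.card_Icc, nsmul_eq_mul]
  congr 1
  rw [show ((h : ℤ) + 1 - 0).toNat = h + 1 by omega]
  push_cast
  rfl

/-- From one half on no finite set has fewer than one expected exit. -/
theorem one_le_phi {q : ℝ} (hq : 1 / 2 ≤ q) (hq1 : q ≤ 1) {S : Finset (ℤ × ℤ)}
    (hS : (0 : ℤ × ℤ) ∈ S) : 1 ≤ phi q S := by
  by_contra hlt
  obtain ⟨C, c, hc, hC⟩ := thetaN_le_pow (by linarith) hq1 hS (not_le.1 hlt)
  set Q : unitInterval := ⟨q, by linarith, hq1⟩
  have hcr : ∀ h : ℕ, (1 / 2 : ℝ) ≤ ((h : ℝ) + 1) * (C * Real.exp (-c * h)) := fun h => by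
    refine le_trans ?_ ((cross_le_thetaN Q h).trans
      (mul_le_mul_of_nonneg_left (hC h) (by positivity)))
    rw [perc_real_depOn Q (depOn_cross h)]
    conv_lhs => rw [← crossing_half h]
    exact prob_mono_left (isUpperSet_cross h) (by norm_num) hq hq1
  have h1 : Tendsto (fun h : ℕ => (c * (h : ℝ)) ^ 1 * Real.exp (-(c * (h : ℝ)))) atTop (𝓝 0) :=
    (Real.tendsto_pow_mul_exp_neg_atTop_nhds_zero 1).comp
      (tendsto_natCast_atTop_atTop.const_mul_atTop hc)
  have h2 : Tendsto (fun h : ℕ => Real.exp (-(c * (h : ℝ)))) atTop (𝓝 0) :=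
    Real.tendsto_exp_neg_atTop_nhds_zero.comp
      (tendsto_natCast_atTop_atTop.const_mul_atTop hc)
  have h3 : Tendsto (fun h : ℕ => ((h : ℝ) + 1) * (C * Real.exp (-c * h))) atTop (𝓝 0) := by
    have := ((h1.const_mul (C / c)).add (h2.const_mul C))
    rw [mul_zero, mul_zero, add_zero] at this
    refine this.congr fun h => ?_
    rw [neg_mul]
    field_simp
  exact absurd (ge_of_tendsto' h3 hcr) (by norm_num)

variable {p : unitInterval}

/-- **The linear lower bound above one half.** -/
theorem theta_lower (hp : 1 / 2 < (p : ℝ)) :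
    ((p : ℝ) - 1 / 2) / ((p : ℝ) * (1 - 1 / 2)) ≤ theta p := by
  refine ge_of_tendsto' (tendsto_thetaN p) fun n => ?_
  rcases p.2.2.lt_or_eq with hp1 | hp1
  · exact thetaN_lower (by norm_num) hp.le hp1
      (fun q hq hq' S hS => one_le_phi hq (hq'.trans p.2.2) hS) n
  · have hlim : Tendsto (fun q : ℝ => (q - 1 / 2) / (q * (1 - 1 / 2))) (𝓝[<] 1) (𝓝 1) := by
      have hcont : ContinuousAt (fun q : ℝ => (q - 1 / 2) / (q * (1 - 1 / 2))) 1 :=
        (continuousAt_id.sub continuousAt_const).div (continuousAt_id.mul continuousAt_const)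
          (by norm_num)
      have := hcont.tendsto.mono_left (nhdsWithin_le_nhds (s := Set.Iio (1 : ℝ)))
      norm_num at this ⊢
      exact this
    have hle : (1 : ℝ) ≤ thetaN n p := by
      refine le_of_tendsto hlim ?_
      filter_upwards [Ioo_mem_nhdsLT (show (1 / 2 : ℝ) < 1 by norm_num)] with q hq
      refine (thetaN_lower (p := q) (by norm_num) hq.1.le hq.2
        (fun r hr hr' S hS => one_le_phi hr (hr'.trans hq.2.le) hS) n).trans ?_
      rw [hp1]
      exact thetaN_mono (by linarith [hq.1]) hq.2.le le_rfl n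
    rw [hp1] at hle ⊢
    norm_num
    linarith

/-- **Harris and Kesten: the critical probability is one half.** -/
theorem theta_eq_zero_iff : theta p = 0 ↔ (p : ℝ) ≤ 1 / 2 := by
  refine ⟨fun h => not_lt.1 fun hp => ?_, fun hp => ?_⟩
  · have := theta_lower hp
    rw [h] at this
    exact absurd this (not_le.2 (div_pos (by linarith) (mul_pos (by linarith) (by norm_num))))
  · exact le_antisymm (theta_half ▸ theta_mono (p := p) (q := half) hp) measureReal_nonneg

/-- **Exponential decay below one half.** -/
theorem exponential_decay (hp : (p : ℝ) < 1 / 2) :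
    ∃ C c : ℝ, 0 < c ∧ ∀ n : ℕ, thetaN n p ≤ C * Real.exp (-c * n) := by
  suffices h : ∃ S : Finset (ℤ × ℤ), (0 : ℤ × ℤ) ∈ S ∧ phi (p : ℝ) S < 1 by
    obtain ⟨S, hS, hφ⟩ := h
    exact thetaN_le_pow p.2.1 p.2.2 hS hφ
  by_contra hno
  simp only [not_exists, not_and, not_lt] at hno
  have hp0 : 0 < (p : ℝ) := by
    rcases p.2.1.lt_or_eq with h | h
    · exact h
    · have := hno {0} (Finset.mem_singleton_self 0)
      rw [phi, ← h, zero_mul] at this
      linarith
  have hlow : ((1 / 2 : ℝ) - p) / (1 / 2 * (1 - p)) ≤ theta half :=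
    ge_of_tendsto' (tendsto_thetaN half) fun n => by
      rw [coe_half]
      exact thetaN_lower hp0 hp.le (by norm_num)
        (fun q hq hq' S hS => (hno S hS).trans (phi_mono p.2.1 hq (by linarith) S)) n
  rw [theta_half] at hlow
  exact absurd hlow (not_le.2 (div_pos (by linarith) (mul_pos (by norm_num) (by linarith))))

/-- Above one half there is almost surely an infinite cluster. -/
theorem exists_cluster (hp : 1 / 2 < (p : ℝ)) : (perc p).real (many 1) = 1 := by
  refine (perc_zero_one p (measurableSet_many 1) (many_invariant 1)).resolve_left fun h => ?_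
  have h1 : theta p ≤ (perc p).real (many 1) := measureReal_mono fun η hη =>
    ⟨fun _ => 0, fun _ => hη, fun i j hij => absurd (Subsingleton.elim i j) hij⟩
  rw [h] at h1
  exact absurd (theta_eq_zero_iff.1 (le_antisymm h1 measureReal_nonneg)) (not_le.2 hp)

end FA.Percolation

end
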