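import Fermat.Agent.Percolation.Sharpness
import Mathlib.MeasureTheory.Measure.SeparableMeasure
import Mathlib.Probability.Distributions.SetBernoulli

/-!
# The product measure

Events of finitely many edges have their finite probabilities, the measure is invariant under the
symmetries of the lattice, finitely many edges may be resampled, and invariant events have
probability zero or one.
-/

set_option autoImplicit false

noncomputable section

open MeasureTheory ProbabilityTheory Filter
open scoped Classical Topology symmDiff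

namespace FA.Percolation

variable {p : unitInterval} {F : Finset Edge} {A B : Set (Set Edge)}

/-- Bernoulli bond percolation: every edge is open with chance `p`, independently. -/
def perc (p : unitInterval) : Measure (Set Edge) := setBer((Set.univ : Set Edge), p)

instance (p : unitInterval) : IsProbabilityMeasure (perc p) :=
  inferInstanceAs (IsProbabilityMeasure setBer((Set.univ : Set Edge), p))

/-- The configurations agreeing with `s` on `F`. -/
def cyl (F s : Finset Edge) : Set (Set Edge) := {η | η ∩ ↑F = ↑s}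

theorem measurableSet_mem (e : Edge) : MeasurableSet {η : Set Edge | e ∈ η} :=
  measurableSet_setOfPred.2 (measurable_set_iff.1 measurable_id e)

theorem cyl_eq {s : Finset Edge} (hs : s ⊆ F) :
    cyl F s = ⋂ e ∈ F, if e ∈ s then {η | e ∈ η} else {η | e ∈ η}ᶜ := by
  ext η
  simp only [cyl, Set.mem_ofPred_eq, Set.mem_iInter, Set.ext_iff, Set.mem_inter_iff,
    Finset.mem_coe]
  refine ⟨fun h e he => ?_, fun h e => ?_⟩
  · split_ifs with h'
    · exact ((h e).2 h').1
    · exact fun hh => h' ((h e).1 ⟨hh, he⟩)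
  · refine ⟨fun ⟨h1, h2⟩ => ?_, fun h' => ⟨?_, hs h'⟩⟩
    · by_contra h'
      have := h e h2
      rw [if_neg h'] at this
      exact this h1
    · have := h e (hs h')
      rwa [if_pos h'] at this

theorem measurableSet_cyl {s : Finset Edge} (hs : s ⊆ F) : MeasurableSet (cyl F s) := by
  rw [cyl_eq hs]
  refine Finset.measurableSet_biInter F fun e _ => ?_
  split_ifs
  · exact measurableSet_mem e
  · exact (measurableSet_mem e).compl

theorem perc_cyl (p : unitInterval) {s : Finset Edge} (hs : s ⊆ F) :
    (perc p).real (cyl F s) = weight p F s := by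
  have hset : (fun q : Edge → Prop => {e | q e}) ⁻¹' cyl F s =
      Set.pi (↑F : Set Edge) fun e => {b : Prop | b ↔ e ∈ s} := by
    ext q
    simp only [cyl, Set.mem_preimage, Set.mem_ofPred_eq, Set.ext_iff, Set.mem_inter_iff,
      Finset.mem_coe, Set.mem_pi]
    refine ⟨fun h e he => ?_, fun h e => ⟨fun ⟨h1, h2⟩ => (h e h2).1 h1, fun h' => ?_⟩⟩
    · exact ⟨fun hq => (h e).1 ⟨hq, he⟩, fun h' => ((h e).2 h').1⟩
    · exact ⟨(h e (hs h')).2 h', hs h'⟩
  rw [measureReal_def, perc, setBernoulli_apply', hset,
    Measure.infinitePi_pi _ (fun _ _ => .of_discrete), ENNReal.toReal_prod,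
    Finset.prod_congr rfl fun e _ => show _ = if e ∈ s then (p : ℝ) else 1 - (p : ℝ) from ?_]
  · rw [Finset.prod_ite, Finset.prod_const, Finset.prod_const, weight]
    congr 3 <;> ext e <;> simp only [Finset.mem_filter, Finset.mem_sdiff]
    exact ⟨fun h => h.2, fun h => ⟨hs h, h⟩⟩
  · rw [Measure.add_apply, Measure.smul_apply, Measure.smul_apply,
      Measure.dirac_apply' _ .of_discrete, Measure.dirac_apply' _ .of_discrete]
    by_cases he : e ∈ s
    · rw [Set.indicator_of_mem (by simp [he]), Set.indicator_of_notMem (by simp [he]), if_pos he]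
      simp [ENNReal.smul_def]
    · rw [Set.indicator_of_notMem (by simp [he]), Set.indicator_of_mem (by simp [he]), if_neg he]
      simp [ENNReal.smul_def]

theorem depOn_eq_biUnion (hA : DepOn (↑F) A) : A = ⋃ s ∈ confs F A, cyl F s := by
  ext η
  simp only [Set.mem_iUnion, exists_prop]
  refine ⟨fun h => ⟨F.filter fun e => e ∈ η, mem_confs.2 ⟨Finset.filter_subset _ _, ?_⟩, ?_⟩,
    fun ⟨s, hs, hη⟩ => ?_⟩
  · exact hA (fun e he => by simp [Finset.mem_coe.1 he]) h
  · show η ∩ ↑F = ↑(F.filter fun e => e ∈ η)
    ext e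
    simp [and_comm]
  · refine hA (fun e he => ?_) (mem_confs.1 hs).2
    have := (Set.ext_iff.1 (hη : η ∩ ↑F = ↑s) e)
    exact ⟨fun h => (this.2 h).1, fun h => this.1 ⟨h, he⟩⟩

theorem measurableSet_of_depOn (hA : DepOn (↑F) A) : MeasurableSet A := by
  rw [depOn_eq_biUnion hA]
  exact Finset.measurableSet_biUnion _ fun s hs => measurableSet_cyl (mem_confs.1 hs).1

theorem perc_real_depOn (p : unitInterval) (hA : DepOn (↑F) A) : (perc p).real A = prob p F A := by
  conv_lhs => rw [depOn_eq_biUnion hA]
  rw [measureReal_biUnion_finset (fun s _ t _ hst => ?_)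
    (fun s hs => measurableSet_cyl (mem_confs.1 hs).1)]
  · exact Finset.sum_congr rfl fun s hs => perc_cyl p (mem_confs.1 hs).1
  · exact Set.disjoint_left.2 fun η h1 h2 =>
      hst (Finset.coe_injective ((h1 : η ∩ ↑F = ↑s).symm.trans h2))

/-- The events of finitely many edges. -/
def finEvents : Set (Set (Set Edge)) := {A | ∃ F : Finset Edge, DepOn (↑F) A}

theorem isSetAlgebra_finEvents : IsSetAlgebra finEvents where
  empty_mem := ⟨∅, fun _ _ _ h => h.elim⟩
  compl_mem := fun _ ⟨F, h⟩ => ⟨F, h.compl⟩
  union_mem := fun _ _ ⟨F, hA⟩ ⟨G, hB⟩ => ⟨F ∪ G, fun _ _ he h => h.imp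
    (hA.mono (Finset.coe_subset.2 Finset.subset_union_left) he)
    (hB.mono (Finset.coe_subset.2 Finset.subset_union_right) he)⟩

theorem generateFrom_finEvents :
    (inferInstance : MeasurableSpace (Set Edge)) = MeasurableSpace.generateFrom finEvents := by
  refine le_antisymm ?_ (MeasurableSpace.generateFrom_le fun A ⟨F, hA⟩ =>
    measurableSet_of_depOn hA)
  have hid : @Measurable (Set Edge) (Set Edge) (MeasurableSpace.generateFrom finEvents)
      inferInstance id := by
    refine (@measurable_set_iff Edge (Set Edge) (MeasurableSpace.generateFrom finEvents) id).2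
      fun e => ?_
    refine @measurable_to_countable' Prop (Set Edge) _ _ (MeasurableSpace.generateFrom finEvents) _
      fun b => MeasurableSpace.measurableSet_generateFrom
      ⟨{e}, fun η η' he (h : (e ∈ η) = b) => ?_⟩
    show (e ∈ η') = b
    rw [← h, eq_iff_iff]
    exact (he e (by simp)).symm
  exact fun s hs => hid hs

theorem ext_finEvents {μ ν : Measure (Set Edge)} [IsFiniteMeasure μ]
    (h : ∀ A ∈ finEvents, μ A = ν A) : μ = ν :=
  ext_of_generate_finite finEvents generateFrom_finEvents
    (fun _ ⟨F, hA⟩ _ ⟨G, hB⟩ _ => ⟨F ∪ G,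
      (hA.mono (Finset.coe_subset.2 Finset.subset_union_left)).inter
        (hB.mono (Finset.coe_subset.2 Finset.subset_union_right))⟩) h
    (h _ ⟨∅, depOn_univ _⟩)

theorem measurable_image (σ : Edge ≃ Edge) : Measurable fun η : Set Edge => σ '' η := by
  refine measurable_set_iff.2 fun e => ?_
  simp only [Equiv.image_eq_preimage_symm, Set.mem_preimage]
  exact measurable_set_iff.1 measurable_id (σ.symm e)

theorem depOn_image (σ : Edge ≃ Edge) (hA : DepOn (↑F) A) :
    DepOn (↑(F.map σ.symm.toEmbedding)) {η | σ '' η ∈ A} := fun η η' he h => by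
  refine hA (fun e he' => ?_) h
  simp only [Equiv.image_eq_preimage_symm, Set.mem_preimage]
  exact he _ (Finset.mem_coe.2 (Finset.mem_map_of_mem σ.symm.toEmbedding he'))

/-- **Invariance.** -/
theorem perc_map (p : unitInterval) (σ : Edge ≃ Edge) :
    (perc p).map (fun η => σ '' η) = perc p := by
  refine ext_finEvents fun A ⟨F, hA⟩ => ?_
  rw [Measure.map_apply (measurable_image σ) (measurableSet_of_depOn hA),
    ← measureReal_eq_measureReal_iff]
  refine (perc_real_depOn p (depOn_image σ hA)).trans ?_
  rw [perc_real_depOn p hA, ← prob_map, Finset.map_map]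
  simp

theorem perc_preimage (p : unitInterval) (σ : Edge ≃ Edge) (hA : MeasurableSet A) :
    (perc p).real {η | σ '' η ∈ A} = (perc p).real A := by
  conv_rhs => rw [← perc_map p σ]
  rw [map_measureReal_apply (measurable_image σ) hA]
  rfl

/-- The edges of `F` set as in `s`. -/
def setOn (F s : Finset Edge) (η : Set Edge) : Set Edge := (η \ ↑F) ∪ ↑s

theorem measurable_setOn (F s : Finset Edge) : Measurable (setOn F s) := by
  refine measurable_set_iff.2 fun e => ?_
  simp only [setOn, Set.mem_union, Set.mem_sdiff, Finset.mem_coe]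
  exact ((measurable_set_iff.1 measurable_id e).and measurable_const).or measurable_const

theorem setOn_eq_self {s : Finset Edge} {η : Set Edge} (h : η ∩ ↑F = ↑s) : setOn F s η = η := by
  rw [setOn, ← h, Set.union_comm, Set.inter_union_sdiff]

/-- The trace of a configuration on `F`. -/
def restrTo (F : Finset Edge) (η : Set Edge) : Finset Edge := F.filter fun e => e ∈ η

theorem restrTo_subset (F : Finset Edge) (η : Set Edge) : restrTo F η ⊆ F :=
  Finset.filter_subset _ _

theorem restrTo_eq_iff {s : Finset Edge} {η : Set Edge} :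
    restrTo F η = s ↔ η ∩ ↑F = ↑s := by
  rw [← Finset.coe_inj, restrTo, Finset.coe_filter]
  exact iff_of_eq (congrArg (· = (↑s : Set Edge)) (Set.ext fun e => and_comm))

/-- **Resampling finitely many edges.** -/
theorem perc_resample (p : unitInterval) (F : Finset Edge) (hA : MeasurableSet A) :
    (perc p).real A =
      ∑ s ∈ F.powerset, weight p F s * (perc p).real (setOn F s ⁻¹' A) := by
  set μ := perc p
  set ν := ∑ s ∈ F.powerset, ENNReal.ofReal (weight p F s) • μ.map (setOn F s)
  have hν : ∀ {B : Set (Set Edge)}, MeasurableSet B →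
      ν B = ENNReal.ofReal (∑ s ∈ F.powerset, weight p F s * μ.real (setOn F s ⁻¹' B)) := by
    intro B hB
    rw [ENNReal.ofReal_sum_of_nonneg fun s _ =>
      mul_nonneg (weight_nonneg p.2.1 p.2.2 _ _) measureReal_nonneg]
    simp only [ν, Measure.coe_finsetSum, Finset.sum_apply, Measure.smul_apply, smul_eq_mul]
    refine Finset.sum_congr rfl fun s _ => ?_
    rw [ENNReal.ofReal_mul (weight_nonneg p.2.1 p.2.2 _ _), ofReal_measureReal,
      Measure.map_apply (measurable_setOn F s) hB]
  have heq : μ = ν := by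
    refine ext_finEvents fun B ⟨G, hB⟩ => ?_
    rw [hν (measurableSet_of_depOn hB), ← ofReal_measureReal]
    congr 1
    have hB' := hB.mono (Finset.coe_subset.2 (Finset.subset_union_left (s₂ := F)))
    rw [perc_real_depOn p hB', ← prob_fiber (restrTo F) F.powerset B
      fun s _ => Finset.mem_powerset.2 (restrTo_subset F _)]
    refine Finset.sum_congr rfl fun s hs => ?_
    have hsF := Finset.mem_powerset.1 hs
    have hdep : DepOn (↑((G ∪ F) \ F)) (setOn F s ⁻¹' B) := fun η η' he h => by
      refine hB' (fun e he' => ?_) h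
      by_cases heF : e ∈ F
      · simp [setOn, heF]
      · have := he e (Finset.mem_coe.2 (Finset.mem_sdiff.2 ⟨Finset.mem_coe.1 he', heF⟩))
        simp [setOn, heF, this]
    have hcyl : DepOn (↑F) (cyl F s) := fun η η' he (h : η ∩ ↑F = ↑s) => by
      show η' ∩ ↑F = ↑s
      rw [← h]
      ext e
      exact and_congr_left fun h' => (he e h').symm
    rw [perc_real_depOn p hdep,
      show weight p F s = prob p F (cyl F s) by rw [← perc_cyl p hsF, perc_real_depOn p hcyl],
      ← prob_union_mul Finset.disjoint_sdiff hcyl hdep, Finset.union_sdiff_self_eq_union,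
      Finset.union_eq_right.2 (Finset.subset_union_right (s₁ := G))]
    refine prob_congr fun t _ => ⟨fun ⟨h1, h2⟩ => ?_, fun ⟨h1, h2⟩ => ?_⟩
    · have e : (↑t : Set Edge) ∩ ↑F = ↑s := restrTo_eq_iff.1 h2
      exact ⟨e, by rwa [Set.mem_preimage, setOn_eq_self e]⟩
    · rw [Set.mem_preimage, setOn_eq_self h1] at h2
      exact ⟨h2, restrTo_eq_iff.2 h1⟩
  conv_lhs => rw [measureReal_def, heq, hν hA]
  exact ENNReal.toReal_ofReal (Finset.sum_nonneg fun s _ =>
    mul_nonneg (weight_nonneg p.2.1 p.2.2 _ _) measureReal_nonneg)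

/-- **Finite energy.** -/
theorem finite_energy (hp : 0 < (p : ℝ)) (hp1 : (p : ℝ) < 1) (hA : MeasurableSet A)
    (hB : MeasurableSet B) (hpos : (perc p).real A ≠ 0) {s₀ : Finset Edge} (hs₀ : s₀ ⊆ F)
    (h : ∀ η, ∀ s ⊆ F, setOn F s η ∈ A → setOn F s₀ η ∈ B) : (perc p).real B ≠ 0 := by
  rw [perc_resample p F hA] at hpos
  obtain ⟨s, hs, hs'⟩ := Finset.exists_ne_zero_of_sum_ne_zero hpos
  have h1 : 0 < (perc p).real (setOn F s₀ ⁻¹' B) :=
    (measureReal_nonneg.lt_of_ne' (right_ne_zero_of_mul hs')).trans_le
      (measureReal_mono fun η hη => h η s (Finset.mem_powerset.1 hs) hη)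
  rw [perc_resample p F hB]
  refine (lt_of_lt_of_le (mul_pos (weight_pos hp hp1 F s₀) h1) ?_).ne'
  exact Finset.single_le_sum (f := fun s => weight p F s * (perc p).real (setOn F s ⁻¹' B))
    (fun s _ => mul_nonneg (weight_nonneg p.2.1 p.2.2 _ _) measureReal_nonneg)
    (Finset.mem_powerset.2 hs₀)

/-- **Invariant events have probability zero or one.** -/
theorem perc_zero_one (p : unitInterval) (hA : MeasurableSet A)
    (hinv : ∀ t : ℤ × ℤ, {η | (shiftSym t).onE '' η ∈ A} = A) :
    (perc p).real A = 0 ∨ (perc p).real A = 1 := by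
  set a := (perc p).real A
  have h : ∀ ε > 0, |a - a * a| ≤ ε := by
    intro ε hε
    obtain ⟨T, ⟨F, hT⟩, hlt⟩ := (Measure.MeasureDense.of_generateFrom_isSetAlgebra_finite
      (μ := perc p) isSetAlgebra_finEvents generateFrom_finEvents).approx A hA
        (measure_ne_top _ _) (ε / 4) (by positivity)
    have hd : (perc p).real (A ∆ T) ≤ ε / 4 :=
      (ENNReal.toReal_lt_of_lt_ofReal hlt).le
    obtain ⟨m, hm⟩ := exists_subset_box (F.image Prod.fst)
    set σ := (shiftSym (2 * (m : ℤ) + 1, 0)).onE
    set T' := {η : Set Edge | σ '' η ∈ T}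
    have hT' := depOn_image σ hT
    have hdisj : Disjoint F (F.map σ.symm.toEmbedding) := Finset.disjoint_left.2 fun e he he' => by
      rw [Finset.mem_map_equiv, Equiv.symm_symm] at he'
      have h1 := mem_box.1 (hm (Finset.mem_image_of_mem Prod.fst he))
      have h2 := mem_box.1 (hm (Finset.mem_image_of_mem Prod.fst he'))
      have h3 : (σ e).1 = e.1 + (2 * (m : ℤ) + 1, 0) := rfl
      rw [h3] at h2
      simp only [abs_le, Prod.fst_add] at h1 h2
      omega
    have hprod : (perc p).real (T ∩ T') = (perc p).real T * (perc p).real T' := by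
      rw [perc_real_depOn p hT, perc_real_depOn p hT',
        perc_real_depOn p ((hT.mono (Finset.coe_subset.2 Finset.subset_union_left)).inter
          (hT'.mono (Finset.coe_subset.2 Finset.subset_union_right))),
        prob_union_mul hdisj hT hT']
    have hmT := measurableSet_of_depOn hT
    have hT'T : (perc p).real T' = (perc p).real T := perc_preimage p σ hmT
    have hd' : (perc p).real (A ∆ T') ≤ ε / 4 := by
      refine le_trans (le_of_eq ?_) hd
      rw [← perc_preimage p σ (hA.symmDiff hmT)]
      congr 1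
      conv_lhs => rw [← hinv (2 * (m : ℤ) + 1, 0)]
      rfl
    have hbT : |a - (perc p).real T| ≤ ε / 4 :=
      (abs_measureReal_sub_le_measureReal_symmDiff hA.nullMeasurableSet
        hmT.nullMeasurableSet).trans hd
    have hbI : |a - (perc p).real (T ∩ T')| ≤ ε / 2 := by
      refine (abs_measureReal_sub_le_measureReal_symmDiff hA.nullMeasurableSet
        (hmT.inter (measurableSet_of_depOn hT')).nullMeasurableSet).trans ?_
      refine (measureReal_mono (s₂ := A ∆ T ∪ A ∆ T') fun η hη => ?_).trans
        ((measureReal_union_le _ _).trans (by linarith))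
      simp only [Set.mem_symmDiff, Set.mem_inter_iff, Set.mem_union] at hη ⊢
      tauto
    rw [hprod, hT'T] at hbI
    rw [abs_le] at hbT hbI ⊢
    have t0 : 0 ≤ (perc p).real T := measureReal_nonneg
    have t1 : (perc p).real T ≤ 1 := measureReal_le_one
    have a0 : 0 ≤ a := measureReal_nonneg
    have a1 : a ≤ 1 := measureReal_le_one
    constructor <;> nlinarith
  have h0 : a - a * a = 0 := by
    have := le_of_forall_pos_le_add (a := |a - a * a|) (b := 0) fun ε hε => by simpa using h ε hε
    exact abs_nonpos_iff.1 this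
  rcases mul_eq_zero.1 (show a * (1 - a) = 0 by linarith) with h | h
  · exact Or.inl h
  · exact Or.inr (by linarith)

/-- The cluster of `v` is infinite. -/
def Inf (η : Set Edge) (v : ℤ × ℤ) : Prop := ∀ n, ∃ w ∉ box n, Conn η Set.univ v w

theorem inf_iff_infinite {η : Set Edge} {v : ℤ × ℤ} :
    Inf η v ↔ {w | Conn η Set.univ v w}.Infinite := by
  constructor
  · intro h hfin
    obtain ⟨n, hn⟩ := exists_subset_box hfin.toFinset
    obtain ⟨w, hw, hc⟩ := h n
    exact hw (hn (hfin.mem_toFinset.2 hc))
  · intro h n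
    obtain ⟨w, hw, hw'⟩ := h.exists_notMem_finset (box n)
    exact ⟨w, hw', hw⟩

theorem Conn.exists_box {η : Set Edge} {u v : ℤ × ℤ} (h : Conn η Set.univ u v) :
    ∃ n, Conn η (↑(box n) : Set (ℤ × ℤ)) u v := by
  induction h with
  | refl => exact ⟨0, Conn.refl u⟩
  | @tail b c _ hbc ih =>
    obtain ⟨n, hn⟩ := ih
    obtain ⟨e, he, hends, -, -⟩ := hbc
    obtain ⟨n₁, h₁⟩ := exists_mem_box b
    obtain ⟨n₂, h₂⟩ := exists_mem_box c
    exact ⟨max n (max n₁ n₂), (hn.mono_set (Finset.coe_subset.2 (box_mono (le_max_left _ _)))).trans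
      (Conn.of_edge he hends (box_mono (by omega) h₁) (box_mono (by omega) h₂))⟩

theorem measurableSet_conn (u v : ℤ × ℤ) : MeasurableSet {η | Conn η Set.univ u v} := by
  rw [show {η | Conn η Set.univ u v} = ⋃ n, {η | Conn η (↑(box n) : Set (ℤ × ℤ)) u v} by
    ext η
    simp only [Set.mem_iUnion, Set.mem_ofPred_eq]
    exact ⟨Conn.exists_box, fun ⟨n, h⟩ => h.mono_set (Set.subset_univ _)⟩]
  exact MeasurableSet.iUnion fun n => measurableSet_of_depOn (F := edgesIn (box n))
    fun _ _ he hc => (conn_congr fun e h => he e (by rwa [coe_edgesIn])).1 hc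

theorem measurableSet_inf (v : ℤ × ℤ) : MeasurableSet {η | Inf η v} := by
  rw [show {η | Inf η v} = ⋂ n, ⋃ w ∈ {w | w ∉ box n}, {η | Conn η Set.univ v w} by
    ext η
    simp [Inf]]
  exact MeasurableSet.iInter fun n =>
    MeasurableSet.biUnion (Set.to_countable _) fun w _ => measurableSet_conn v w

theorem Sym.inf_image (g : Sym) {η : Set Edge} {v : ℤ × ℤ} :
    Inf (g.onE '' η) (g.onV v) ↔ Inf η v := by
  rw [inf_iff_infinite, inf_iff_infinite, ← Set.infinite_image_iff (f := g.onV)
    g.onV.injective.injOn (s := {w | Conn η Set.univ v w})]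
  refine iff_of_eq (congrArg Set.Infinite (Set.ext fun w => ?_))
  rw [g.onV.image_eq_preimage_symm, Set.mem_preimage, Set.mem_ofPred_eq, Set.mem_ofPred_eq]
  conv_rhs => rw [← g.conn_iff, Set.image_univ_of_surjective g.onV.surjective,
    Equiv.apply_symm_apply]

/-- The probability of percolation at the origin. -/
def theta (p : unitInterval) : ℝ := (perc p).real {η | Inf η 0}

theorem setOf_inf_eq : {η : Set Edge | Inf η 0} = ⋂ n, reach n := by
  ext η
  simp only [Set.mem_iInter, Set.mem_ofPred_eq]
  refine ⟨fun h n => ?_, fun h n => ?_⟩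
  · obtain ⟨w, hw, hc⟩ := h n
    obtain ⟨a, ha, hc'⟩ := hc.to_border' (zero_mem_box n) (Or.inr hw)
    exact ⟨a, ha, hc'.mono_set Set.inter_subset_right⟩
  · obtain ⟨w, hw, hc⟩ := h (n + 1)
    refine ⟨w, fun hn => ?_, hc.mono_set (Set.subset_univ _)⟩
    simp only [mem_border, mem_box] at hw hn
    omega

theorem tendsto_thetaN (p : unitInterval) : Tendsto (fun n => thetaN n p) atTop (𝓝 (theta p)) := by
  have h := tendsto_measure_iInter_atTop (μ := perc p) (s := reach)
    (fun n => (measurableSet_of_depOn (depOn_reach n)).nullMeasurableSet)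
    (fun m n h => reach_anti h) ⟨0, measure_ne_top _ _⟩
  rw [← setOf_inf_eq] at h
  exact ((ENNReal.tendsto_toReal (measure_ne_top _ _)).comp h).congr fun n =>
    perc_real_depOn p (depOn_reach n)

theorem theta_le_thetaN (p : unitInterval) (n : ℕ) : theta p ≤ thetaN n p := by
  rw [theta, setOf_inf_eq, thetaN, ← perc_real_depOn p (depOn_reach n)]
  exact measureReal_mono (Set.iInter_subset _ n)

theorem theta_mono {p q : unitInterval} (h : p ≤ q) : theta p ≤ theta q :=
  le_of_tendsto_of_tendsto' (tendsto_thetaN p) (tendsto_thetaN q) fun n =>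
    thetaN_mono p.2.1 h q.2.2 n

end FA.Percolation

end
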