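import Fermat.Agent.Percolation.Basic
import Mathlib.Analysis.Calculus.Deriv.Pow
import Mathlib.Analysis.Calculus.Deriv.MeanValue
import Mathlib.Combinatorics.SetFamily.FourFunctions

/-!
# Probabilities of events of finitely many edges

Product weights, the inequality of Harris, and the formula of Margulis and Russo.
-/

set_option autoImplicit false

noncomputable section

open Finset
open scoped Classical FinsetFamily

namespace FA.Percolation

variable {p q : ℝ} {F G : Finset Edge} {A B : Set (Set Edge)}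

/-- The chance of a configuration of the edges of `F`. -/
def weight (p : ℝ) (F s : Finset Edge) : ℝ := p ^ s.card * (1 - p) ^ (F \ s).card

/-- The configurations of `F` in an event. -/
def confs (F : Finset Edge) (A : Set (Set Edge)) : Finset (Finset Edge) :=
  F.powerset.filter fun s => (↑s : Set Edge) ∈ A

/-- The probability of an event of the edges of `F`. -/
def prob (p : ℝ) (F : Finset Edge) (A : Set (Set Edge)) : ℝ := ∑ s ∈ confs F A, weight p F s

theorem mem_confs {s : Finset Edge} : s ∈ confs F A ↔ s ⊆ F ∧ (↑s : Set Edge) ∈ A := by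
  simp [confs]

/-- An event depends only on the edges of `F`. -/
def DepOn (F : Set Edge) (A : Set (Set Edge)) : Prop :=
  ∀ ⦃η η' : Set Edge⦄, (∀ e ∈ F, (e ∈ η ↔ e ∈ η')) → η ∈ A → η' ∈ A

theorem DepOn.mono {F G : Set Edge} (h : DepOn F A) (hFG : F ⊆ G) : DepOn G A :=
  fun _ _ he => h fun e h' => he e (hFG h')

theorem DepOn.iff {F : Set Edge} (h : DepOn F A) {η η' : Set Edge}
    (he : ∀ e ∈ F, (e ∈ η ↔ e ∈ η')) : η ∈ A ↔ η' ∈ A :=
  ⟨h he, h fun e h' => (he e h').symm⟩

theorem DepOn.compl {F : Set Edge} (h : DepOn F A) : DepOn F Aᶜ :=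
  fun _ _ he ha hb => ha (h (fun e h' => (he e h').symm) hb)

theorem DepOn.inter {F : Set Edge} (hA : DepOn F A) (hB : DepOn F B) : DepOn F (A ∩ B) :=
  fun _ _ he h => ⟨hA he h.1, hB he h.2⟩

theorem depOn_univ (F : Set Edge) : DepOn F Set.univ := fun _ _ _ _ => trivial

theorem weight_nonneg (hp : 0 ≤ p) (hp1 : p ≤ 1) (F s : Finset Edge) : 0 ≤ weight p F s :=
  mul_nonneg (pow_nonneg hp _) (pow_nonneg (by linarith) _)

theorem weight_pos (hp : 0 < p) (hp1 : p < 1) (F s : Finset Edge) : 0 < weight p F s :=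
  mul_pos (pow_pos hp _) (pow_pos (by linarith) _)

theorem prob_nonneg (hp : 0 ≤ p) (hp1 : p ≤ 1) (F : Finset Edge) (A : Set (Set Edge)) :
    0 ≤ prob p F A :=
  sum_nonneg fun _ _ => weight_nonneg hp hp1 _ _

theorem prob_mono (hp : 0 ≤ p) (hp1 : p ≤ 1)
    (h : ∀ s ⊆ F, (↑s : Set Edge) ∈ A → (↑s : Set Edge) ∈ B) : prob p F A ≤ prob p F B :=
  sum_le_sum_of_subset_of_nonneg (fun _ hs => mem_confs.2 ⟨(mem_confs.1 hs).1,
    h _ (mem_confs.1 hs).1 (mem_confs.1 hs).2⟩) fun _ _ _ => weight_nonneg hp hp1 _ _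

theorem prob_congr (h : ∀ s ⊆ F, ((↑s : Set Edge) ∈ A ↔ (↑s : Set Edge) ∈ B)) :
    prob p F A = prob p F B := by
  refine sum_congr ?_ fun _ _ => rfl
  ext s
  simp only [mem_confs]
  exact and_congr_right (h s)

theorem prob_univ (p : ℝ) (F : Finset Edge) : prob p F Set.univ = 1 := by
  have h := Finset.sum_pow_mul_eq_add_pow p (1 - p) F
  rw [add_sub_cancel, one_pow] at h
  rw [← h, prob]
  refine sum_congr (by simp [confs]) fun s hs => ?_
  rw [weight, card_sdiff_of_subset (Finset.mem_powerset.1 hs)]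

theorem prob_empty (p : ℝ) (F : Finset Edge) : prob p F ∅ = 0 := by simp [prob, confs]

theorem prob_compl (p : ℝ) (F : Finset Edge) (A : Set (Set Edge)) :
    prob p F Aᶜ = 1 - prob p F A := by
  rw [eq_sub_iff_add_eq, ← prob_univ p F, prob, prob, prob, confs, confs, confs, add_comm]
  simp only [Set.mem_compl_iff, Set.mem_univ, filter_true]
  exact sum_filter_add_sum_filter_not _ _ _

theorem prob_le_one (hp : 0 ≤ p) (hp1 : p ≤ 1) (F : Finset Edge) (A : Set (Set Edge)) :
    prob p F A ≤ 1 := by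
  have := prob_nonneg hp hp1 F Aᶜ
  rw [prob_compl] at this
  linarith

theorem prob_union_le (hp : 0 ≤ p) (hp1 : p ≤ 1) (F : Finset Edge) (A B : Set (Set Edge)) :
    prob p F (A ∪ B) ≤ prob p F A + prob p F B := by
  have h : confs F (A ∪ B) = confs F A ∪ confs F B := by
    ext s
    simp [mem_confs, and_or_left]
  have h' := Finset.sum_union_inter (f := weight p F) (s₁ := confs F A) (s₂ := confs F B)
  simp only [prob, h]
  linarith [sum_nonneg (s := confs F A ∩ confs F B) fun s _ => weight_nonneg hp hp1 F s]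

theorem prob_biUnion_le (hp : 0 ≤ p) (hp1 : p ≤ 1) {ι : Type*} (t : Finset ι)
    (f : ι → Set (Set Edge)) : prob p F (⋃ i ∈ t, f i) ≤ ∑ i ∈ t, prob p F (f i) := by
  induction t using Finset.induction with
  | empty => simp [prob_empty]
  | insert a t ha ih =>
    rw [Finset.set_biUnion_insert, sum_insert ha]
    exact (prob_union_le hp hp1 _ _ _).trans (by linarith)

/-- **Independence.** -/
theorem prob_union_mul (hd : Disjoint F G) (hA : DepOn (↑F) A) (hB : DepOn (↑G) B) :
    prob p (F ∪ G) (A ∩ B) = prob p F A * prob p G B := by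
  have hsub : ∀ {s t : Finset Edge}, s ⊆ F → t ⊆ G →
      ((↑(s ∪ t) : Set Edge) ∈ A ↔ (↑s : Set Edge) ∈ A) ∧
      ((↑(s ∪ t) : Set Edge) ∈ B ↔ (↑t : Set Edge) ∈ B) := fun hs ht =>
    ⟨hA.iff fun e he => by
      have hn : e ∉ G := Finset.disjoint_left.1 hd (Finset.mem_coe.1 he)
      simp [mt (@ht e) hn],
    hB.iff fun e he => by
      have hn : e ∉ F := Finset.disjoint_right.1 hd (Finset.mem_coe.1 he)
      simp [mt (@hs e) hn]⟩
  rw [prob, prob, prob, sum_mul_sum, ← sum_product']
  refine sum_nbij' (fun u => (u ∩ F, u ∩ G)) (fun z => z.1 ∪ z.2) (fun u hu => ?_)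
    (fun z hz => ?_) (fun u hu => ?_) (fun z hz => ?_) fun u hu => ?_
  · obtain ⟨h1, h2⟩ := mem_confs.1 hu
    have he : u ∩ F ∪ u ∩ G = u := by rw [← inter_union_distrib_left, inter_eq_left.2 h1]
    obtain ⟨a1, a2⟩ := hsub (inter_subset_right (s₁ := u) (s₂ := F))
      (inter_subset_right (s₁ := u) (s₂ := G))
    rw [he] at a1 a2
    exact mem_product.2 ⟨mem_confs.2 ⟨inter_subset_right, a1.1 h2.1⟩,
      mem_confs.2 ⟨inter_subset_right, a2.1 h2.2⟩⟩
  · obtain ⟨h1, h2⟩ := mem_product.1 hz
    obtain ⟨a1, a2⟩ := hsub (mem_confs.1 h1).1 (mem_confs.1 h2).1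
    exact mem_confs.2 ⟨union_subset_union (mem_confs.1 h1).1 (mem_confs.1 h2).1,
      a1.2 (mem_confs.1 h1).2, a2.2 (mem_confs.1 h2).2⟩
  · rw [← inter_union_distrib_left, inter_eq_left.2 (mem_confs.1 hu).1]
  · obtain ⟨h1, h2⟩ := mem_product.1 hz
    have e1 := (mem_confs.1 h1).1
    have e2 := (mem_confs.1 h2).1
    refine Prod.ext ?_ ?_ <;> ext e <;> simp only [Finset.mem_inter, Finset.mem_union]
    · exact ⟨fun h => h.1.resolve_right fun h' => Finset.disjoint_left.1 hd h.2 (e2 h'),
        fun h => ⟨Or.inl h, e1 h⟩⟩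
    · exact ⟨fun h => h.1.resolve_left fun h' => Finset.disjoint_left.1 hd (e1 h') h.2,
        fun h => ⟨Or.inr h, e2 h⟩⟩
  · have h1 := (mem_confs.1 hu).1
    have e1 : u.card = (u ∩ F).card + (u ∩ G).card := by
      rw [← card_union_of_disjoint (hd.mono inter_subset_right inter_subset_right),
        ← inter_union_distrib_left, inter_eq_left.2 h1]
    have e2 : ((F ∪ G) \ u).card = (F \ (u ∩ F)).card + (G \ (u ∩ G)).card := by
      rw [← card_union_of_disjoint (hd.mono sdiff_subset sdiff_subset)]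
      congr 1
      ext e
      simp only [Finset.mem_sdiff, Finset.mem_union, Finset.mem_inter]
      tauto
    simp only [weight, e1, e2, pow_add]
    ring

/-- An event of fewer edges. -/
theorem prob_mono_edges (hFG : F ⊆ G) (hA : DepOn (↑F) A) : prob p G A = prob p F A := by
  have h := prob_union_mul (p := p) (Finset.disjoint_sdiff (s := F) (t := G)) hA
    (depOn_univ (↑(G \ F)))
  rwa [union_sdiff_of_subset hFG, Set.inter_univ, prob_univ, mul_one] at h

/-- A relabelling of the edges. -/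
theorem prob_map (σ : Edge ≃ Edge) (F : Finset Edge) (A : Set (Set Edge)) :
    prob p (F.map σ.toEmbedding) A = prob p F {η | σ '' η ∈ A} := by
  refine sum_nbij' (fun u => u.map σ.symm.toEmbedding) (fun u => u.map σ.toEmbedding)
    (fun u hu => ?_) (fun u hu => ?_) (fun u _ => by simp [Finset.map_map])
    (fun u _ => by simp [Finset.map_map]) fun u hu => ?_
  · obtain ⟨h1, h2⟩ := mem_confs.1 hu
    refine mem_confs.2 ⟨fun e he => ?_, ?_⟩
    · obtain ⟨e', he', rfl⟩ := Finset.mem_map.1 he
      obtain ⟨e'', h'', rfl⟩ := Finset.mem_map.1 (h1 he')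
      simpa using h''
    · simpa [Finset.coe_map, Set.image_image] using h2
  · obtain ⟨h1, h2⟩ := mem_confs.1 hu
    exact mem_confs.2 ⟨Finset.map_subset_map.2 h1, by simpa [Finset.coe_map] using h2⟩
  · have e : F \ u.map σ.symm.toEmbedding = (F.map σ.toEmbedding \ u).map σ.symm.toEmbedding := by
      ext e
      simp
    simp only [weight, Finset.card_map, e]

/-- Open and closed exchanged. -/
theorem prob_flip (F : Finset Edge) (A : Set (Set Edge)) :
    prob p F {η | (↑F \ η) ∈ A} = prob (1 - p) F A := by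
  refine sum_nbij' (fun u => F \ u) (fun u => F \ u) (fun u hu => ?_) (fun u hu => ?_)
    (fun u hu => Finset.sdiff_sdiff_eq_self (mem_confs.1 hu).1)
    (fun u hu => Finset.sdiff_sdiff_eq_self (mem_confs.1 hu).1) fun u hu => ?_
  · exact mem_confs.2 ⟨sdiff_subset, by simpa using (mem_confs.1 hu).2⟩
  · obtain ⟨h1, h2⟩ := mem_confs.1 hu
    refine mem_confs.2 ⟨sdiff_subset, ?_⟩
    rw [Set.mem_ofPred_eq, ← Finset.coe_sdiff, Finset.sdiff_sdiff_eq_self h1]
    exact h2
  · simp only [weight, Finset.sdiff_sdiff_eq_self (mem_confs.1 hu).1, sub_sub_cancel]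
    ring

/-- **Harris's inequality.** -/
theorem prob_harris (hp : 0 ≤ p) (hp1 : p ≤ 1) (hA : IsUpperSet A) (hB : IsUpperSet B) :
    prob p F A * prob p F B ≤ prob p F (A ∩ B) := by
  have hw : (0 : Finset Edge → ℝ) ≤ weight p F := fun s => weight_nonneg hp hp1 F s
  have h := Finset.four_functions_theorem F hw hw hw hw (fun s hs t ht => le_of_eq ?_)
    (𝒜 := confs F A) (ℬ := confs F B) (filter_subset _ _) (filter_subset _ _)
  · refine h.trans ?_
    have h1 : ∑ s ∈ confs F A ⊼ confs F B, weight p F s ≤ 1 := by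
      rw [← prob_univ p F]
      refine sum_le_sum_of_subset_of_nonneg (fun s hs => ?_) fun _ _ _ => weight_nonneg hp hp1 _ _
      obtain ⟨a, ha, b, -, rfl⟩ := Finset.mem_infs.1 hs
      exact mem_confs.2 ⟨inter_subset_left.trans (mem_confs.1 ha).1, trivial⟩
    have h2 : ∑ s ∈ confs F A ⊻ confs F B, weight p F s ≤ prob p F (A ∩ B) := by
      refine sum_le_sum_of_subset_of_nonneg (fun s hs => ?_) fun _ _ _ => weight_nonneg hp hp1 _ _
      obtain ⟨a, ha, b, hb, rfl⟩ := Finset.mem_sups.1 hs
      exact mem_confs.2 ⟨union_subset (mem_confs.1 ha).1 (mem_confs.1 hb).1,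
        hA (by simp) (mem_confs.1 ha).2, hB (by simp) (mem_confs.1 hb).2⟩
    calc _ ≤ 1 * prob p F (A ∩ B) :=
          mul_le_mul h1 h2 (sum_nonneg fun _ _ => hw _) zero_le_one
      _ = _ := one_mul _
  · have e1 := card_union_add_card_inter s t
    have e2 := card_sdiff_of_subset hs
    have e3 := card_sdiff_of_subset ht
    have e4 := card_sdiff_of_subset (union_subset hs ht)
    have e5 := card_sdiff_of_subset (inter_subset_left.trans hs : s ∩ t ⊆ F)
    have b1 := card_le_card (union_subset hs ht)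
    have b2 := card_le_card hs
    have b3 := card_le_card ht
    have b4 : (s ∩ t).card ≤ F.card := card_le_card (inter_subset_left.trans hs)
    simp only [weight]
    rw [mul_mul_mul_comm, ← pow_add, ← pow_add, mul_mul_mul_comm, ← pow_add, ← pow_add]
    congr 2 <;> omega

/-- Harris's inequality for decreasing events. -/
theorem prob_harris_lower (hp : 0 ≤ p) (hp1 : p ≤ 1) (hA : IsUpperSet A) (hB : IsUpperSet B) :
    prob p F Aᶜ * prob p F Bᶜ ≤ prob p F (Aᶜ ∩ Bᶜ) := by
  have h := prob_harris (F := F) hp hp1 hA hB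
  have e : prob p F (A ∪ B) + prob p F (A ∩ B) = prob p F A + prob p F B := by
    have h1 : confs F (A ∪ B) = confs F A ∪ confs F B := by ext s; simp [mem_confs, and_or_left]
    have h2 : confs F (A ∩ B) = confs F A ∩ confs F B := by
      ext s
      simp only [mem_confs, Finset.mem_inter, Set.mem_inter_iff]
      tauto
    simp only [prob, h1, h2]
    exact Finset.sum_union_inter
  rw [← Set.compl_union, prob_compl, prob_compl, prob_compl]
  nlinarith

/-- **The formula of Margulis and Russo.** -/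
theorem hasDerivAt_prob (F : Finset Edge) (A : Set (Set Edge)) (q : ℝ) :
    HasDerivAt (fun x => prob x F A) (∑ e ∈ F,
      (prob q (F.erase e) {η | insert e η ∈ A} - prob q (F.erase e) A)) q := by
  have hterm : ∀ s ∈ confs F A, HasDerivAt (fun x => weight x F s)
      ((∑ e ∈ s, weight q (F.erase e) (s.erase e)) - ∑ e ∈ F \ s, weight q (F.erase e) s) q := by
    intro s hs
    have h := ((hasDerivAt_id' q).pow s.card).mul
      (((hasDerivAt_id' q).const_sub 1).pow (F \ s).card)
    refine h.congr_deriv ?_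
    have e1 : ∑ e ∈ s, weight q (F.erase e) (s.erase e) =
        (s.card : ℝ) * (q ^ (s.card - 1) * (1 - q) ^ (F \ s).card) := by
      rw [← nsmul_eq_mul, ← sum_const]
      refine sum_congr rfl fun e he => ?_
      have : F.erase e \ s.erase e = F \ s := by
        ext x
        simp only [Finset.mem_sdiff, Finset.mem_erase]
        constructor
        · rintro ⟨⟨h1, h2⟩, h3⟩
          exact ⟨h2, fun h => h3 ⟨h1, h⟩⟩
        · rintro ⟨h1, h2⟩
          exact ⟨⟨fun h => h2 (h ▸ he), h1⟩, fun h => h2 h.2⟩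
      rw [weight, this, card_erase_of_mem he]
    have e2 : ∑ e ∈ F \ s, weight q (F.erase e) s =
        ((F \ s).card : ℝ) * (q ^ s.card * (1 - q) ^ ((F \ s).card - 1)) := by
      rw [← nsmul_eq_mul, ← sum_const]
      refine sum_congr rfl fun e he => ?_
      rw [weight, erase_sdiff_comm, card_erase_of_mem he]
    rw [e1, e2]
    simp only [Pi.pow_apply]
    ring
  have h := HasDerivAt.fun_sum hterm
  refine h.congr_deriv ?_
  have e1 : ∑ s ∈ confs F A, ∑ e ∈ s, weight q (F.erase e) (s.erase e) =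
      ∑ e ∈ F, prob q (F.erase e) {η | insert e η ∈ A} := by
    rw [sum_comm' (t' := F) (s' := fun e => (confs F A).filter fun s => e ∈ s) fun s e => ?_]
    · refine sum_congr rfl fun e he => sum_nbij' (fun s => s.erase e) (fun t => insert e t)
        (fun s hs => ?_) (fun t ht => ?_) (fun s hs => insert_erase (mem_filter.1 hs).2)
        (fun t ht => erase_insert fun h => by simpa using (mem_confs.1 ht).1 h) fun _ _ => rfl
      · obtain ⟨hs, he'⟩ := mem_filter.1 hs
        refine mem_confs.2 ⟨erase_subset_erase e (mem_confs.1 hs).1, ?_⟩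
        rw [Set.mem_ofPred_eq, ← Finset.coe_insert, insert_erase he']
        exact (mem_confs.1 hs).2
      · obtain ⟨h1, h2⟩ := mem_confs.1 ht
        refine mem_filter.2 ⟨mem_confs.2 ⟨insert_subset_iff.2 ⟨he, h1.trans (erase_subset e F)⟩,
          ?_⟩, mem_insert_self e t⟩
        rwa [Set.mem_ofPred_eq, ← Finset.coe_insert] at h2
    · simp only [mem_filter, mem_confs]
      exact ⟨fun ⟨h1, h2⟩ => ⟨⟨h1, h2⟩, h1.1 h2⟩, fun ⟨⟨h1, h2⟩, _⟩ => ⟨h1, h2⟩⟩
  have e2 : ∑ s ∈ confs F A, ∑ e ∈ F \ s, weight q (F.erase e) s =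
      ∑ e ∈ F, prob q (F.erase e) A := by
    rw [sum_comm' (t' := F) (s' := fun e => (confs F A).filter fun s => e ∉ s) fun s e => ?_]
    · refine sum_congr rfl fun e _ => sum_congr ?_ fun _ _ => rfl
      ext s
      simp only [mem_filter, mem_confs, subset_erase]
      tauto
    · simp only [mem_filter, mem_confs, Finset.mem_sdiff]
      tauto
  rw [sum_sub_distrib, sum_sub_distrib, e1, e2]

/-- The derivative of an increasing event counts the closed edges that would bring it about. -/
theorem russo_closed (hA : IsUpperSet A) (F : Finset Edge) (q : ℝ) :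
    (1 - q) * ∑ e ∈ F, (prob q (F.erase e) {η | insert e η ∈ A} - prob q (F.erase e) A) =
      ∑ s ∈ confs F Aᶜ, weight q F s *
        (F.filter fun e => insert e (↑s : Set Edge) ∈ A).card := by
  have h1 : ∀ e ∈ F, (1 - q) * (prob q (F.erase e) {η | insert e η ∈ A} - prob q (F.erase e) A) =
      ∑ s ∈ confs F Aᶜ, if insert e (↑s : Set Edge) ∈ A then weight q F s else 0 := by
    intro e he
    rw [← sum_filter, prob, prob, ← sum_sdiff_eq_sub (fun s hs => ?_), mul_sum]
    · refine sum_congr ?_ fun s hs => ?_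
      · ext s
        simp only [Finset.mem_sdiff, mem_filter, mem_confs, Set.mem_compl_iff, subset_erase,
          Set.mem_ofPred_eq]
        constructor
        · rintro ⟨⟨⟨h1, h2⟩, h3⟩, h4⟩
          exact ⟨⟨h1, fun h => h4 ⟨⟨h1, h2⟩, h⟩⟩, h3⟩
        · rintro ⟨⟨h1, h2⟩, h3⟩
          refine ⟨⟨⟨h1, fun h => h2 ?_⟩, h3⟩, fun h => h2 h.2⟩
          rwa [Set.insert_eq_of_mem (Finset.mem_coe.2 h)] at h3
      · obtain ⟨hs, hins⟩ := mem_filter.1 hs
        obtain ⟨h1, h2⟩ := mem_confs.1 hs
        have hes : e ∉ s := fun h => h2 (by rwa [Set.insert_eq_of_mem (Finset.mem_coe.2 h)] at hins)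
        rw [weight, weight, erase_sdiff_comm,
          ← card_erase_add_one (Finset.mem_sdiff.2 ⟨he, hes⟩), pow_succ]
        ring
    · obtain ⟨h1, h2⟩ := mem_confs.1 hs
      exact mem_confs.2 ⟨h1, hA (Set.subset_insert e _) h2⟩
  rw [mul_sum, sum_congr rfl h1, sum_comm]
  refine sum_congr rfl fun s _ => ?_
  rw [← sum_filter, sum_const, nsmul_eq_mul, mul_comm]

/-- Increasing events are likelier when edges are likelier. -/
theorem prob_mono_left (hA : IsUpperSet A) (hp : 0 ≤ p) (hpq : p ≤ q) (hq : q ≤ 1) :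
    prob p F A ≤ prob q F A := by
  refine monotoneOn_of_hasDerivWithinAt_nonneg (convex_Icc 0 1)
    (fun x _ => (hasDerivAt_prob F A x).continuousAt.continuousWithinAt)
    (fun x _ => (hasDerivAt_prob F A x).hasDerivWithinAt) (fun x hx => ?_)
    ⟨hp, hpq.trans hq⟩ ⟨hp.trans hpq, hq⟩ hpq
  rw [interior_Icc] at hx
  refine sum_nonneg fun e _ => sub_nonneg.2 ?_
  exact prob_mono hx.1.le hx.2.le fun s _ hs => hA (Set.subset_insert e _) hs

/-- More edges make an increasing event likelier. -/
theorem prob_le_edges (hp : 0 ≤ p) (hp1 : p ≤ 1) (hA : IsUpperSet A) (hG : DepOn (↑G) A)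
    (F : Finset Edge) : prob p F A ≤ prob p G A := by
  set A' : Set (Set Edge) := {η | η ∩ ↑F ∈ A}
  have hd : DepOn (↑F) A' := fun η η' he h => by
    have e : η ∩ ↑F = η' ∩ ↑F := by
      ext x
      simp only [Set.mem_inter_iff]
      exact ⟨fun hx => ⟨(he x hx.2).1 hx.1, hx.2⟩, fun hx => ⟨(he x hx.2).2 hx.1, hx.2⟩⟩
    show η' ∩ ↑F ∈ A
    rw [← e]
    exact h
  calc prob p F A = prob p F A' := prob_congr fun s hs => by
        rw [Set.mem_ofPred_eq, Set.inter_eq_left.2 (Finset.coe_subset.2 hs)]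
    _ = prob p (F ∪ G) A' := (prob_mono_edges subset_union_left hd).symm
    _ ≤ prob p (F ∪ G) A := prob_mono hp hp1 fun s _ h => hA Set.inter_subset_left h
    _ = prob p G A := prob_mono_edges subset_union_right hG

/-- The values of a function of the configuration split an event. -/
theorem prob_fiber {β : Type*} (f : Set Edge → β) (T : Finset β) (A : Set (Set Edge))
    (hT : ∀ s ∈ confs F A, f (↑s : Set Edge) ∈ T) :
    ∑ b ∈ T, prob p F (A ∩ {η | f η = b}) = prob p F A := by
  rw [prob, ← sum_fiberwise_of_maps_to hT]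
  refine sum_congr rfl fun b _ => sum_congr ?_ fun _ _ => rfl
  ext s
  simp only [mem_confs, mem_filter, Set.mem_inter_iff, Set.mem_ofPred_eq, and_assoc]

/-- A single edge is open with chance `p`. -/
theorem prob_singleton (p : ℝ) (e : Edge) : prob p {e} {η | e ∈ η} = p := by
  have h : confs {e} {η | e ∈ η} = {{e}} := by
    ext s
    simp only [mem_confs, Finset.mem_singleton, Set.mem_ofPred_eq, Finset.mem_coe]
    exact ⟨fun ⟨h1, h2⟩ => subset_antisymm h1 (Finset.singleton_subset_iff.2 h2),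
      fun h => by simp [h]⟩
  simp [prob, h, weight]

end FA.Percolation

end
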