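import Fermat.Agent.Percolation.Prob
import Mathlib.Analysis.Calculus.Deriv.Inv
import Mathlib.Analysis.SpecialFunctions.Pow.Real

/-!
# Sharpness

The argument of Duminil-Copin and Tassion: a finite set where the expected number of open exits
is below one gives exponential decay, and otherwise the probability of reaching far is bounded
below linearly in the parameter.
-/

set_option autoImplicit false

noncomputable section

open Finset
open scoped Classical

namespace FA.Percolation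

variable {p q : ℝ} {n : ℕ} {S : Finset (ℤ × ℤ)}

/-- A connection to a vertex on or outside the border reaches the border inside the box. -/
theorem Conn.to_border' {η : Set Edge} {T : Set (ℤ × ℤ)} {u v : ℤ × ℤ} {m : ℕ}
    (h : Conn η T u v) (hu : u ∈ box m) (hv : v ∈ border m ∨ v ∉ box m) :
    ∃ a ∈ border m, Conn η (T ∩ ↑(box m)) u a := by
  have key : (v ∈ box m ∧ Conn η (T ∩ ↑(box m)) u v) ∨
      ∃ a ∈ border m, Conn η (T ∩ ↑(box m)) u a := by
    refine h.invariant (P := fun w => (w ∈ box m ∧ Conn η (T ∩ ↑(box m)) u w) ∨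
      ∃ a ∈ border m, Conn η (T ∩ ↑(box m)) u a) (Or.inl ⟨hu, Conn.refl u⟩) fun a b hab ha => ?_
    rcases ha with ⟨ha, hc⟩ | ha
    · obtain ⟨e, he, hends, haT, hbT⟩ := hab
      by_cases hb : b ∈ box m
      · exact Or.inl ⟨hb, hc.trans (Conn.of_edge (S := T ∩ ↑(box m)) he hends ⟨haT, ha⟩ ⟨hbT, hb⟩)⟩
      · exact Or.inr ⟨a, mem_border_of_ends hends ha hb, hc⟩
    · exact Or.inr ha
  rcases key with ⟨hv1, hc⟩ | h'
  · exact ⟨v, hv.resolve_right (not_not.2 hv1), hc⟩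
  · exact h'

/-- The origin reaches the border of the box of radius `n`. -/
def reach (n : ℕ) : Set (Set Edge) :=
  {η | ∃ v ∈ border n, Conn η (↑(box n) : Set (ℤ × ℤ)) 0 v}

theorem isUpperSet_reach (n : ℕ) : IsUpperSet (reach n) :=
  fun _ _ h ⟨v, hv, hc⟩ => ⟨v, hv, hc.mono_cfg h⟩

theorem depOn_reach (n : ℕ) : DepOn (↑(edgesIn (box n))) (reach n) :=
  fun _ _ he ⟨v, hv, hc⟩ => ⟨v, hv, (conn_congr fun e h => he e (by rwa [coe_edgesIn])).1 hc⟩

theorem reach_anti {m n : ℕ} (h : m ≤ n) : reach n ⊆ reach m := by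
  intro η ⟨v, hv, hc⟩
  have hv' : v ∈ border m ∨ v ∉ box m := by
    rcases h.eq_or_lt with rfl | hlt
    · exact Or.inl hv
    · refine Or.inr fun hm => ?_
      simp only [mem_border, mem_box] at hv hm
      omega
  obtain ⟨a, ha, hc'⟩ := hc.to_border' (zero_mem_box m) hv'
  exact ⟨a, ha, hc'.mono_set Set.inter_subset_right⟩

/-- The probability of reaching the border. -/
def thetaN (n : ℕ) (p : ℝ) : ℝ := prob p (edgesIn (box n)) (reach n)

theorem thetaN_nonneg (hp : 0 ≤ p) (hp1 : p ≤ 1) (n : ℕ) : 0 ≤ thetaN n p :=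
  prob_nonneg hp hp1 _ _

theorem thetaN_le_one (hp : 0 ≤ p) (hp1 : p ≤ 1) (n : ℕ) : thetaN n p ≤ 1 :=
  prob_le_one hp hp1 _ _

theorem thetaN_mono (hp : 0 ≤ p) (hpq : p ≤ q) (hq : q ≤ 1) (n : ℕ) : thetaN n p ≤ thetaN n q :=
  prob_mono_left (isUpperSet_reach n) hp hpq hq

theorem thetaN_anti (hp : 0 ≤ p) (hp1 : p ≤ 1) {m n : ℕ} (h : m ≤ n) : thetaN n p ≤ thetaN m p :=
  (prob_mono hp hp1 fun _ _ hs => reach_anti h hs).trans
    (prob_le_edges hp hp1 (isUpperSet_reach m) (depOn_reach m) _)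

/-- The pairs of neighbours leaving a set. -/
def bdry (S : Finset (ℤ × ℤ)) : Finset ((ℤ × ℤ) × (ℤ × ℤ)) :=
  (S ×ˢ S.biUnion fun v => {v + (1, 0), v + (-1, 0), v + (0, 1), v + (0, -1)}).filter
    fun z => z.2 ∉ S ∧ |z.1.1 - z.2.1| + |z.1.2 - z.2.2| = 1

theorem mem_bdry {a b : ℤ × ℤ} :
    (a, b) ∈ bdry S ↔ a ∈ S ∧ b ∉ S ∧ |a.1 - b.1| + |a.2 - b.2| = 1 := by
  simp only [bdry, mem_filter, mem_product, mem_biUnion, mem_insert, Finset.mem_singleton]
  refine ⟨fun ⟨⟨h1, _⟩, h2, h3⟩ => ⟨h1, h2, h3⟩, fun ⟨h1, h2, h3⟩ => ⟨⟨h1, a, h1, ?_⟩, h2, h3⟩⟩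
  obtain ⟨e, he⟩ := exists_edge h3
  obtain ⟨⟨x, y⟩, d⟩ := e
  rcases he with ⟨rfl, rfl⟩ | ⟨rfl, rfl⟩ <;> cases d <;> simp [tip_false, tip_true, Prod.ext_iff]

/-- The edge between two neighbours. -/
def edgeOf (u v : ℤ × ℤ) : Edge :=
  if h : |u.1 - v.1| + |u.2 - v.2| = 1 then (exists_edge h).choose else ((0, 0), false)

theorem ends_edgeOf {u v : ℤ × ℤ} (h : |u.1 - v.1| + |u.2 - v.2| = 1) :
    Ends (edgeOf u v) u v := by
  rw [edgeOf, dif_pos h]
  exact (exists_edge h).choose_spec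

/-- Connection to the origin inside `S`. -/
def connTo (S : Finset (ℤ × ℤ)) (x : ℤ × ℤ) : Set (Set Edge) :=
  {η | Conn η (↑S : Set (ℤ × ℤ)) 0 x}

theorem isUpperSet_connTo (S : Finset (ℤ × ℤ)) (x : ℤ × ℤ) : IsUpperSet (connTo S x) :=
  fun _ _ h hc => Conn.mono_cfg hc h

theorem depOn_connTo (S : Finset (ℤ × ℤ)) (x : ℤ × ℤ) :
    DepOn (↑(edgesIn S)) (connTo S x) :=
  fun _ _ he hc => (conn_congr fun e h => he e (by rwa [coe_edgesIn])).1 hc

/-- The expected number of open exits from `S`. -/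
def phi (p : ℝ) (S : Finset (ℤ × ℤ)) : ℝ :=
  p * ∑ z ∈ bdry S, prob p (edgesIn S) (connTo S z.1)

theorem phi_nonneg (hp : 0 ≤ p) (hp1 : p ≤ 1) (S : Finset (ℤ × ℤ)) : 0 ≤ phi p S :=
  mul_nonneg hp (sum_nonneg fun _ _ => prob_nonneg hp hp1 _ _)

theorem phi_mono (hp : 0 ≤ p) (hpq : p ≤ q) (hq : q ≤ 1) (S : Finset (ℤ × ℤ)) :
    phi p S ≤ phi q S :=
  mul_le_mul hpq (sum_le_sum fun _ _ => prob_mono_left (isUpperSet_connTo _ _) hp hpq hq)
    (sum_nonneg fun _ _ => prob_nonneg hp (hpq.trans hq) _ _) (hp.trans hpq)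

/-- The cluster of the origin inside `S`. -/
def clusterIn (S : Finset (ℤ × ℤ)) (η : Set Edge) : Finset (ℤ × ℤ) :=
  S.filter fun x => Conn η (↑S : Set (ℤ × ℤ)) 0 x

/-- The edges of `S` at `C`. -/
def touching (S C : Finset (ℤ × ℤ)) : Finset Edge :=
  (edgesIn S).filter fun e => e.1 ∈ C ∨ tip e ∈ C

theorem depOn_clusterIn (hS : (0 : ℤ × ℤ) ∈ S) (C : Finset (ℤ × ℤ)) :
    DepOn (↑(touching S C)) {η | clusterIn S η = C} := by
  intro η η' he (hC : clusterIn S η = C)
  have hedge : ∀ {a b : ℤ × ℤ} {e : Edge}, Ends e a b → a ∈ S → b ∈ S → a ∈ C →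
      (e ∈ η ↔ e ∈ η') := fun {a b e} hends ha hb haC => by
    refine he e ?_
    rcases hends with ⟨rfl, rfl⟩ | ⟨rfl, rfl⟩ <;> simp [touching, mem_edgesIn, ha, hb, haC]
  have hmem : ∀ x, x ∈ C ↔ x ∈ S ∧ Conn η (↑S : Set (ℤ × ℤ)) 0 x := fun x => by
    rw [← hC]
    simp [clusterIn]
  show clusterIn S η' = C
  ext x
  simp only [clusterIn, mem_filter]
  constructor
  · rintro ⟨-, hc⟩
    refine hc.invariant (P := (· ∈ C)) ((hmem 0).2 ⟨hS, Conn.refl 0⟩) fun a b hab ha => ?_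
    obtain ⟨e, hee, hends, haS, hbS⟩ := hab
    exact (hmem b).2 ⟨hbS, ((hmem a).1 ha).2.trans
      (Conn.of_edge ((hedge hends haS hbS ha).2 hee) hends haS hbS)⟩
  · intro hx
    obtain ⟨hxS, hc⟩ := (hmem x).1 hx
    refine ⟨hxS, ?_⟩
    exact (hc.invariant (P := fun y => Conn η (↑S : Set (ℤ × ℤ)) 0 y ∧
      Conn η' (↑S : Set (ℤ × ℤ)) 0 y) ⟨Conn.refl 0, Conn.refl 0⟩ fun a b hab ha => by
        obtain ⟨e, hee, hends, haS, hbS⟩ := hab
        exact ⟨ha.1.trans (Conn.of_edge hee hends haS hbS), ha.2.trans (Conn.of_edge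
          ((hedge hends haS hbS ((hmem a).2 ⟨haS, ha.1⟩)).1 hee) hends haS hbS)⟩).2

/-- `y` reaches the border off the set `C`. -/
def farFrom (n : ℕ) (C : Finset (ℤ × ℤ)) (y : ℤ × ℤ) : Set (Set Edge) :=
  {η | ∃ v ∈ border n, Conn η (↑(box n \ C) : Set (ℤ × ℤ)) y v}

theorem prob_farFrom_le (hp : 0 ≤ p) (hp1 : p ≤ 1) {L : ℕ} (hL : L ≤ n) {y : ℤ × ℤ}
    (hy : y ∈ box L) (C : Finset (ℤ × ℤ)) (F : Finset Edge) :
    prob p F (farFrom n C y) ≤ thetaN (n - L) p := by
  refine (prob_mono hp hp1 (B := {η | (shiftSym (-y)).onE '' η ∈ reach (n - L)})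
    fun s _ hs => ?_).trans ?_
  · obtain ⟨v, hv, hc⟩ := hs
    have h := (shiftSym (-y)).conn_image hc
    rw [shiftSym_onV, shiftSym_onV, add_neg_cancel] at h
    obtain ⟨a, ha, hc'⟩ := h.to_border' (zero_mem_box (n - L)) (v := v + -y) (by
      by_cases hb : v + -y ∈ box (n - L)
      · refine Or.inl ?_
        simp only [mem_border, mem_box, abs_le, Prod.fst_add, Prod.snd_add, Prod.fst_neg,
          Prod.snd_neg] at hv hy hb ⊢
        rcases abs_cases v.1 with ⟨e1, f1⟩ | ⟨e1, f1⟩ <;>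
          rcases abs_cases v.2 with ⟨e2, f2⟩ | ⟨e2, f2⟩ <;>
          rcases abs_cases (v.1 + -y.1) with ⟨e3, f3⟩ | ⟨e3, f3⟩ <;>
          rcases abs_cases (v.2 + -y.2) with ⟨e4, f4⟩ | ⟨e4, f4⟩ <;>
          simp only [e1, e2, e3, e4] at hv ⊢ <;> omega
      · exact Or.inr hb)
    exact ⟨a, ha, hc'.mono_set Set.inter_subset_right⟩
  · rw [← prob_map]
    exact prob_le_edges hp hp1 (isUpperSet_reach _) (depOn_reach _) _

/-- **One step of the decay.** -/
theorem thetaN_le_phi_mul (hp : 0 ≤ p) (hp1 : p ≤ 1) (hS0 : (0 : ℤ × ℤ) ∈ S) {L : ℕ}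
    (hSL : ∀ v ∈ S, |v.1| < (L : ℤ) ∧ |v.2| < (L : ℤ)) (hL : L ≤ n) :
    thetaN n p ≤ phi p S * thetaN (n - L) p := by
  have hbox : ∀ z ∈ bdry S, z.2 ∈ box L := fun ⟨a, b⟩ hz => by
    obtain ⟨ha, -, hd⟩ := mem_bdry.1 hz
    have := hSL a ha
    simp only [mem_box, abs_le, abs_lt] at this ⊢
    rcases abs_cases (a.1 - b.1) with ⟨e1, f1⟩ | ⟨e1, f1⟩ <;>
      rcases abs_cases (a.2 - b.2) with ⟨e2, f2⟩ | ⟨e2, f2⟩ <;> rw [e1, e2] at hd <;> omega
  set F := edgesIn (box n)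
  set pairs := S.powerset.biUnion fun C => ((bdry S).filter fun z => z.1 ∈ C).image fun z => (C, z)
  have hSn : ∀ v ∈ S, v ∈ box n := fun v hv => by
    have := hSL v hv
    simp only [mem_box, abs_le, abs_lt] at this ⊢
    omega
  have hsub : ∀ s ⊆ F, (↑s : Set Edge) ∈ reach n → (↑s : Set Edge) ∈
      ⋃ c ∈ pairs, ({η | clusterIn S η = c.1} ∩ {η | edgeOf c.2.1 c.2.2 ∈ η}) ∩
        farFrom n c.1 c.2.2 := by
    rintro s - ⟨v, hv, hc⟩
    set C := clusterIn S (↑s : Set Edge) with hCdef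
    have hv0 : v ∉ C := fun h => by
      have := hSL v (mem_filter.1 h).1
      simp only [mem_border] at hv
      omega
    have h0 : (0 : ℤ × ℤ) ∈ C := mem_filter.2 ⟨hS0, Conn.refl 0⟩
    obtain ⟨a, b, hva, ⟨e, hee, hends, ha, hb⟩, haC, hbC⟩ :=
      hc.symm.exit (T := ((↑C : Set (ℤ × ℤ)))ᶜ) (by simpa using hv0) (by simpa using h0)
    simp only [Set.mem_compl_iff, Finset.mem_coe, not_not] at haC hbC
    have haS : a ∉ S := fun h => haC (mem_filter.2 ⟨h,
      (mem_filter.1 hbC).2.trans (Conn.of_edge hee hends.symm (mem_filter.1 hbC).1 h)⟩)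
    have hz : (b, a) ∈ bdry S := mem_bdry.2 ⟨(mem_filter.1 hbC).1, haS, hends.symm.coord⟩
    simp only [Set.mem_iUnion, exists_prop]
    refine ⟨(C, (b, a)), mem_biUnion.2 ⟨C, Finset.mem_powerset.2 (filter_subset _ _), mem_image.2
      ⟨_, mem_filter.2 ⟨hz, hbC⟩, rfl⟩⟩, ⟨rfl, ?_⟩, v, hv, ?_⟩
    · rw [Set.mem_ofPred_eq, (ends_edgeOf hends.symm.coord).edge_unique hends.symm]
      exact hee
    · refine hva.symm.mono_set ?_
      rw [coe_sdiff]
      exact fun x hx => ⟨hx.1, hx.2⟩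
  refine (prob_mono hp hp1 hsub).trans ((prob_biUnion_le hp hp1 _ _).trans ?_)
  have hterm : ∀ c ∈ pairs, prob p F (({η | clusterIn S η = c.1} ∩ {η | edgeOf c.2.1 c.2.2 ∈ η}) ∩
      farFrom n c.1 c.2.2) ≤
        prob p (edgesIn S) {η | clusterIn S η = c.1} * p * thetaN (n - L) p := by
    rintro ⟨C, a, b⟩ hc
    obtain ⟨C', hC', hz⟩ := mem_biUnion.1 hc
    obtain ⟨z, hz, hzeq⟩ := mem_image.1 hz
    simp only [Prod.mk.injEq] at hzeq
    obtain ⟨rfl, rfl⟩ := hzeq
    obtain ⟨hz, haC⟩ := mem_filter.1 hz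
    obtain ⟨haS, hbS, hd⟩ := mem_bdry.1 hz
    have hCS := Finset.mem_powerset.1 hC'
    have hends := ends_edgeOf hd
    set e := edgeOf a b
    have he1 : e ∉ touching S C' := fun h => by
      have h' := mem_edgesIn.1 (mem_filter.1 h).1
      exact hbS ((hends.mem_inner (S := (↑S : Set (ℤ × ℤ)))).1 h').2
    have hd1 : Disjoint (touching S C' ∪ {e}) (edgesIn (box n \ C')) := by
      refine Finset.disjoint_left.2 fun x hx hx' => ?_
      obtain ⟨h1, h2⟩ := mem_edgesIn.1 hx'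
      simp only [Finset.mem_sdiff] at h1 h2
      rcases Finset.mem_union.1 hx with h | h
      · rcases (mem_filter.1 h).2 with h | h
        · exact h1.2 h
        · exact h2.2 h
      · obtain rfl := Finset.mem_singleton.1 h
        rcases hends with ⟨h3, -⟩ | ⟨-, h3⟩
        · exact h1.2 (h3 ▸ haC)
        · exact h2.2 (h3 ▸ haC)
    have hu : touching S C' ∪ {e} ∪ edgesIn (box n \ C') ⊆ F := by
      refine union_subset (union_subset (fun x hx => ?_) (Finset.singleton_subset_iff.2 ?_))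
        fun x hx => ?_
      · obtain ⟨h1, h2⟩ := mem_edgesIn.1 (mem_filter.1 hx).1
        exact mem_edgesIn.2 ⟨hSn _ h1, hSn _ h2⟩
      · exact mem_edgesIn.2 ((hends.mem_inner (S := (↑(box n) : Set (ℤ × ℤ)))).2
          ⟨hSn _ haS, box_mono hL (hbox _ hz)⟩)
      · obtain ⟨h1, h2⟩ := mem_edgesIn.1 hx
        exact mem_edgesIn.2 ⟨(Finset.mem_sdiff.1 h1).1, (Finset.mem_sdiff.1 h2).1⟩
    have hdep1 : DepOn (↑(touching S C')) {η | clusterIn S η = C'} := depOn_clusterIn hS0 C'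
    have hdep2 : DepOn (↑({e} : Finset Edge)) {η | e ∈ η} :=
      fun η η' he h => (he e (by simp)).1 h
    have hdep3 : DepOn (↑(edgesIn (box n \ C'))) (farFrom n C' b) :=
      fun _ _ he ⟨v, hv, hcv⟩ => ⟨v, hv, (conn_congr fun x h => he x (by rwa [coe_edgesIn])).1 hcv⟩
    have hdep12 : DepOn (↑(touching S C' ∪ {e})) ({η | clusterIn S η = C'} ∩ {η | e ∈ η}) :=
      (hdep1.mono (Finset.coe_subset.2 subset_union_left)).inter
        (hdep2.mono (Finset.coe_subset.2 subset_union_right))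
    rw [prob_mono_edges hu ((hdep12.mono (Finset.coe_subset.2 subset_union_left)).inter
        (hdep3.mono (Finset.coe_subset.2 subset_union_right))),
      prob_union_mul hd1 hdep12 hdep3,
      prob_union_mul (Finset.disjoint_singleton_right.2 he1) hdep1 hdep2, prob_singleton,
      prob_mono_edges (filter_subset _ _) hdep1]
    exact mul_le_mul_of_nonneg_left (prob_farFrom_le hp hp1 hL (hbox _ hz) C' _)
      (mul_nonneg (prob_nonneg hp hp1 _ _) hp)
  refine (sum_le_sum hterm).trans (le_of_eq ?_)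
  rw [← sum_mul, ← sum_mul]
  congr 1
  rw [phi, mul_comm]
  congr 1
  rw [sum_biUnion fun C _ C' _ hne => Finset.disjoint_left.2 fun x hx hx' => hne ?_]
  · calc ∑ C ∈ S.powerset, ∑ x ∈ ((bdry S).filter fun z => z.1 ∈ C).image fun z => (C, z),
          prob p (edgesIn S) {η | clusterIn S η = x.1}
        = ∑ C ∈ S.powerset, ∑ z ∈ bdry S,
            if z.1 ∈ C then prob p (edgesIn S) {η | clusterIn S η = C} else 0 := by
          refine sum_congr rfl fun C _ => ?_
          rw [sum_image fun z _ z' _ h => (Prod.mk.injEq _ _ _ _ ▸ h).2, sum_filter]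
      _ = ∑ z ∈ bdry S, prob p (edgesIn S) (connTo S z.1) := by
          rw [sum_comm]
          refine sum_congr rfl fun z hz => ?_
          rw [← prob_fiber (clusterIn S) S.powerset (connTo S z.1)
            fun s _ => Finset.mem_powerset.2 (filter_subset _ _)]
          refine sum_congr rfl fun C _ => ?_
          have hzS : z.1 ∈ S := (mem_bdry.1 (show (z.1, z.2) ∈ bdry S from hz)).1
          split_ifs with h
          · refine prob_congr fun s _ => ⟨fun hs => ⟨?_, hs⟩, fun hs => hs.2⟩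
            rw [← (hs : clusterIn S (↑s : Set Edge) = C)] at h
            exact (mem_filter.1 h).2
          · rw [← prob_empty p (edgesIn S)]
            refine prob_congr fun s _ => ⟨fun hs => hs.elim, fun ⟨h1, h2⟩ => h ?_⟩
            rw [← (h2 : clusterIn S (↑s : Set Edge) = C)]
            exact mem_filter.2 ⟨hzS, h1⟩
  · obtain ⟨z, -, rfl⟩ := mem_image.1 hx
    obtain ⟨z', -, h⟩ := mem_image.1 hx'
    exact (congrArg Prod.fst h).symm

/-- **Exponential decay from a small set.** -/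
theorem thetaN_le_pow (hp : 0 ≤ p) (hp1 : p ≤ 1) (hS0 : (0 : ℤ × ℤ) ∈ S) (hφ : phi p S < 1) :
    ∃ C c : ℝ, 0 < c ∧ ∀ n : ℕ, thetaN n p ≤ C * Real.exp (-c * n) := by
  obtain ⟨m, hm⟩ := exists_subset_box S
  set L := m + 1
  set r := max (phi p S) (1 / 2)
  have hr0 : 0 < r := lt_max_of_lt_right (by norm_num)
  have hr1 : r < 1 := max_lt hφ (by norm_num)
  have hk : ∀ k n, k * L ≤ n → thetaN n p ≤ r ^ k := fun k => by
    induction k with
    | zero => exact fun n _ => (thetaN_le_one hp hp1 n).trans_eq (pow_zero r).symm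
    | succ k ih =>
      intro n hn
      rw [Nat.succ_mul] at hn
      rw [pow_succ']
      refine (thetaN_le_phi_mul hp hp1 hS0 (L := L) (fun v hv => ?_) (by omega)).trans
        (mul_le_mul (le_max_left _ _) (ih _ (by omega)) (thetaN_nonneg hp hp1 _) hr0.le)
      have := mem_box.1 (hm hv)
      push_cast [L]
      omega
  refine ⟨r⁻¹, -Real.log r / L, div_pos (by linarith [Real.log_neg hr0 hr1]) (by positivity),
    fun n => ?_⟩
  refine (hk (n / L) n (Nat.div_mul_le_self n L)).trans ?_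
  rw [← Real.rpow_natCast, Real.rpow_def_of_pos hr0,
    show r⁻¹ = Real.exp (-Real.log r) by rw [Real.exp_neg, Real.exp_log hr0], ← Real.exp_add]
  refine Real.exp_le_exp.2 ?_
  have h2 : (n : ℝ) / L ≤ (n / L : ℕ) + 1 := by
    rw [div_le_iff₀ (by positivity)]
    have := Nat.lt_mul_div_succ n (show 0 < L by omega)
    have h3 : (n : ℝ) ≤ L * ((n / L : ℕ) + 1) := by exact_mod_cast this.le
    linarith
  have h4 : -(-Real.log r / L) * n = Real.log r * ((n : ℝ) / L) := by ring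
  rw [h4]
  nlinarith [Real.log_neg hr0 hr1]

/-- The vertices of the box with no way to the border. -/
def safe (n : ℕ) (η : Set Edge) : Finset (ℤ × ℤ) :=
  (box n).filter fun x => ¬∃ v ∈ border n, Conn η (↑(box n) : Set (ℤ × ℤ)) x v

theorem safe_interior {η : Set Edge} {x : ℤ × ℤ} (hx : x ∈ safe n η) :
    x ∈ box n ∧ x ∉ border n := by
  obtain ⟨h1, h2⟩ := mem_filter.1 hx
  exact ⟨h1, fun h => h2 ⟨x, h, Conn.refl x⟩⟩

theorem depOn_safe (n : ℕ) (S : Finset (ℤ × ℤ)) :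
    DepOn (↑(edgesIn (box n) \ edgesIn S)) {η | safe n η = S} := by
  intro η η' he (hS : safe n η = S)
  have hedge : ∀ {a b : ℤ × ℤ} {e : Edge}, Ends e a b → a ∈ box n → b ∈ box n →
      ¬(a ∈ S ∧ b ∈ S) → (e ∈ η ↔ e ∈ η') := fun {a b e} hends ha hb hab => by
    refine he e (Finset.mem_coe.2 (Finset.mem_sdiff.2 ⟨?_, fun h => hab ?_⟩))
    · exact mem_edgesIn.2 ((hends.mem_inner (S := (↑(box n) : Set (ℤ × ℤ)))).2 ⟨ha, hb⟩)
    · exact (hends.mem_inner (S := (↑S : Set (ℤ × ℤ)))).1 (mem_edgesIn.1 h)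
  have hgood : ∀ {x}, x ∈ box n → x ∉ S → ∃ v ∈ border n, Conn η (↑(box n)) x v := fun hx hxS => by
    by_contra h
    exact hxS (hS ▸ mem_filter.2 ⟨hx, h⟩)
  have hkeep : ∀ {x v}, v ∈ border n → Conn η (↑(box n) : Set (ℤ × ℤ)) x v →
      Conn η' (↑(box n) : Set (ℤ × ℤ)) x v := fun {x v} hv hc => by
    induction hc using Relation.ReflTransGen.head_induction_on with
    | refl => exact Conn.refl v
    | @head a c hac hcv ih =>
      obtain ⟨e, hee, hends, ha, hcb⟩ := hac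
      have hcS : c ∉ S := fun h => by
        rw [← hS] at h
        exact (mem_filter.1 h).2 ⟨v, hv, hcv⟩
      exact (Conn.of_edge ((hedge hends ha hcb fun h => hcS h.2).1 hee) hends ha hcb).trans ih
  show safe n η' = S
  ext x
  constructor
  · intro hx
    obtain ⟨hxb, hno⟩ := mem_filter.1 hx
    by_contra hxS
    obtain ⟨v, hv, hc⟩ := hgood hxb hxS
    exact hno ⟨v, hv, hkeep hv hc⟩
  · intro hx
    refine mem_filter.2 ⟨(safe_interior (hS.symm ▸ hx)).1, fun ⟨v, hv, hc⟩ => ?_⟩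
    have hvS : v ∉ S := fun h => (safe_interior (hS.symm ▸ h)).2 hv
    obtain ⟨a, b, -, ⟨e, hee, hends, hab, hbb⟩, haS, hbS⟩ :=
      hc.exit (T := (↑S : Set (ℤ × ℤ))) hx hvS
    obtain ⟨w, hw, hbw⟩ := hgood (Finset.mem_coe.1 hbb) hbS
    have haS' : a ∈ safe n η := hS.symm ▸ haS
    exact (mem_filter.1 haS').2 ⟨w, hw,
      (Conn.of_edge ((hedge hends hab hbb fun h => hbS h.2).2 hee) hends hab hbb).trans hbw⟩

/-- **The differential inequality.** -/
theorem deriv_bound (hp : 0 ≤ p) (hp1 : p ≤ 1)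
    (hφ : ∀ S : Finset (ℤ × ℤ), (0 : ℤ × ℤ) ∈ S → 1 ≤ phi p S) (n : ℕ) :
    1 - thetaN n p ≤ p * ((1 - p) * ∑ e ∈ edgesIn (box n),
      (prob p ((edgesIn (box n)).erase e) {η | insert e η ∈ reach n} -
        prob p ((edgesIn (box n)).erase e) (reach n))) := by
  set F := edgesIn (box n)
  rw [russo_closed (isUpperSet_reach n), mul_sum, thetaN, ← prob_compl]
  set K := (box n).powerset.filter fun S => (0 : ℤ × ℤ) ∈ S
  have hmap : ∀ s ∈ confs F (reach n)ᶜ, safe n (↑s : Set Edge) ∈ K := fun s hs =>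
    mem_filter.2 ⟨Finset.mem_powerset.2 (filter_subset _ _),
      mem_filter.2 ⟨zero_mem_box n, (mem_confs.1 hs).2⟩⟩
  have hcount : ∀ s ∈ confs F (reach n)ᶜ,
      ∑ z ∈ bdry (safe n (↑s : Set Edge)),
        (if (↑s : Set Edge) ∈ connTo (safe n (↑s : Set Edge)) z.1 then p * weight p F s else 0) ≤
      p * (weight p F s * ((F.filter fun e => insert e (↑s : Set Edge) ∈ reach n).card : ℝ)) := by
    intro s hs
    set η : Set Edge := (↑s : Set Edge)
    set S := safe n η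
    rw [← sum_filter, sum_const, nsmul_eq_mul, mul_comm, ← mul_assoc]
    refine mul_le_mul_of_nonneg_left (Nat.cast_le.2 ?_) (mul_nonneg hp (weight_nonneg hp hp1 _ _))
    refine card_le_card_of_injOn (fun z => edgeOf z.1 z.2) (fun z hz => ?_) fun z hz z' hz' he => ?_
    · obtain ⟨hz, hc⟩ := mem_filter.1 hz
      obtain ⟨a, b⟩ := z
      obtain ⟨ha, hb, hd⟩ := mem_bdry.1 hz
      obtain ⟨hab, habd⟩ := safe_interior ha
      have hbb : b ∈ box n := by
        by_contra h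
        exact habd (mem_border_of_ends (ends_edgeOf hd) hab h)
      obtain ⟨v, hv, hbv⟩ : ∃ v ∈ border n, Conn η (↑(box n) : Set (ℤ × ℤ)) b v := by
        by_contra h
        exact hb (mem_filter.2 ⟨hbb, h⟩)
      refine mem_filter.2 ⟨mem_edgesIn.2 (((ends_edgeOf hd).mem_inner
        (S := (↑(box n) : Set (ℤ × ℤ)))).2 ⟨hab, hbb⟩), v, hv, ?_⟩
      exact ((Conn.mono_cfg hc (Set.subset_insert _ η)).mono_set
        (Finset.coe_subset.2 (filter_subset _ _))).trans
          ((Conn.of_edge (Set.mem_insert _ _) (ends_edgeOf hd) hab hbb).trans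
            (hbv.mono_cfg (Set.subset_insert _ η)))
    · obtain ⟨a, b⟩ := z
      obtain ⟨a', b'⟩ := z'
      obtain ⟨ha, hb, hd⟩ := mem_bdry.1 (mem_filter.1 hz).1
      obtain ⟨ha', hb', hd'⟩ := mem_bdry.1 (mem_filter.1 hz').1
      have h1 := ends_edgeOf hd
      have h2 := ends_edgeOf hd'
      simp only at he
      rw [he] at h1
      rcases h1 with ⟨e1, e2⟩ | ⟨e1, e2⟩ <;> rcases h2 with ⟨e3, e4⟩ | ⟨e3, e4⟩
      · exact Prod.ext (e1.symm.trans e3) (e2.symm.trans e4)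
      · exact absurd ((e1.symm.trans e3) ▸ ha) hb'
      · exact absurd ((e1.symm.trans e3).symm ▸ ha') hb
      · exact Prod.ext (e2.symm.trans e4) (e1.symm.trans e3)
  refine le_trans ?_ (sum_le_sum hcount)
  rw [← sum_fiberwise_of_maps_to hmap, ← prob_fiber (safe n) K (reach n)ᶜ hmap]
  refine sum_le_sum fun S hS => ?_
  obtain ⟨hSb, h0⟩ := mem_filter.1 hS
  have hSF : edgesIn S ⊆ F := fun e he => by
    obtain ⟨h1, h2⟩ := mem_edgesIn.1 he
    exact mem_edgesIn.2 ⟨Finset.mem_powerset.1 hSb h1, Finset.mem_powerset.1 hSb h2⟩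
  have hev : prob p F ((reach n)ᶜ ∩ {η | safe n η = S}) = prob p F {η | safe n η = S} :=
    prob_congr fun s _ => ⟨fun h => h.2, fun h => ⟨fun hr => by
      rw [← (h : safe n (↑s : Set Edge) = S)] at h0
      exact (mem_filter.1 h0).2 hr, h⟩⟩
  have hsum : ∑ s ∈ (confs F (reach n)ᶜ).filter (fun s : Finset Edge => safe n ↑s = S),
      ∑ z ∈ bdry (safe n (↑s : Set Edge)),
        (if (↑s : Set Edge) ∈ connTo (safe n (↑s : Set Edge)) z.1 then p * weight p F s else 0) =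
      prob p F {η | safe n η = S} * phi p S := by
    rw [sum_congr rfl fun s hs => by rw [(mem_filter.1 hs).2], sum_comm, phi, mul_sum, mul_sum]
    refine sum_congr rfl fun z _ => ?_
    rw [← sum_filter, ← mul_sum, show prob p F {η | safe n η = S} *
        (p * prob p (edgesIn S) (connTo S z.1)) =
        p * (prob p (edgesIn S) (connTo S z.1) * prob p F {η | safe n η = S}) by ring,
      prob_mono_edges (F := F \ edgesIn S) sdiff_subset (depOn_safe n S),
      ← prob_union_mul Finset.disjoint_sdiff (depOn_connTo S z.1) (depOn_safe n S),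
      union_sdiff_of_subset hSF]
    refine congrArg _ (sum_congr ?_ fun _ _ => rfl)
    ext s
    simp only [mem_filter, mem_confs]
    constructor
    · rintro ⟨⟨⟨h1, -⟩, h2⟩, h3⟩
      exact ⟨h1, h3, h2⟩
    · rintro ⟨h1, h3, h2⟩
      refine ⟨⟨⟨h1, fun hr => ?_⟩, h2⟩, h3⟩
      rw [← (h2 : safe n (↑s : Set Edge) = S)] at h0
      exact (mem_filter.1 h0).2 hr
  rw [hsum, hev]
  calc prob p F {η | safe n η = S} = prob p F {η | safe n η = S} * 1 := (mul_one _).symm
    _ ≤ _ := mul_le_mul_of_nonneg_left (hφ S h0) (prob_nonneg hp hp1 _ _)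

/-- **The linear lower bound.** -/
theorem thetaN_lower {p₀ : ℝ} (h0 : 0 < p₀) (hle : p₀ ≤ p) (hp : p < 1)
    (hφ : ∀ q, p₀ ≤ q → q ≤ p → ∀ S : Finset (ℤ × ℤ), (0 : ℤ × ℤ) ∈ S → 1 ≤ phi q S) (n : ℕ) :
    (p - p₀) / (p * (1 - p₀)) ≤ thetaN n p := by
  set D : ℝ → ℝ := fun x => ∑ e ∈ edgesIn (box n),
    (prob x ((edgesIn (box n)).erase e) {η | insert e η ∈ reach n} -
      prob x ((edgesIn (box n)).erase e) (reach n))
  set h : ℝ → ℝ := fun x => (1 - thetaN n x) * x / (1 - x)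
  set h' : ℝ → ℝ := fun x =>
    ((-D x * x + (1 - thetaN n x)) * (1 - x) + (1 - thetaN n x) * x) / (1 - x) ^ 2
  have hd : ∀ x < 1, HasDerivAt h (h' x) x := fun x hx => by
    have e := (((hasDerivAt_prob (edgesIn (box n)) (reach n) x).const_sub 1).mul
      (hasDerivAt_id' x)).div ((hasDerivAt_id' x).const_sub 1) (by linarith : (1 : ℝ) - x ≠ 0)
    refine e.congr_deriv ?_
    simp only [h', D, thetaN, Pi.mul_apply]
    ring
  have hanti : h p ≤ h p₀ := by
    refine antitoneOn_of_hasDerivWithinAt_nonpos (f' := h') (convex_Icc p₀ p)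
      (fun x hx => (hd x (lt_of_le_of_lt hx.2 hp)).continuousAt.continuousWithinAt)
      (fun x hx => ?_) (fun x hx => ?_) (Set.left_mem_Icc.2 hle) (Set.right_mem_Icc.2 hle) hle
    · rw [interior_Icc] at hx
      exact (hd x (by linarith [hx.2])).hasDerivWithinAt
    · rw [interior_Icc] at hx
      have hx1 : x < 1 := by linarith [hx.2]
      have hb := deriv_bound (h0.le.trans hx.1.le) hx1.le (hφ x hx.1.le hx.2.le) n
      refine div_nonpos_of_nonpos_of_nonneg ?_ (sq_nonneg _)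
      simp only [D] at hb ⊢
      nlinarith
  have hb : h p₀ ≤ p₀ / (1 - p₀) := by
    refine div_le_div_of_nonneg_right ?_ (by linarith)
    nlinarith [thetaN_nonneg h0.le (hle.trans hp.le) n]
  have := hanti.trans hb
  simp only [h] at this
  rw [div_le_div_iff₀ (by linarith) (by linarith)] at this
  rw [div_le_iff₀ (mul_pos (h0.trans_le hle) (by linarith))]
  nlinarith

end FA.Percolation

end
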